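import Fermat.Agent.GalRep.Quad

set_option autoImplicit false
set_option maxHeartbeats 400000

/-!
# Two dimensional representations from quadratic relations
-/

namespace Fermat.Agent.GalRep

open Module

section Dom

variable {G R : Type*} [Group G] [CommRing R] [IsDomain R]
  (T : G →* Matrix (Fin 2) (Fin 2) R) (t : G → R) (χ : G →* R)

/-- the quadratic relation for matrices -/
def MQuad {ι : Type*} [Fintype ι] [DecidableEq ι] (T : G →* Matrix ι ι R) (t : G → R)
    (χ : G →* R) : Prop :=
  ∀ g, T g + χ g • T g⁻¹ = t g • (1 : Matrix ι ι R)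

variable {T t χ}

omit [IsDomain R] in
lemma MQuad.sq {ι : Type*} [Fintype ι] [DecidableEq ι] {T : G →* Matrix ι ι R}
    (h : MQuad T t χ) (g : G) :
    T g * T g - t g • T g + χ g • (1 : Matrix ι ι R) = 0 := by
  have h1 := congrArg (fun x => x * T g) (h g)
  simp only [add_mul, Matrix.smul_mul, one_mul] at h1
  rw [← map_mul T g⁻¹ g, inv_mul_cancel, map_one] at h1
  rw [← h1]
  abel

lemma trace_det_of_nonscalar {M : Matrix (Fin 2) (Fin 2) R} {a d : R}
    (h : M * M - a • M + d • (1 : Matrix (Fin 2) (Fin 2) R) = 0)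
    (hM : ∀ s : R, M ≠ s • (1 : Matrix (Fin 2) (Fin 2) R)) : M.trace = a ∧ M.det = d := by
  have h00 := congrFun (congrFun h 0) 0
  have h01 := congrFun (congrFun h 0) 1
  have h10 := congrFun (congrFun h 1) 0
  have h11 := congrFun (congrFun h 1) 1
  simp only [Matrix.add_apply, Matrix.sub_apply, Matrix.mul_apply, Fin.sum_univ_two,
    Matrix.smul_apply, smul_eq_mul, Matrix.one_apply_eq, Matrix.zero_apply, mul_one] at h00 h11
  rw [Matrix.add_apply, Matrix.sub_apply, Matrix.mul_apply, Fin.sum_univ_two,
    Matrix.smul_apply, smul_eq_mul, Matrix.smul_apply, Matrix.one_apply_ne (by decide),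
    Matrix.zero_apply, smul_zero, add_zero] at h01 h10
  have e01 : (M 0 0 + M 1 1 - a) * M 0 1 = 0 := by linear_combination h01
  have e10 : (M 0 0 + M 1 1 - a) * M 1 0 = 0 := by linear_combination h10
  have ed : (M 0 0 + M 1 1 - a) * (M 0 0 - M 1 1) = 0 := by linear_combination h00 - h11
  have htr : M 0 0 + M 1 1 - a = 0 := by
    by_contra hne
    have f01 := (mul_eq_zero.mp e01).resolve_left hne
    have f10 := (mul_eq_zero.mp e10).resolve_left hne
    have fd := (mul_eq_zero.mp ed).resolve_left hne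
    refine hM (M 0 0) ?_
    ext i j
    fin_cases i <;> fin_cases j
    · simp
    · simpa using f01
    · simpa using f10
    · simpa using (sub_eq_zero.mp fd).symm
  rw [Matrix.trace_fin_two, Matrix.det_fin_two]
  refine ⟨by linear_combination htr, by linear_combination M 0 0 * htr - h00⟩

/-- **Trace and determinant** from the quadratic relation, when the image is not scalar. -/
theorem MQuad.trace_det (h : MQuad T t χ)
    (hns : ∃ c, ∀ s : R, T c ≠ s • (1 : Matrix (Fin 2) (Fin 2) R)) (g : G) :
    (T g).trace = t g ∧ (T g).det = χ g := by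
  obtain ⟨c, hc⟩ := hns
  by_cases hg : ∀ s : R, T g ≠ s • (1 : Matrix (Fin 2) (Fin 2) R)
  · exact trace_det_of_nonscalar (h.sq g) hg
  push Not at hg
  obtain ⟨s, hs⟩ := hg
  -- s is invertible
  have hinv : T g * T g⁻¹ = 1 := by rw [← map_mul, mul_inv_cancel, map_one]
  rw [hs, Matrix.smul_mul, one_mul] at hinv
  have hs1 : s * (T g⁻¹) 0 0 = 1 := by
    have := congrFun (congrFun hinv 0) 0
    simpa using this
  have hs0 : s ≠ 0 := fun h0 => by rw [h0, zero_mul] at hs1; exact zero_ne_one hs1
  obtain ⟨-, hdc⟩ := trace_det_of_nonscalar (h.sq c) hc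
  have hgc : ∀ u : R, T (g * c) ≠ u • (1 : Matrix (Fin 2) (Fin 2) R) := by
    intro u hu
    rw [map_mul, hs, Matrix.smul_mul, one_mul] at hu
    refine hc ((T g⁻¹) 0 0 * u) ?_
    rw [mul_smul, ← hu, smul_smul, mul_comm, hs1, one_smul]
  obtain ⟨-, hdgc⟩ := trace_det_of_nonscalar (h.sq (g * c)) hgc
  rw [map_mul T, Matrix.det_mul, map_mul χ, hdc] at hdgc
  have hχc : χ c ≠ 0 := by
    intro h0
    have h1 : χ c * χ c⁻¹ = 1 := by rw [← map_mul, mul_inv_cancel, map_one]
    rw [h0, zero_mul] at h1
    exact zero_ne_one h1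
  have hdet : (T g).det = χ g := mul_right_cancel₀ hχc hdgc
  refine ⟨?_, hdet⟩
  have hdet2 : (T g).det = s * s := by
    rw [hs, Matrix.det_fin_two]
    simp
  have hr := h g
  have hr00 := congrFun (congrFun hr 0) 0
  rw [hs] at hr00 ⊢
  simp only [Matrix.add_apply, Matrix.smul_apply, smul_eq_mul, Matrix.one_apply_eq,
    mul_one] at hr00
  rw [Matrix.trace_fin_two]
  simp only [Matrix.smul_apply, smul_eq_mul, Matrix.one_apply_eq, mul_one]
  rw [← hr00, ← hdet, hdet2, mul_assoc, hs1, mul_one]

end Dom

section Sub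

variable {G K V : Type*} [Group G] [Field K] [AddCommGroup V] [Module K V]
  (ρ : G →* Module.End K V)

/-- restriction to a stable subspace -/
noncomputable def resRep (U : Submodule K V) (hU : ∀ g, ∀ x ∈ U, ρ g x ∈ U) :
    G →* Module.End K U where
  toFun g := (ρ g).restrict (hU g)
  map_one' := by
    ext x
    simp [LinearMap.restrict_apply]
  map_mul' g k := by
    ext x
    simp [LinearMap.restrict_apply]

lemma coe_resRep (U : Submodule K V) (hU : ∀ g, ∀ x ∈ U, ρ g x ∈ U) (g : G) (x : U) :
    ((resRep ρ U hU g x : U) : V) = ρ g x := rfl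

variable {ρ}

lemma QuadRel.res {t : G → K} {χ : G →* K} (h : QuadRel ρ t χ) (U : Submodule K V)
    (hU : ∀ g, ∀ x ∈ U, ρ g x ∈ U) : QuadRel (resRep ρ U hU) t χ := by
  intro g
  ext x
  have := LinearMap.congr_fun (h g) (x : V)
  simpa [coe_resRep] using this

variable (ρ) in
/-- existence of a minimal stable subspace -/
lemma exists_irred_sub [FiniteDimensional K V] [Nontrivial V] :
    ∃ (U : Submodule K V) (hU : ∀ g, ∀ x ∈ U, ρ g x ∈ U), U ≠ ⊥ ∧ Irred (resRep ρ U hU) := by
  classical
  let P : ℕ → Prop := fun n => ∃ (U : Submodule K V), (∀ g, ∀ x ∈ U, ρ g x ∈ U) ∧ U ≠ ⊥ ∧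
    finrank K U = n
  have hP : ∃ n, P n := ⟨_, ⊤, fun _ _ _ => trivial, top_ne_bot, rfl⟩
  obtain ⟨U, hU, hU0, hUn⟩ := Nat.find_spec hP
  refine ⟨U, hU, hU0, fun W hW => ?_⟩
  by_cases hW0 : W = ⊥
  · exact Or.inl hW0
  right
  have h1 : P (finrank K W) := by
    refine ⟨W.map U.subtype, ?_, ?_, ?_⟩
    · rintro g _ ⟨x, hx, rfl⟩
      exact ⟨_, hW g x hx, rfl⟩
    · intro h0
      apply hW0
      rw [Submodule.eq_bot_iff]
      intro x hx
      have h1 : (x : V) ∈ W.map U.subtype := ⟨x, hx, rfl⟩
      rw [h0, Submodule.mem_bot] at h1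
      exact Subtype.ext h1
    · exact LinearEquiv.finrank_eq (Submodule.equivMapOfInjective _ U.injective_subtype W).symm
  have h2 := Nat.find_min' hP h1
  rw [← hUn] at h2
  exact Submodule.eq_top_of_finrank_eq (le_antisymm (Submodule.finrank_le W) h2)

lemma finrank_pos_of_ne_bot [FiniteDimensional K V] {U : Submodule K V} (h : U ≠ ⊥) :
    0 < finrank K U := by
  haveI : Nontrivial U := Submodule.nontrivial_iff_ne_bot.mpr h
  exact Module.finrank_pos

/-- in dimension one the action is by a character -/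
lemma exists_char_of_finrank_one {U : Type*} [AddCommGroup U] [Module K U]
    (hU : finrank K U = 1) (ρ : G →* Module.End K U) :
    ∃ η : G →* K, ∀ g, ρ g = η g • (1 : Module.End K U) := by
  obtain ⟨v, hv0, hv⟩ := finrank_eq_one_iff'.mp hU
  have h1 : ∀ g, ∃ c : K, ρ g v = c • v := fun g => by
    obtain ⟨c, hc⟩ := hv (ρ g v)
    exact ⟨c, hc.symm⟩
  choose η hη using h1
  have h2 : ∀ g, ρ g = η g • (1 : Module.End K U) := by
    intro g
    ext w
    obtain ⟨c, rfl⟩ := hv w
    rw [map_smul, hη]
    simp only [LinearMap.smul_apply, Module.End.one_apply]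
    rw [smul_comm]
  refine ⟨{ toFun := η, map_one' := ?_, map_mul' := ?_ }, h2⟩
  · have := hη 1
    rw [map_one, Module.End.one_apply] at this
    have h3 : (1 : K) • v = η 1 • v := by rw [one_smul]; exact this
    exact (smul_left_injective K hv0 h3).symm
  · intro g k
    have h3 : η (g * k) • v = (η g * η k) • v := by
      rw [← hη, map_mul, Module.End.mul_apply, hη k, map_smul, hη g, smul_smul, mul_comm]
    exact smul_left_injective K hv0 h3

/-- The two dimensional matrix representation `η ⊕ χ η⁻¹`. -/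
def diagRep {R : Type*} [CommRing R] (η χ : G →* R) : G →* Matrix (Fin 2) (Fin 2) R where
  toFun g := Matrix.diagonal ![η g, χ g * η g⁻¹]
  map_one' := by
    rw [inv_one, map_one, map_one, mul_one]
    ext i j
    fin_cases i <;> fin_cases j <;> simp
  map_mul' g k := by
    rw [Matrix.diagonal_mul_diagonal]
    congr 1
    ext i
    fin_cases i
    · simp [map_mul]
    · simp only [mul_inv_rev, map_mul, Fin.mk_one, Matrix.cons_val_one, Matrix.cons_val_fin_one]
      ring

lemma diagRep_trace {R : Type*} [CommRing R] (η χ : G →* R) (g : G) :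
    (diagRep η χ g).trace = η g + χ g * η g⁻¹ := by
  simp [diagRep, Matrix.trace_fin_two]

lemma diagRep_det {R : Type*} [CommRing R] (η χ : G →* R) (g : G) :
    (diagRep η χ g).det = χ g := by
  have h1 : η g * η g⁻¹ = 1 := by rw [← map_mul, mul_inv_cancel, map_one]
  simp only [diagRep, MonoidHom.coe_mk, OneHom.coe_mk, Matrix.det_diagonal, Fin.prod_univ_two,
    Matrix.cons_val_zero, Matrix.cons_val_one, Matrix.cons_val_fin_one]
  rw [mul_left_comm, h1, mul_one]

/-- **Existence of a two dimensional representation** from a nonzero module with quadratic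
relation, over a field where irreducible ones have dimension `≤ 2`. -/
theorem exists_two_dim [FiniteDimensional K V] [Nontrivial V] {t : G → K} {χ : G →* K}
    (h : QuadRel ρ t χ)
    (hdim : ∀ U : Submodule K V, ∀ hU : (∀ g, ∀ x ∈ U, ρ g x ∈ U), Irred (resRep ρ U hU) →
      finrank K U ≤ 2) :
    ∃ T : G →* Matrix (Fin 2) (Fin 2) K, (∀ g, (T g).trace = t g ∧ (T g).det = χ g) ∧
      ∀ g, ρ g = 1 → χ g = 1 → T g = 1 := by
  classical
  obtain ⟨U, hU, hU0, hirr⟩ := exists_irred_sub ρ
  have h1 := finrank_pos_of_ne_bot hU0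
  have h2 := hdim U hU hirr
  have hq := h.res U hU
  rcases Nat.lt_or_ge (finrank K U) 2 with h3 | h3
  · have h4 : finrank K U = 1 := by omega
    obtain ⟨η, hη⟩ := exists_char_of_finrank_one h4 (resRep ρ U hU)
    obtain ⟨v, hv⟩ := Submodule.exists_mem_ne_zero_of_ne_bot hU0
    have hv0 : (⟨v, hv.1⟩ : U) ≠ 0 := fun h0 => hv.2 (congrArg Subtype.val h0)
    refine ⟨diagRep η χ, fun g => ⟨?_, diagRep_det η χ g⟩, fun g hg hχ => ?_⟩
    · rw [diagRep_trace]
      have h5 := hq g
      rw [hη g, hη g⁻¹, smul_smul, ← add_smul] at h5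
      have h6 := LinearMap.congr_fun h5 ⟨v, hv.1⟩
      simp only [LinearMap.smul_apply, Module.End.one_apply] at h6
      exact smul_left_injective K hv0 h6
    · have h5 : η g = 1 := by
        have h6 : (η g) • (⟨v, hv.1⟩ : U) = (1 : K) • ⟨v, hv.1⟩ := by
          have h7 := LinearMap.congr_fun (hη g) ⟨v, hv.1⟩
          simp only [LinearMap.smul_apply, Module.End.one_apply] at h7
          rw [← h7, one_smul]
          apply Subtype.ext
          rw [coe_resRep, hg]
          rfl
        exact smul_left_injective K hv0 h6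
      have h6 : η g⁻¹ = 1 := by
        have h7 : η g * η g⁻¹ = 1 := by rw [← map_mul, mul_inv_cancel, map_one]
        rwa [h5, one_mul] at h7
      show Matrix.diagonal ![η g, χ g * η g⁻¹] = 1
      rw [h5, h6, hχ, mul_one]
      ext i j
      fin_cases i <;> fin_cases j <;> simp
  · have h4 : finrank K U = 2 := le_antisymm h2 h3
    let b : Module.Basis (Fin 2) K U := Module.finBasisOfFinrankEq K U h4
    let T : G →* Matrix (Fin 2) (Fin 2) K :=
      { toFun := fun g => LinearMap.toMatrix b b (resRep ρ U hU g)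
        map_one' := by rw [map_one, Module.End.one_eq_id, LinearMap.toMatrix_id]
        map_mul' := fun g k => by
          rw [map_mul, Module.End.mul_eq_comp, LinearMap.toMatrix_comp b b b] }
    have hTdef : ∀ g, T g = LinearMap.toMatrix b b (resRep ρ U hU g) := fun g => rfl
    have hT : MQuad T t χ := by
      intro g
      rw [hTdef, hTdef, ← map_smul, ← map_add, hq g, map_smul, Module.End.one_eq_id,
        LinearMap.toMatrix_id]
    have hns : ∃ c, ∀ s : K, T c ≠ s • (1 : Matrix (Fin 2) (Fin 2) K) := by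
      by_contra hall
      push Not at hall
      have h5 := hirr.finrank_le_one_of_scalar (fun g => by
        obtain ⟨s, hs⟩ := hall g
        refine ⟨s, fun w => ?_⟩
        have h6 : resRep ρ U hU g = s • (1 : Module.End K U) := by
          apply (LinearMap.toMatrix b b).injective
          rw [← hTdef, hs, map_smul, Module.End.one_eq_id, LinearMap.toMatrix_id]
        rw [h6]
        rfl)
      omega
    refine ⟨T, hT.trace_det hns, fun g hg _ => ?_⟩
    rw [hTdef]
    have h6 : resRep ρ U hU g = 1 := by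
      ext x
      rw [coe_resRep, hg]
      rfl
    rw [h6, Module.End.one_eq_id, LinearMap.toMatrix_id]

end Sub

end Fermat.Agent.GalRep
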