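import Fermat.Agent.GalRep.Cyclo
import Fermat.Agent.GalRep.Quad2

set_option autoImplicit false
set_option maxHeartbeats 400000

/-!
# Hecke-Galois data: a lattice with Hecke operators and a `p`-adic Galois representation
satisfying the Eichler-Shimura relation.
-/

namespace Fermat.Agent.GalRep

open Fermat.Agent.DefRing IsLocalRing

local notation "Qbar" => AlgebraicClosure ℚ

/-- an integral matrix with entries in a ring -/
def castM {r : ℕ} (R : Type*) [CommRing R] (M : Matrix (Fin r) (Fin r) ℤ) :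
    Matrix (Fin r) (Fin r) R := (Int.castRingHom R).mapMatrix M

/-- the matrix of `castM` as ring hom -/
def castHom (r : ℕ) (R : Type*) [CommRing R] :
    Matrix (Fin r) (Fin r) ℤ →+* Matrix (Fin r) (Fin r) R := (Int.castRingHom R).mapMatrix

lemma castHom_apply {r : ℕ} {R : Type*} [CommRing R] (M : Matrix (Fin r) (Fin r) ℤ)
    (i j : Fin r) : castHom r R M i j = (M i j : R) := rfl

/-- Hecke-Galois data -/
structure HData (N p : ℕ) [Fact p.Prime] where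
  /-- the rank -/
  r : ℕ
  /-- Hecke operators -/
  T : ℕ → Matrix (Fin r) (Fin r) ℤ
  /-- the Galois representation -/
  ρ : GQ →* Matrix (Fin r) (Fin r) ℤ_[p]
  cont : ∀ n : ℕ, ∃ L : IntermediateField ℚ Qbar, FiniteDimensional ℚ L ∧
    ∀ σ : GQ, (∀ x ∈ L, σ x = x) → ∀ i j,
      PadicInt.toZModPow n (ρ σ i j) = (1 : Matrix (Fin r) (Fin r) (ZMod (p ^ n))) i j
  comm : ∀ (g : GQ) (ℓ : ℕ), ℓ.Prime → ¬ ℓ ∣ N * p →
    ρ g * castHom r ℤ_[p] (T ℓ) = castHom r ℤ_[p] (T ℓ) * ρ g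
  frob : ∀ ℓ : ℕ, ℓ.Prime → ¬ ℓ ∣ N * p → ∀ A : ValuationSubring Qbar, A.LiesOverPrime ℓ →
    ∀ τ : GQ, A.IsFrobeniusAt τ ℓ →
      ρ τ * ρ τ - castHom r ℤ_[p] (T ℓ) * ρ τ + (ℓ : ℤ_[p]) • (1 : Matrix (Fin r) (Fin r) ℤ_[p]) = 0
  inert : ∀ q : ℕ, q.Prime → ¬ q ∣ N * p → ∀ A : ValuationSubring Qbar, A.LiesOverPrime q →
    ∀ σ ∈ A.inertiaSubgroupIn ℚ, ρ σ = 1

section Dickson

/-- Dickson recursion -/
def dk {A : Type*} [Ring A] (t a : A) : ℕ → A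
  | 0 => 2
  | 1 => t
  | (n + 2) => t * dk t a (n + 1) - a * dk t a n

lemma map_dk {A B : Type*} [Ring A] [Ring B] (f : A →+* B) (t a : A) (n : ℕ) :
    f (dk t a n) = dk (f t) (f a) n := by
  induction n using Nat.twoStepInduction with
  | zero => exact map_ofNat f 2
  | one => rfl
  | more n ih1 ih2 => rw [dk, dk, map_sub, map_mul, map_mul, ih1, ih2]

lemma dk_eq {A : Type*} [Ring A] {x y t a : A} (hxy : x * y = a) (hyx : y * x = a)
    (hadd : x + y = t) (n : ℕ) : dk t a n = x ^ n + y ^ n := by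
  induction n using Nat.twoStepInduction with
  | zero => rw [dk, pow_zero, pow_zero, one_add_one_eq_two]
  | one => rw [dk, pow_one, pow_one, hadd]
  | more n ih1 ih2 =>
    rw [dk, ih1, ih2, ← hadd]
    have h1 : (x + y) * (x ^ (n + 1) + y ^ (n + 1)) =
        x ^ (n + 2) + y ^ (n + 2) + (x * y) * y ^ n + (y * x) * x ^ n := by
      simp only [add_mul, mul_add, pow_succ']
      noncomm_ring
    rw [h1, hxy, hyx, mul_add]
    abel

/-- in a commutative subalgebra the Dickson elements are in the subalgebra -/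
lemma dk_mem {R A : Type*} [CommRing R] [Ring A] [Algebra R A] (S : Subalgebra R A) {t a : A}
    (ht : t ∈ S) (ha : a ∈ S) (n : ℕ) : dk t a n ∈ S := by
  induction n using Nat.twoStepInduction with
  | zero => exact S.natCast_mem 2
  | one => exact ht
  | more n ih1 ih2 => exact S.sub_mem (S.mul_mem ht ih2) (S.mul_mem ha ih1)

lemma trace_pow_two {R : Type*} [CommRing R] (M : Matrix (Fin 2) (Fin 2) R) (n : ℕ) :
    (M ^ n).trace = dk M.trace M.det n := by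
  have hadd : M + M.adjugate = M.trace • (1 : Matrix (Fin 2) (Fin 2) R) := by
    ext i j
    fin_cases i <;> fin_cases j <;> simp [Matrix.adjugate_fin_two, Matrix.trace_fin_two, add_comm]
  have h1 : ∀ n, dk (M.trace • (1 : Matrix (Fin 2) (Fin 2) R))
      (M.det • (1 : Matrix (Fin 2) (Fin 2) R)) n = M ^ n + M.adjugate ^ n :=
    dk_eq (Matrix.mul_adjugate M) (Matrix.adjugate_mul M) hadd
  have h2 := h1 n
  have h3 : dk (M.trace • (1 : Matrix (Fin 2) (Fin 2) R))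
      (M.det • (1 : Matrix (Fin 2) (Fin 2) R)) n = (dk M.trace M.det n) •
        (1 : Matrix (Fin 2) (Fin 2) R) := by
    have := map_dk (algebraMap R (Matrix (Fin 2) (Fin 2) R)) M.trace M.det n
    rw [Algebra.algebraMap_eq_smul_one, Algebra.algebraMap_eq_smul_one,
      Algebra.algebraMap_eq_smul_one] at this
    exact this.symm
  have h4 : M.adjugate ^ n = (M ^ n).adjugate := (Matrix.adjugate_pow M n).symm
  rw [h3, h4] at h2
  have h00 := congrFun (congrFun h2 0) 0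
  simp only [Matrix.smul_apply, Matrix.one_apply_eq, smul_eq_mul, mul_one, Matrix.add_apply,
    Matrix.adjugate_fin_two, Matrix.of_apply, Matrix.cons_val_zero, Matrix.cons_val'] at h00
  rw [Matrix.trace_fin_two, h00]

end Dickson

namespace HData

variable {N p : ℕ} [Fact p.Prime] (D : HData N p)

/-- the (integral) Hecke algebra acting on the lattice -/
def TT (S : Set ℕ) : Subalgebra ℤ (Matrix (Fin D.r) (Fin D.r) ℤ) :=
  Algebra.adjoin ℤ {M | ∃ ℓ : ℕ, ℓ.Prime ∧ ¬ ℓ ∣ N * p ∧ ℓ ∉ S ∧ M = D.T ℓ}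

variable {D}

lemma T_mem {S : Set ℕ} {ℓ : ℕ} (hℓ : ℓ.Prime) (hℓN : ¬ ℓ ∣ N * p) (hℓS : ℓ ∉ S) :
    D.T ℓ ∈ D.TT S := Algebra.subset_adjoin ⟨ℓ, hℓ, hℓN, hℓS, rfl⟩

lemma castHom_injective (r : ℕ) (R : Type*) [CommRing R] [CharZero R] :
    Function.Injective (castHom r R) := by
  intro M M' h
  ext i j
  have := congrFun (congrFun h i) j
  exact Int.cast_injective this

/-- primes not dividing `N * p` are different from `p` -/
lemma ne_p {ℓ : ℕ} (hℓN : ¬ ℓ ∣ N * p) : ℓ ≠ p := fun h => hℓN (h ▸ dvd_mul_left ℓ N)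

lemma rho_mul_inv (g : GQ) : D.ρ g * D.ρ g⁻¹ = 1 := by rw [← map_mul, mul_inv_cancel, map_one]

lemma rho_inv_mul (g : GQ) : D.ρ g⁻¹ * D.ρ g = 1 := by rw [← map_mul, inv_mul_cancel, map_one]

lemma frob_inv {ℓ : ℕ} (hℓ : ℓ.Prime) (hℓN : ¬ ℓ ∣ N * p) {A : ValuationSubring Qbar}
    (hA : A.LiesOverPrime ℓ) {τ : GQ} (hτ : A.IsFrobeniusAt τ ℓ) :
    D.ρ τ + (ℓ : ℤ_[p]) • D.ρ τ⁻¹ = castHom D.r ℤ_[p] (D.T ℓ) := by
  have h := D.frob ℓ hℓ hℓN A hA τ hτ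
  have h1 := congrArg (fun x => x * D.ρ τ⁻¹) h
  simp only [add_mul, sub_mul, zero_mul, mul_assoc, rho_mul_inv, mul_one, Matrix.smul_mul,
    one_mul] at h1
  rw [sub_add_eq_add_sub, sub_eq_zero] at h1
  exact h1

variable (D) in
/-- the operator `ρ g + χ(g) ρ g⁻¹` -/
noncomputable def th (g : GQ) : Matrix (Fin D.r) (Fin D.r) ℤ_[p] :=
  D.ρ g + cycP p g • D.ρ g⁻¹

lemma th_frob {ℓ : ℕ} (hℓ : ℓ.Prime) (hℓN : ¬ ℓ ∣ N * p) {A : ValuationSubring Qbar}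
    (hA : A.LiesOverPrime ℓ) {τ : GQ} (hτ : A.IsFrobeniusAt τ ℓ) :
    D.th τ = castHom D.r ℤ_[p] (D.T ℓ) := by
  rw [th, cycP_frob p hℓ hA (ne_p hℓN) hτ, frob_inv hℓ hℓN hA hτ]

lemma th_frob_pow {ℓ : ℕ} (hℓ : ℓ.Prime) (hℓN : ¬ ℓ ∣ N * p) {A : ValuationSubring Qbar}
    (hA : A.LiesOverPrime ℓ) {τ : GQ} (hτ : A.IsFrobeniusAt τ ℓ) (k : ℕ) :
    D.th (τ ^ k) = castHom D.r ℤ_[p] (dk (D.T ℓ) (ℓ : Matrix (Fin D.r) (Fin D.r) ℤ) k) := by
  rw [map_dk, map_natCast, th, map_pow D.ρ, map_pow (cycP p),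
    cycP_frob p hℓ hA (ne_p hℓN) hτ]
  have h1 : D.ρ τ * ((ℓ : ℤ_[p]) • D.ρ τ⁻¹) = (ℓ : Matrix (Fin D.r) (Fin D.r) ℤ_[p]) := by
    rw [Matrix.mul_smul, rho_mul_inv, ← Algebra.algebraMap_eq_smul_one, map_natCast]
  have h2 : ((ℓ : ℤ_[p]) • D.ρ τ⁻¹) * D.ρ τ = (ℓ : Matrix (Fin D.r) (Fin D.r) ℤ_[p]) := by
    rw [Matrix.smul_mul, rho_inv_mul, ← Algebra.algebraMap_eq_smul_one, map_natCast]
  rw [dk_eq h1 h2 (frob_inv hℓ hℓN hA hτ), smul_pow, ← map_pow D.ρ τ⁻¹, inv_pow]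

lemma th_inertia {q : ℕ} (hq : q.Prime) (hqN : ¬ q ∣ N * p) {A : ValuationSubring Qbar}
    (hA : A.LiesOverPrime q) {σ : GQ} (hσ : σ ∈ A.inertiaSubgroupIn ℚ) (g : GQ) :
    D.th (g * σ) = D.th g := by
  have h1 := D.inert q hq hqN A hA σ hσ
  have h2 : D.ρ σ⁻¹ = 1 := D.inert q hq hqN A hA σ⁻¹ (inv_mem hσ)
  rw [th, th, map_mul, h1, mul_one, map_mul, cycP_inertia p hq hA (ne_p hqN) hσ, mul_one,
    mul_inv_rev, map_mul, h2, one_mul]

/-- the Hecke operators commute -/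
lemma T_comm {ℓ ℓ' : ℕ} (hℓ : ℓ.Prime) (hℓN : ¬ ℓ ∣ N * p) (hℓ' : ℓ'.Prime)
    (hℓN' : ¬ ℓ' ∣ N * p) : D.T ℓ * D.T ℓ' = D.T ℓ' * D.T ℓ := by
  obtain ⟨A, hA, τ, hτ⟩ := Frob.exists_place_frobenius hℓ
  apply castHom_injective D.r ℤ_[p]
  rw [map_mul, map_mul, ← frob_inv hℓ hℓN hA hτ, add_mul, mul_add, Matrix.smul_mul,
    Matrix.mul_smul, D.comm τ ℓ' hℓ' hℓN', D.comm τ⁻¹ ℓ' hℓ' hℓN']

instance isMulCommutative_TT (S : Set ℕ) : IsMulCommutative (D.TT S) :=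
  Algebra.isMulCommutative_adjoin ℤ (by
    rintro _ ⟨ℓ, hℓ, hℓN, -, rfl⟩ _ ⟨ℓ', hℓ', hℓN', -, rfl⟩
    exact T_comm hℓ hℓN hℓ' hℓN')

lemma rho_comm_mem {S : Set ℕ} (g : GQ) {x : Matrix (Fin D.r) (Fin D.r) ℤ} (hx : x ∈ D.TT S) :
    D.ρ g * castHom D.r ℤ_[p] x = castHom D.r ℤ_[p] x * D.ρ g := by
  induction hx using Algebra.adjoin_induction with
  | mem x hx =>
    obtain ⟨ℓ, hℓ, hℓN, -, rfl⟩ := hx
    exact D.comm g ℓ hℓ hℓN
  | algebraMap m =>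
    rw [eq_intCast, map_intCast]
    exact (Int.cast_commute m (D.ρ g)).symm
  | add x y _ _ hx hy => rw [map_add, mul_add, add_mul, hx, hy]
  | mul x y _ _ hx hy => rw [map_mul, ← mul_assoc, hx, mul_assoc, hy, mul_assoc]

/-- closeness of representations at a finite level -/
lemma rho_congr {n : ℕ} {L : IntermediateField ℚ Qbar}
    (hL : ∀ σ : GQ, (∀ x ∈ L, σ x = x) → ∀ i j,
      PadicInt.toZModPow n (D.ρ σ i j) = (1 : Matrix (Fin D.r) (Fin D.r) (ZMod (p ^ n))) i j)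
    {g k : GQ} (hgk : ∀ x ∈ L, g x = k x) :
    (PadicInt.toZModPow n).mapMatrix (D.ρ g) = (PadicInt.toZModPow n).mapMatrix (D.ρ k) := by
  have h1 : (PadicInt.toZModPow n).mapMatrix (D.ρ (k⁻¹ * g)) = 1 := by
    ext i j
    refine hL (k⁻¹ * g) (fun x hx => ?_) i j
    rw [AlgEquiv.mul_apply, hgk x hx]
    exact inv_smul_smul k x
  have h2 : g = k * (k⁻¹ * g) := by group
  rw [h2, map_mul, map_mul, h1, mul_one]

/-- **Approximation**: for any finite extension `L₀` of `ℚ` and `n`, there are a Frobenius `τ`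
outside `S` and `k` with `τ ^ k = g` on `L₀` and
`th g ≡ dk (T ℓ) ℓ k` modulo `p ^ n`. -/
theorem exists_approx (S : Set ℕ) (hS : S.Finite) (hN : N ≠ 0) (g : GQ) (n : ℕ)
    (L₀ : IntermediateField ℚ Qbar) [FiniteDimensional ℚ L₀] :
    ∃ (ℓ k : ℕ) (_ : ℓ.Prime) (_ : ¬ ℓ ∣ N * p) (_ : ℓ ∉ S), ∃ A : ValuationSubring Qbar,
      A.LiesOverPrime ℓ ∧ ∃ τ : GQ, A.IsFrobeniusAt τ ℓ ∧ (∀ x ∈ L₀, (τ ^ k) x = g x) ∧
        (PadicInt.toZModPow n).mapMatrix (D.th g) =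
          castHom D.r (ZMod (p ^ n)) (dk (D.T ℓ) (ℓ : Matrix (Fin D.r) (Fin D.r) ℤ) k) := by
  obtain ⟨L₁, hL₁, h₁⟩ := D.cont n
  obtain ⟨L₂, hL₂, h₂⟩ := cycP_finite p n
  have hfin : (S ∪ {ℓ | ℓ.Prime ∧ ℓ ∣ N * p}).Finite := by
    refine hS.union ((Set.finite_le_nat (N * p)).subset ?_)
    rintro ℓ ⟨-, hℓ⟩
    exact Nat.le_of_dvd (Nat.pos_of_ne_zero
      (mul_ne_zero hN (Fact.out : p.Prime).ne_zero)) hℓ
  obtain ⟨ℓ, hℓ, hℓS, A, hA, τ, hτ, k, -, hk, -⟩ :=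
    FrobDens.exists_frobenius (L₀ ⊔ (L₁ ⊔ L₂)) _ hfin g
  have hℓN : ¬ ℓ ∣ N * p := fun h => hℓS (Or.inr ⟨hℓ, h⟩)
  refine ⟨ℓ, k, hℓ, hℓN, fun h => hℓS (Or.inl h), A, hA, τ, hτ,
    fun x hx => hk x (le_sup_left (a := L₀) hx), ?_⟩
  have hk1 : ∀ x ∈ L₁, (τ ^ k) x = g x := fun x hx =>
    hk x (le_sup_right (a := L₀) (le_sup_left (a := L₁) hx))
  have hk2 : ∀ x ∈ L₂, (τ ^ k) x = g x := fun x hx =>
    hk x (le_sup_right (a := L₀) (le_sup_right (a := L₁) hx))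
  have e1 := rho_congr h₁ hk1
  have e2 : (PadicInt.toZModPow n).mapMatrix (D.ρ (τ ^ k)⁻¹) =
      (PadicInt.toZModPow n).mapMatrix (D.ρ g⁻¹) := by
    have f1 : (PadicInt.toZModPow n).mapMatrix (D.ρ g⁻¹) *
        (PadicInt.toZModPow n).mapMatrix (D.ρ g) = 1 := by
      rw [← map_mul, rho_inv_mul, map_one]
    have f2 : (PadicInt.toZModPow n).mapMatrix (D.ρ (τ ^ k)) *
        (PadicInt.toZModPow n).mapMatrix (D.ρ (τ ^ k)⁻¹) = 1 := by
      rw [← map_mul, rho_mul_inv, map_one]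
    calc (PadicInt.toZModPow n).mapMatrix (D.ρ (τ ^ k)⁻¹)
        = ((PadicInt.toZModPow n).mapMatrix (D.ρ g⁻¹) *
          (PadicInt.toZModPow n).mapMatrix (D.ρ g)) *
          (PadicInt.toZModPow n).mapMatrix (D.ρ (τ ^ k)⁻¹) := by rw [f1, one_mul]
      _ = (PadicInt.toZModPow n).mapMatrix (D.ρ g⁻¹) := by
          rw [mul_assoc, ← e1, f2, mul_one]
  have e3 : PadicInt.toZModPow n (cycP p (τ ^ k)) = PadicInt.toZModPow n (cycP p g) := by
    have f1 : PadicInt.toZModPow n (cycP p (g⁻¹ * τ ^ k)) = 1 := by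
      refine h₂ _ fun x hx => ?_
      rw [AlgEquiv.mul_apply, hk2 x hx]
      exact inv_smul_smul g x
    have f2 : τ ^ k = g * (g⁻¹ * τ ^ k) := by group
    rw [f2, map_mul, map_mul, f1, mul_one]
  have e4 := th_frob_pow (D := D) hℓ hℓN hA hτ k
  have e5 : (PadicInt.toZModPow n).mapMatrix (D.th (τ ^ k)) =
      (PadicInt.toZModPow n).mapMatrix (D.th g) := by
    have hs : ∀ (c : ℤ_[p]) (M : Matrix (Fin D.r) (Fin D.r) ℤ_[p]),
        (PadicInt.toZModPow n).mapMatrix (c • M) =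
          PadicInt.toZModPow n c • (PadicInt.toZModPow n).mapMatrix M := by
      intro c M
      ext i j
      simp
    rw [th, th, map_add, map_add, hs, hs, e1, e2, e3]
  rw [← e5, e4]
  ext i j
  rw [RingHom.mapMatrix_apply, Matrix.map_apply, castHom_apply, castHom_apply, map_intCast]

end HData

end Fermat.Agent.GalRep
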