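import Fermat.Agent.GalRep.Data
import Fermat.Prelude.Def_CuspForm_HeckeAlgebra

set_option autoImplicit false
set_option maxHeartbeats 400000

/-!
# Linking Hecke-Galois data with the Hecke algebra of cusp forms
-/

namespace Fermat.Agent.GalRep

open CuspForm

namespace HData

variable {N p : ℕ} [Fact p.Prime] [NeZero N]

/-- the relations among the Hecke operators on the lattice hold for the Hecke operators
on cusp forms -/
def Link (D : HData N p) : Prop :=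
  ∀ P : FreeAlgebra ℤ {ℓ : ℕ // ℓ.Prime ∧ ¬ ℓ ∣ N * p},
    FreeAlgebra.lift ℤ (fun i : {ℓ : ℕ // ℓ.Prime ∧ ¬ ℓ ∣ N * p} => D.T i.1) P = 0 →
    FreeAlgebra.lift ℤ (fun i : {ℓ : ℕ // ℓ.Prime ∧ ¬ ℓ ∣ N * p} =>
      (heckeTLin 2 i.2.1 (fun h => i.2.2 (h.mul_right p)) :
        Module.End ℂ (CuspForm (CongruenceSubgroup.Gamma0 N) 2))) P = 0

variable (D : HData N p) (S : Set ℕ)

/-- the index set -/
abbrev Jx (N p : ℕ) (S : Set ℕ) := {ℓ : ℕ // ℓ.Prime ∧ ¬ ℓ ∣ N * p ∧ ℓ ∉ S}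

/-- the surjection from the free algebra -/
noncomputable def fTT : FreeAlgebra ℤ (Jx N p S) →ₐ[ℤ] D.TT S :=
  FreeAlgebra.lift ℤ (fun i : Jx N p S => (⟨D.T i.1, T_mem i.2.1 i.2.2.1 i.2.2.2⟩ : D.TT S))

/-- the map from the free algebra to the Hecke algebra -/
noncomputable def gTT : FreeAlgebra ℤ (Jx N p S) →ₐ[ℤ] heckeAlgebra N 2 S :=
  FreeAlgebra.lift ℤ (fun i : Jx N p S =>
    (heckeAlgebra.T i.2.1 (fun h => i.2.2.1 (h.mul_right p)) i.2.2.2 : heckeAlgebra N 2 S))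

lemma fTT_surjective : Function.Surjective (fTT D S) := by
  intro ⟨x, hx⟩
  suffices h : x ∈ ((D.TT S).val.comp (fTT D S)).range by
    obtain ⟨y, hy⟩ := h
    exact ⟨y, Subtype.ext hy⟩
  revert hx
  refine fun hx => (Algebra.adjoin_le ?_ : D.TT S ≤ _) hx
  rintro M ⟨ℓ, hℓ, hℓN, hℓS, rfl⟩
  exact ⟨FreeAlgebra.ι ℤ ⟨ℓ, hℓ, hℓN, hℓS⟩, by simp [fTT]⟩

variable {D}

lemma ker_le (h : D.Link) : RingHom.ker (fTT D S).toRingHom ≤ RingHom.ker (gTT (p := p) S).toRingHom := by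
  intro P hP
  have hP' : fTT D S P = 0 := hP
  let m : FreeAlgebra ℤ (Jx N p S) →ₐ[ℤ] FreeAlgebra ℤ {ℓ : ℕ // ℓ.Prime ∧ ¬ ℓ ∣ N * p} :=
    FreeAlgebra.lift ℤ (fun i : Jx N p S => FreeAlgebra.ι ℤ ⟨i.1, i.2.1, i.2.2.1⟩)
  have h1 : (D.TT S).val.comp (fTT D S) =
      (FreeAlgebra.lift ℤ (fun i : {ℓ : ℕ // ℓ.Prime ∧ ¬ ℓ ∣ N * p} => D.T i.1)).comp m := by
    ext i : 2
    simp [fTT, m]
  have h2 : (heckeAlgebra N 2 S).val.comp (gTT (p := p) S) =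
      (FreeAlgebra.lift ℤ (fun i : {ℓ : ℕ // ℓ.Prime ∧ ¬ ℓ ∣ N * p} =>
      (heckeTLin 2 i.2.1 (fun h => i.2.2 (h.mul_right p)) :
        Module.End ℂ (CuspForm (CongruenceSubgroup.Gamma0 N) 2)))).comp m := by
    ext i : 2
    simp [gTT, m]
  have h3 := h (m P) (by
    have := DFunLike.congr_fun h1 P
    rw [AlgHom.comp_apply, hP', map_zero] at this
    exact this.symm)
  have h4 := DFunLike.congr_fun h2 P
  rw [AlgHom.comp_apply, AlgHom.comp_apply, h3] at h4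
  exact Subtype.ext h4

/-- the ring homomorphism from the Hecke algebra of the lattice to the Hecke algebra of
cusp forms -/
noncomputable def Phi (h : D.Link) : D.TT S →+* heckeAlgebra N 2 S :=
  RingHom.liftOfSurjective (fTT D S).toRingHom (fTT_surjective D S)
    ⟨(gTT (p := p) S).toRingHom, ker_le S h⟩

lemma Phi_T (h : D.Link) {ℓ : ℕ} (hℓ : ℓ.Prime) (hℓN : ¬ ℓ ∣ N * p) (hℓS : ℓ ∉ S) :
    Phi S h ⟨D.T ℓ, T_mem hℓ hℓN hℓS⟩ =
      heckeAlgebra.T hℓ (fun h => hℓN (h.mul_right p)) hℓS := by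
  have h1 := RingHom.liftOfSurjective_comp_apply (fTT D S).toRingHom (fTT_surjective D S)
    ⟨(gTT (p := p) S).toRingHom, ker_le S h⟩ (FreeAlgebra.ι ℤ ⟨ℓ, hℓ, hℓN, hℓS⟩)
  have h2 : (fTT D S).toRingHom (FreeAlgebra.ι ℤ ⟨ℓ, hℓ, hℓN, hℓS⟩) =
      ⟨D.T ℓ, T_mem hℓ hℓN hℓS⟩ := by simp [fTT]
  have h3 : (gTT (p := p) S).toRingHom (FreeAlgebra.ι ℤ ⟨ℓ, hℓ, hℓN, hℓS⟩) =
      heckeAlgebra.T hℓ (fun h => hℓN (h.mul_right p)) hℓS := by simp [gTT]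
  rw [h2, h3] at h1
  exact h1

end HData

end Fermat.Agent.GalRep
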