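import Fermat.Agent.FrobDens.Main
import Fermat.Agent.DefRing.MatRep
import Mathlib.NumberTheory.Cyclotomic.CyclotomicCharacter
import Mathlib.RingTheory.AdicCompletion.RingHom

set_option autoImplicit false
set_option maxHeartbeats 400000

/-!
# The cyclotomic character with values in an adically complete ring
-/

namespace Fermat.Agent.GalRep

open Fermat.Agent.DefRing IsLocalRing

local notation "Qbar" => AlgebraicClosure ℚ

section Valuation

variable {A : ValuationSubring Qbar} {ℓ : ℕ}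

/-- prime-to-`ℓ` roots of unity are distinguished by the residue field -/
lemma rootOfUnity_eq_of_valuation_lt (hℓ : ℓ.Prime) (hA : A.LiesOverPrime ℓ) {m : ℕ}
    (hm : ¬ ℓ ∣ m) {x y : Qbar} (hx : x ^ m = 1) (hy : y ^ m = 1)
    (h : A.valuation (x - y) < 1) : x = y := by
  haveI : Fact ℓ.Prime := ⟨hℓ⟩
  haveI := FrobDens.charP_residueField A hℓ hA
  have hm0 : m ≠ 0 := fun h0 => hm (h0 ▸ dvd_zero ℓ)
  haveI : NeZero m := ⟨hm0⟩
  have hy0 : y ≠ 0 := fun h0 => by rw [h0, zero_pow hm0] at hy; exact zero_ne_one hy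
  by_contra hne
  -- pass to z = x / y
  set z := x / y with hz
  have hzm : z ^ m = 1 := by rw [hz, div_pow, hx, hy, div_one]
  have hz1 : z ≠ 1 := fun h1 => hne ((div_eq_one_iff_eq hy0).mp h1)
  have hvy : A.valuation y = 1 := by
    have h1 : A.valuation y ^ m = 1 := by rw [← map_pow, hy, map_one]
    exact (pow_eq_one_iff.mp h1).resolve_right hm0
  have hvz : A.valuation (z - 1) < 1 := by
    have h1 : z - 1 = (x - y) / y := by rw [hz, sub_div, div_self hy0]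
    rw [h1, map_div₀, hvy, div_one]
    exact h
  -- in the residue field the geometric sum is m
  have hvz1 : A.valuation z = 1 := by
    have h1 : A.valuation z ^ m = 1 := by rw [← map_pow, hzm, map_one]
    exact (pow_eq_one_iff.mp h1).resolve_right hm0
  have hzA : z ∈ A := (A.valuation_le_one_iff z).mp hvz1.le
  let Z : A := ⟨z, hzA⟩
  have hres : IsLocalRing.residue A Z = 1 := by
    rw [← map_one (IsLocalRing.residue A), FrobDens.residue_eq_iff]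
    exact hvz
  have hgeom : ∑ i ∈ Finset.range m, Z ^ i = 0 := by
    have h1 : (∑ i ∈ Finset.range m, Z ^ i) * (Z - 1) = 0 := by
      rw [geom_sum_mul]
      have : Z ^ m = 1 := Subtype.ext hzm
      rw [this, sub_self]
    rcases mul_eq_zero.mp h1 with h2 | h2
    · exact h2
    · exfalso
      apply hz1
      have := congrArg Subtype.val (sub_eq_zero.mp h2)
      exact this
  have h2 : (m : IsLocalRing.ResidueField A) = 0 := by
    have h3 := congrArg (IsLocalRing.residue A) hgeom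
    rw [map_sum, map_zero] at h3
    rw [← h3]
    simp only [map_pow, hres, one_pow, Finset.sum_const, Finset.card_range, nsmul_eq_mul, mul_one]
  exact hm ((CharP.cast_eq_zero_iff (IsLocalRing.ResidueField A) ℓ m).mp h2)

/-- inertia elements, elementary description -/
lemma valuation_sub_lt_of_mem_inertia {σ : GQ} (hσ : σ ∈ A.inertiaSubgroupIn ℚ) {x : Qbar}
    (hx : x ∈ A) : A.valuation (σ x - x) < 1 := by
  obtain ⟨⟨σ', hσ'⟩, h1, h2⟩ := hσ
  have h3 : σ' = σ := h2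
  subst h3
  have h4 : (⟨σ', hσ'⟩ : A.decompositionSubgroup ℚ) ∈ MonoidHom.ker _ := h1
  rw [MonoidHom.mem_ker] at h4
  have h5 := DFunLike.congr_fun h4 (IsLocalRing.residue A ⟨x, hx⟩)
  have h6 : IsLocalRing.residue A ((⟨σ', hσ'⟩ : A.decompositionSubgroup ℚ) • (⟨x, hx⟩ : A)) =
      IsLocalRing.residue A ⟨x, hx⟩ := h5
  exact (FrobDens.residue_eq_iff A ((⟨σ', hσ'⟩ : A.decompositionSubgroup ℚ) • (⟨x, hx⟩ : A))
    (⟨x, hx⟩ : A)).mp h6

lemma mem_of_pow_eq_one {m : ℕ} (hm : m ≠ 0) {x : Qbar} (hx : x ^ m = 1) : x ∈ A := by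
  rw [← A.valuation_le_one_iff]
  have h1 : A.valuation x ^ m = 1 := by rw [← map_pow, hx, map_one]
  exact ((pow_eq_one_iff.mp h1).resolve_right hm).le

/-- Frobenius acts on prime-to-`ℓ` roots of unity by raising to the `ℓ`-th power. -/
lemma frob_rootOfUnity (hℓ : ℓ.Prime) (hA : A.LiesOverPrime ℓ) {τ : GQ}
    (hτ : A.IsFrobeniusAt τ ℓ) {m : ℕ} (hm : ¬ ℓ ∣ m) {x : Qbar} (hx : x ^ m = 1) :
    τ x = x ^ ℓ := by
  have hm0 : m ≠ 0 := fun h0 => hm (h0 ▸ dvd_zero ℓ)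
  refine rootOfUnity_eq_of_valuation_lt hℓ hA hm (by rw [← map_pow, hx, map_one])
    (by rw [← pow_mul, mul_comm, pow_mul, hx, one_pow]) ?_
  exact (FrobDens.isFrobeniusAt_iff.mp hτ).2 x (mem_of_pow_eq_one hm0 hx)

/-- inertia acts trivially on prime-to-`ℓ` roots of unity -/
lemma inertia_rootOfUnity (hℓ : ℓ.Prime) (hA : A.LiesOverPrime ℓ) {σ : GQ}
    (hσ : σ ∈ A.inertiaSubgroupIn ℚ) {m : ℕ} (hm : ¬ ℓ ∣ m) {x : Qbar} (hx : x ^ m = 1) :
    σ x = x := by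
  have hm0 : m ≠ 0 := fun h0 => hm (h0 ▸ dvd_zero ℓ)
  exact rootOfUnity_eq_of_valuation_lt hℓ hA hm (by rw [← map_pow, hx, map_one]) hx
    (valuation_sub_lt_of_mem_inertia hσ (mem_of_pow_eq_one hm0 hx))

end Valuation

section Padic

variable (p : ℕ) [Fact p.Prime]

instance hasEnough (i : ℕ) : HasEnoughRootsOfUnity Qbar (p ^ i) := by
  haveI : NeZero ((p ^ i : ℕ) : Qbar) :=
    ⟨by exact_mod_cast pow_ne_zero i (Fact.out : p.Prime).ne_zero⟩
  infer_instance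

/-- the `p`-adic cyclotomic character of `Gal(Qbar/ℚ)`, with values in `ℤ_p` -/
noncomputable def cycP : GQ →* ℤ_[p] where
  toFun g := ((cyclotomicCharacter Qbar p (g : Qbar ≃+* Qbar) : ℤ_[p]ˣ) : ℤ_[p])
  map_one' := by
    have : ((1 : GQ) : Qbar ≃+* Qbar) = 1 := rfl
    rw [this, map_one, Units.val_one]
  map_mul' g h := by
    have : ((g * h : GQ) : Qbar ≃+* Qbar) = (g : Qbar ≃+* Qbar) * (h : Qbar ≃+* Qbar) := rfl
    rw [this, map_mul, Units.val_mul]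

lemma cycP_spec (g : GQ) {n : ℕ} {t : Qbar} (ht : t ^ p ^ n = 1) :
    g t = t ^ ((PadicInt.toZModPow n (cycP p g)).val) :=
  cyclotomicCharacter.spec p (g : Qbar ≃+* Qbar) t ht

/-- characterization of the cyclotomic character mod `p ^ n` -/
lemma toZModPow_cycP_eq (g : GQ) {n : ℕ} {ζ : Qbar} (hζ : IsPrimitiveRoot ζ (p ^ n)) {a : ℕ}
    (h : g ζ = ζ ^ a) : PadicInt.toZModPow n (cycP p g) = (a : ZMod (p ^ n)) := by
  have h1 := cycP_spec p g hζ.pow_eq_one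
  rw [h] at h1
  have h2 := (hζ.isUnit (pow_ne_zero n (Fact.out : p.Prime).ne_zero))
  have h3 : ζ ^ ((a : ZMod (p ^ n)).val) = ζ ^ ((PadicInt.toZModPow n (cycP p g)).val) := by
    rw [← h1, ZMod.val_natCast, ← pow_mod_orderOf ζ a, ← hζ.eq_orderOf]
  haveI : NeZero (p ^ n) := ⟨pow_ne_zero n (Fact.out : p.Prime).ne_zero⟩
  have h4 := hζ.pow_inj (ZMod.val_lt _) (ZMod.val_lt _) h3
  exact (ZMod.val_injective _ h4).symm

lemma cycP_frob {A : ValuationSubring Qbar} {ℓ : ℕ} (hℓ : ℓ.Prime) (hA : A.LiesOverPrime ℓ)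
    (hℓp : ℓ ≠ p) {τ : GQ} (hτ : A.IsFrobeniusAt τ ℓ) : cycP p τ = (ℓ : ℤ_[p]) := by
  refine PadicInt.ext_of_toZModPow.mp fun n => ?_
  obtain ⟨ζ, hζ⟩ := HasEnoughRootsOfUnity.exists_primitiveRoot Qbar (p ^ n)
  rw [map_natCast]
  refine toZModPow_cycP_eq p τ hζ (frob_rootOfUnity hℓ hA hτ (m := p ^ n) ?_ hζ.pow_eq_one)
  intro h
  exact hℓp ((Nat.prime_dvd_prime_iff_eq hℓ Fact.out).mp (hℓ.dvd_of_dvd_pow h))

lemma cycP_inertia {A : ValuationSubring Qbar} {ℓ : ℕ} (hℓ : ℓ.Prime) (hA : A.LiesOverPrime ℓ)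
    (hℓp : ℓ ≠ p) {σ : GQ} (hσ : σ ∈ A.inertiaSubgroupIn ℚ) : cycP p σ = 1 := by
  refine PadicInt.ext_of_toZModPow.mp fun n => ?_
  obtain ⟨ζ, hζ⟩ := HasEnoughRootsOfUnity.exists_primitiveRoot Qbar (p ^ n)
  rw [map_one]
  have h1 : σ ζ = ζ ^ 1 := by
    rw [pow_one]
    refine inertia_rootOfUnity hℓ hA hσ (m := p ^ n) ?_ hζ.pow_eq_one
    intro h
    exact hℓp ((Nat.prime_dvd_prime_iff_eq hℓ Fact.out).mp (hℓ.dvd_of_dvd_pow h))
  rw [toZModPow_cycP_eq p σ hζ h1, Nat.cast_one]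

lemma cycP_finite (n : ℕ) : ∃ L : IntermediateField ℚ Qbar, FiniteDimensional ℚ L ∧
    ∀ σ : GQ, (∀ x ∈ L, σ x = x) → PadicInt.toZModPow n (cycP p σ) = 1 := by
  obtain ⟨ζ, hζ⟩ := HasEnoughRootsOfUnity.exists_primitiveRoot Qbar (p ^ n)
  have hint : IsIntegral ℚ ζ := by
    refine IsIntegral.of_pow (n := p ^ n) (pow_pos (Fact.out : p.Prime).pos n) ?_
    rw [hζ.pow_eq_one]
    exact isIntegral_one
  refine ⟨IntermediateField.adjoin ℚ {ζ}, IntermediateField.adjoin.finiteDimensional hint,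
    fun σ hσ => ?_⟩
  have h1 : σ ζ = ζ ^ 1 := by
    rw [pow_one]
    exact hσ ζ (IntermediateField.mem_adjoin_simple_self ℚ ζ)
  rw [toZModPow_cycP_eq p σ hζ h1, Nat.cast_one]

end Padic


section Complete

variable (p : ℕ) [Fact p.Prime] {R : Type} [CommRing R] (I : Ideal R)

lemma natCast_pow_quot_eq_zero (hpR : (p : R) ∈ I) (n : ℕ) :
    ((p ^ n : ℕ) : R ⧸ I ^ n) = 0 := by
  have : ((p ^ n : ℕ) : R ⧸ I ^ n) = Ideal.Quotient.mk (I ^ n) ((p : R) ^ n) := by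
    rw [← Nat.cast_pow, map_natCast]
  rw [this, Ideal.Quotient.eq_zero_iff_mem]
  exact Ideal.pow_mem_pow hpR n

/-- the map `ℤ/p^n → R/I^n` -/
noncomputable def zmodToQuot (hpR : (p : R) ∈ I) (n : ℕ) : ZMod (p ^ n) →+* R ⧸ I ^ n :=
  haveI := ringChar.charP (R ⧸ I ^ n)
  ZMod.castHom (ringChar.dvd (natCast_pow_quot_eq_zero p I hpR n)) (R ⧸ I ^ n)

/-- the map `ℤ_p → R/I^n` -/
noncomputable def toQuot (hpR : (p : R) ∈ I) (n : ℕ) : ℤ_[p] →+* R ⧸ I ^ n :=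
  (zmodToQuot p I hpR n).comp (PadicInt.toZModPow n)

lemma toQuot_comp (hpR : (p : R) ∈ I) {m n : ℕ} (hle : m ≤ n) :
    (Ideal.Quotient.factorPow I hle).comp (toQuot p I hpR n) = toQuot p I hpR m := by
  have h1 := PadicInt.zmod_cast_comp_toZModPow (p := p) m n hle
  unfold toQuot
  rw [← h1, ← RingHom.comp_assoc, ← RingHom.comp_assoc]
  congr 1
  exact RingHom.ext_zmod _ _

variable [IsAdicComplete I R]

/-- the ring homomorphism `ℤ_p → R` for `R` adically complete with `p ∈ I`. -/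
noncomputable def padicTo (hpR : (p : R) ∈ I) : ℤ_[p] →+* R :=
  IsAdicComplete.liftRingHom I (toQuot p I hpR) (toQuot_comp p I hpR)

lemma mk_padicTo (hpR : (p : R) ∈ I) (n : ℕ) (x : ℤ_[p]) :
    Ideal.Quotient.mk (I ^ n) (padicTo p I hpR x) =
      zmodToQuot p I hpR n (PadicInt.toZModPow n x) :=
  IsAdicComplete.mk_liftRingHom I _ _ n x

/-- the cyclotomic character with values in `R` -/
noncomputable def cyc (hpR : (p : R) ∈ I) : GQ →* R :=
  (padicTo p I hpR).toMonoidHom.comp (cycP p)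

lemma cyc_frob (hpR : (p : R) ∈ I) {A : ValuationSubring Qbar} {ℓ : ℕ} (hℓ : ℓ.Prime)
    (hA : A.LiesOverPrime ℓ) (hℓp : ℓ ≠ p) {τ : GQ} (hτ : A.IsFrobeniusAt τ ℓ) :
    cyc p I hpR τ = (ℓ : R) := by
  show padicTo p I hpR (cycP p τ) = _
  rw [cycP_frob p hℓ hA hℓp hτ, map_natCast]

lemma cyc_inertia (hpR : (p : R) ∈ I) {A : ValuationSubring Qbar} {ℓ : ℕ} (hℓ : ℓ.Prime)
    (hA : A.LiesOverPrime ℓ) (hℓp : ℓ ≠ p) {σ : GQ} (hσ : σ ∈ A.inertiaSubgroupIn ℚ) :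
    cyc p I hpR σ = 1 := by
  show padicTo p I hpR (cycP p σ) = _
  rw [cycP_inertia p hℓ hA hℓp hσ, map_one]

lemma cyc_finite (hpR : (p : R) ∈ I) (n : ℕ) : ∃ L : IntermediateField ℚ Qbar,
    FiniteDimensional ℚ L ∧ ∀ σ : GQ, (∀ x ∈ L, σ x = x) → cyc p I hpR σ - 1 ∈ I ^ n := by
  obtain ⟨L, hL, h⟩ := cycP_finite p n
  refine ⟨L, hL, fun σ hσ => ?_⟩
  rw [← Ideal.Quotient.eq_zero_iff_mem, map_sub, map_one]
  show Ideal.Quotient.mk (I ^ n) (padicTo p I hpR (cycP p σ)) - 1 = 0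
  rw [mk_padicTo, h σ hσ, map_one, sub_self]

lemma cyc_mul_inv (hpR : (p : R) ∈ I) (σ : GQ) : cyc p I hpR σ * cyc p I hpR σ⁻¹ = 1 := by
  rw [← map_mul, mul_inv_cancel, map_one]

end Complete

end Fermat.Agent.GalRep
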