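import Mathlib

set_option autoImplicit false
set_option maxHeartbeats 400000

/-!
# Integral bases of stable subspaces
-/

namespace Fermat.Agent.GalRep

open Matrix

section Ech

variable {B E : Type*} [CommRing B] [IsDomain B] [ValuationRing B] [Field E] [Algebra B E]
  [IsFractionRing B E]

variable (B) in
/-- a finite family, not all zero, has an element dividing all others -/
lemma exists_dominating {ι : Type*} [Finite ι] (f : ι → E) (hf : ∃ i, f i ≠ 0) :
    ∃ i, f i ≠ 0 ∧ ∀ k, ∃ b : B, algebraMap B E b = f k / f i := by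
  haveI : Nonempty ι := ⟨hf.choose⟩
  obtain ⟨i, hi⟩ := Finite.exists_max (fun i => ValuationRing.valuation B E (f i))
  obtain ⟨k₀, hk₀⟩ := hf
  have hi0 : f i ≠ 0 := by
    intro h0
    have h1 := hi k₀
    rw [h0, map_zero, le_zero_iff, Valuation.zero_iff] at h1
    exact hk₀ h1
  refine ⟨i, hi0, fun k => ?_⟩
  rw [← ValuationRing.mem_integer_iff, Valuation.mem_integer_iff, map_div₀]
  exact div_le_one_of_le₀ (hi k) zero_le'

variable (B) in
/-- echelon form with integral entries -/
lemma exists_echelon {r d : ℕ} (A : Matrix (Fin r) (Fin d) E)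
    (hA : ∃ idx : Fin d → Fin r, (A.submatrix idx id).det ≠ 0) :
    ∃ (u : Fin d → Fin r → B) (idx : Fin d → Fin r) (P : Matrix (Fin d) (Fin d) E),
      (∀ a b, u b (idx a) = if a = b then 1 else 0) ∧
      (∀ b k, algebraMap B E (u b k) = ∑ c, A k c * P c b) := by
  obtain ⟨idx, hidx, hdom⟩ := exists_dominating B
    (fun idx : Fin d → Fin r => (A.submatrix idx id).det) hA
  set M := A.submatrix idx id with hM
  have hMdet : IsUnit M.det := isUnit_iff_ne_zero.mpr hidx
  have hent : ∀ k b, (A * M⁻¹) k b = (A.submatrix (Function.update idx b k) id).det / M.det := by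
    intro k b
    have h1 : A.submatrix (Function.update idx b k) id = M.updateRow b (A k) := by
      ext a c
      by_cases hab : a = b
      · subst hab
        simp
      · simp [Function.update_of_ne hab, Matrix.updateRow_ne hab, hM]
    rw [h1, ← Matrix.cramer_transpose_apply, Matrix.cramer_eq_adjugate_mulVec,
      ← Matrix.adjugate_transpose, Matrix.mulVec_transpose]
    have h2 : (A * M⁻¹) k b = (A k ᵥ* M⁻¹) b := rfl
    rw [h2, Matrix.inv_def, Matrix.vecMul_smul, Pi.smul_apply, smul_eq_mul,
      Ring.inverse_eq_inv', div_eq_inv_mul]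
  choose v hv using hdom
  refine ⟨fun b k => v (Function.update idx b k), idx, M⁻¹, ?_, ?_⟩
  · intro a b
    apply IsFractionRing.injective B E
    rw [hv, ← hent (idx a) b]
    have h2 : (A * M⁻¹) (idx a) b = (M * M⁻¹) a b := by
      rw [Matrix.mul_apply, Matrix.mul_apply]
      rfl
    rw [h2, Matrix.mul_nonsing_inv _ hMdet, Matrix.one_apply]
    split_ifs <;> simp
  · intro b k
    show algebraMap B E (v (Function.update idx b k)) = _
    rw [hv, ← hent k b, Matrix.mul_apply]

/-- nonvanishing of a minor, one column -/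
lemma exists_minor_one {r : ℕ} (A : Matrix (Fin r) (Fin 1) E) (hA : ∃ k, A k 0 ≠ 0) :
    ∃ idx : Fin 1 → Fin r, (A.submatrix idx id).det ≠ 0 := by
  obtain ⟨k, hk⟩ := hA
  refine ⟨fun _ => k, ?_⟩
  rw [Matrix.det_fin_one]
  exact hk

/-- nonvanishing of a minor, two columns -/
lemma exists_minor_two {r : ℕ} (A : Matrix (Fin r) (Fin 2) E)
    (hA : ∀ x y : E, (∀ k, x * A k 0 + y * A k 1 = 0) → x = 0 ∧ y = 0) :
    ∃ idx : Fin 2 → Fin r, (A.submatrix idx id).det ≠ 0 := by
  by_contra hcon
  push Not at hcon
  have h1 : ∀ k l, A k 0 * A l 1 = A k 1 * A l 0 := by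
    intro k l
    have := hcon ![k, l]
    rw [Matrix.det_fin_two] at this
    simp only [Matrix.submatrix_apply, id, Matrix.cons_val_zero, Matrix.cons_val_one,
      Matrix.cons_val_fin_one] at this
    exact sub_eq_zero.mp this
  have hne : ∃ k, A k 0 ≠ 0 := by
    by_contra h0
    push Not at h0
    have := (hA 1 0 (fun k => by rw [h0 k]; ring)).1
    exact one_ne_zero this
  obtain ⟨k, hk⟩ := hne
  have := (hA (A k 1) (-(A k 0)) (fun l => by linear_combination -h1 k l)).2
  exact hk (neg_eq_zero.mp this)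

end Ech

section Stab

variable {G B K : Type*} [Group G] [CommRing B] [Field K] (j : B →+* K)
  (hj : Function.Injective j) {r d : ℕ} (R : G →* Matrix (Fin r) (Fin r) B)
  (u : Fin d → Fin r → B) (idx : Fin d → Fin r)
  (hidx : ∀ a b, u b (idx a) = if a = b then 1 else 0)
  (hst : ∀ g b, ∃ α : Fin d → K, ∀ k, j ((R g *ᵥ u b) k) = ∑ a, α a * j (u a k))

include hj hidx hst in
lemma stab_apply (g : G) (b : Fin d) (k : Fin r) :
    (R g *ᵥ u b) k = ∑ a, (R g *ᵥ u b) (idx a) * u a k := by
  obtain ⟨α, hα⟩ := hst g b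
  have h1 : ∀ a, α a = j ((R g *ᵥ u b) (idx a)) := by
    intro a
    rw [hα (idx a)]
    simp only [hidx a]
    rw [Finset.sum_eq_single a]
    · simp
    · intro c _ hc
      rw [if_neg (Ne.symm hc), map_zero, mul_zero]
    · intro h; exact absurd (Finset.mem_univ a) h
  apply hj
  rw [hα k, map_sum]
  refine Finset.sum_congr rfl fun a _ => ?_
  rw [map_mul, h1 a]

/-- the representation on the integral lattice -/
noncomputable def stabRep : G →* Matrix (Fin d) (Fin d) B where
  toFun g := Matrix.of fun a b => (R g *ᵥ u b) (idx a)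
  map_one' := by
    ext a b
    rw [Matrix.of_apply, map_one, Matrix.one_mulVec, hidx, Matrix.one_apply]
  map_mul' g h := by
    ext a b
    rw [Matrix.of_apply, Matrix.mul_apply]
    simp only [Matrix.of_apply]
    rw [map_mul, ← Matrix.mulVec_mulVec]
    have h1 : R h *ᵥ u b = ∑ c, (R h *ᵥ u b) (idx c) • u c := by
      funext k
      rw [stab_apply j hj R u idx hidx hst h b k, Finset.sum_apply]
      rfl
    conv_lhs => rw [h1]
    rw [Matrix.mulVec_sum, Finset.sum_apply]
    refine Finset.sum_congr rfl fun c _ => ?_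
    rw [Matrix.mulVec_smul, Pi.smul_apply, smul_eq_mul, mul_comm]

lemma stabRep_apply (g : G) (a b : Fin d) :
    stabRep j hj R u idx hidx hst g a b = (R g *ᵥ u b) (idx a) := rfl

end Stab

end Fermat.Agent.GalRep
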