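import Fermat.Agent.GalRep.DVRExt
import Fermat.Agent.GalRep.Lattice
import Fermat.Agent.GalRep.Quad2

set_option autoImplicit false
set_option maxHeartbeats 400000

/-!
# Irreducible vectors and integral bases
-/

namespace Fermat.Agent.GalRep

open IsLocalRing Matrix

section Vectors

variable {G K V : Type*} [Group G] [Field K] [AddCommGroup V] [Module K V]
  {ρ : G →* Module.End K V}

lemma exists_irred_vectors [FiniteDimensional K V] [Nontrivial V] [IsAlgClosed K]
    {t : G → K} {χ : G →* K} (h : QuadRel ρ t χ) :
    ∃ d : ℕ, (d = 1 ∨ d = 2) ∧ ∃ w : Fin d → V, LinearIndependent K w ∧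
      (∀ g b, ∃ α : Fin d → K, ρ g (w b) = ∑ a, α a • w a) ∧
      (d = 2 → ∃ c, ∀ s : K, ∃ b, ρ c (w b) ≠ s • w b) := by
  obtain ⟨U, hU, hU0, hirr⟩ := exists_irred_sub ρ
  have h1 := finrank_pos_of_ne_bot hU0
  have h2 := hirr.finrank_le_two_of_isAlgClosed (h.res U hU)
  refine ⟨Module.finrank K U, by omega, ?_⟩
  let b : Module.Basis (Fin (Module.finrank K U)) K U := Module.finBasisOfFinrankEq K U rfl
  refine ⟨fun i => (b i : V), b.linearIndependent.map' U.subtype U.ker_subtype, ?_, ?_⟩
  · intro g i
    refine ⟨fun a => b.repr (resRep ρ U hU g (b i)) a, ?_⟩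
    have h3 := b.sum_repr (resRep ρ U hU g (b i))
    have h4 := congrArg Subtype.val h3
    rw [coe_resRep] at h4
    rw [← h4, Submodule.coe_sum]
    rfl
  · intro hd
    by_contra hall
    push Not at hall
    have h5 := hirr.finrank_le_one_of_scalar (fun g => by
      obtain ⟨s, hs⟩ := hall g
      refine ⟨s, fun w => ?_⟩
      have h6 : resRep ρ U hU g = s • (1 : Module.End K U) := by
        refine b.ext fun i => ?_
        apply Subtype.ext
        rw [coe_resRep]
        exact hs i
      rw [h6]
      rfl)
    omega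

end Vectors

section IntBasis

/-- the finite extension and the integral basis -/
theorem exists_integral_basis (O : Type) [CommRing O] [IsDomain O]
    [IsDiscreteValuationRing O] [IsAdicComplete (maximalIdeal O) O] [Finite (ResidueField O)]
    (K₀ K : Type) [Field K₀] [Field K] [CharZero K₀] [Algebra O K₀]
    [IsFractionRing O K₀] [Algebra K₀ K] [Algebra O K] [IsScalarTower O K₀ K]
    [Algebra.IsAlgebraic K₀ K] {r d : ℕ} (hd : d = 1 ∨ d = 2) (w : Fin d → Fin r → K)
    (hw : LinearIndependent K w) :
    ∃ (B : Type) (_ : CommRing B) (_ : IsDomain B) (_ : IsDiscreteValuationRing B)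
      (_ : IsAdicComplete (maximalIdeal B) B) (_ : Finite (ResidueField B))
      (_ : Algebra O B) (_ : Module.Finite O B) (_ : IsLocalHom (algebraMap O B)),
      Function.Injective (algebraMap O B) ∧
      ∃ jB : B →+* K, Function.Injective jB ∧
        (∀ x : O, jB (algebraMap O B x) = algebraMap O K x) ∧
        ∃ (u : Fin d → Fin r → B) (idx : Fin d → Fin r) (P M : Matrix (Fin d) (Fin d) K),
          (∀ a b, u b (idx a) = if a = b then 1 else 0) ∧
          (∀ b k, jB (u b k) = ∑ c, w c k * P c b) ∧
          (∀ c k, w c k = ∑ b, jB (u b k) * M b c) := by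
  classical
  let E₀ : IntermediateField K₀ K :=
    IntermediateField.adjoin K₀ (Set.range fun x : Fin d × Fin r => w x.1 x.2)
  haveI : FiniteDimensional K₀ E₀ :=
    IntermediateField.finiteDimensional_adjoin fun x _ =>
      (Algebra.IsAlgebraic.isAlgebraic (R := K₀) x).isIntegral
  let B := integralClosure O E₀
  haveI : Algebra.IsSeparable K₀ E₀ := inferInstance
  haveI : IsDedekindDomain B := integralClosure.isDedekindDomain O K₀ E₀
  haveI : IsFractionRing B E₀ := integralClosure.isFractionRing_of_finite_extension K₀ E₀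
  haveI : Module.Finite O B := IsIntegralClosure.finite O K₀ E₀ B
  have hOE : Function.Injective (algebraMap O E₀) := by
    rw [IsScalarTower.algebraMap_eq O K₀ E₀]
    exact (algebraMap K₀ E₀).injective.comp (IsFractionRing.injective O K₀)
  have hOB : Function.Injective (algebraMap O B) := by
    intro a b hab
    exact hOE (congrArg Subtype.val hab)
  obtain ⟨hBdvr, hBloc, hBc, hBfin, hBlocal⟩ := dvr_ext O B hOB
  -- embedding of B
  let jB : B →+* K := (algebraMap E₀ K).comp (algebraMap B E₀)
  have hjB : Function.Injective jB :=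
    (algebraMap E₀ K).injective.comp (IsFractionRing.injective B E₀)
  -- echelon form
  let A : Matrix (Fin r) (Fin d) E₀ := fun k b =>
    ⟨w b k, IntermediateField.subset_adjoin _ _ ⟨(b, k), rfl⟩⟩
  have hwlin : ∀ γ : Fin d → K, (∀ k, ∑ b, γ b * w b k = 0) → ∀ b, γ b = 0 := by
    intro γ hγ
    refine Fintype.linearIndependent_iff.mp hw γ ?_
    funext k
    rw [Finset.sum_apply]
    exact hγ k
  have hminor : ∃ idx : Fin d → Fin r, (A.submatrix idx id).det ≠ 0 := by
    rcases hd with rfl | rfl
    · refine exists_minor_one A ?_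
      by_contra hcon
      push Not at hcon
      have h1 := hwlin (fun _ => 1) (fun k => by
        have h2 : w 0 k = 0 := congrArg (algebraMap E₀ K) (hcon k)
        rw [Fin.sum_univ_one, h2, mul_zero]) 0
      exact one_ne_zero h1
    · refine exists_minor_two A fun x y hxy => ?_
      have h1 := hwlin ![algebraMap E₀ K x, algebraMap E₀ K y] (fun k => by
        have h2 := congrArg (algebraMap E₀ K) (hxy k)
        rw [map_add, map_mul, map_mul, map_zero] at h2
        rw [Fin.sum_univ_two]
        exact h2)
      exact ⟨(algebraMap E₀ K).injective (by rw [map_zero]; exact h1 0),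
        (algebraMap E₀ K).injective (by rw [map_zero]; exact h1 1)⟩
  obtain ⟨u, idx, P, hidx, hu⟩ := exists_echelon B A hminor
  have hu' : ∀ b k, jB (u b k) = ∑ c, w c k * (algebraMap E₀ K) (P c b) := by
    intro b k
    show (algebraMap E₀ K) (algebraMap B E₀ (u b k)) = _
    rw [hu, map_sum]
    refine Finset.sum_congr rfl fun c _ => ?_
    rw [map_mul]
    rfl
  -- inverse matrix
  let M : Matrix (Fin d) (Fin d) K := fun a c => w c (idx a)
  let P' : Matrix (Fin d) (Fin d) K := fun a c => (algebraMap E₀ K) (P a c)
  have hMP : M * P' = 1 := by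
    ext a b
    rw [Matrix.mul_apply, Matrix.one_apply]
    have h1 := hu' b (idx a)
    rw [hidx] at h1
    rw [← h1]
    split_ifs <;> simp
  have hPM : P' * M = 1 := mul_eq_one_comm.mp hMP
  refine ⟨B, inferInstance, inferInstance, hBdvr, ?_, ?_, inferInstance, inferInstance, ?_, hOB,
    jB, hjB, fun x => rfl, u, idx, P', M, hidx, hu', ?_⟩
  · exact hBc
  · exact hBfin
  · exact hBlocal
  · intro c k
    have h1 : ∑ b, jB (u b k) * M b c = ∑ a, w a k * (P' * M) a c := by
      simp only [hu', Matrix.mul_apply, Finset.sum_mul, Finset.mul_sum]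
      rw [Finset.sum_comm]
      refine Finset.sum_congr rfl fun a _ => Finset.sum_congr rfl fun b _ => ?_
      rw [mul_assoc]
    rw [h1, hPM, Finset.sum_eq_single c]
    · rw [Matrix.one_apply_eq, mul_one]
    · intro a _ hac
      rw [Matrix.one_apply_ne hac, mul_zero]
    · intro h; exact absurd (Finset.mem_univ c) h

end IntBasis

end Fermat.Agent.GalRep
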