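import Fermat.Agent.GalRep.Adic
import Fermat.Agent.GalRep.IntBasis

set_option autoImplicit false
set_option maxHeartbeats 400000

/-!
# Adic representations from Hecke-Galois data: conclusion
-/

namespace Fermat.Agent.GalRep

open Fermat.Agent.DefRing Matrix IsLocalRing TensorProduct

local notation "Qbar" => AlgebraicClosure ℚ

namespace HData

variable {N p : ℕ} [Fact p.Prime] {D : HData N p} {S : Set ℕ}

section Scalar

variable {O K : Type} [CommRing O] [Field K] (ι : ℤ_[p] →+* O) (j : O →+* K) (χ : D.TT S →+* O)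

/-- the eigenspace -/
def eigV : Submodule K (Fin D.r → K) where
  carrier := {v | ∀ x : D.TT S, (castHom D.r K (x : Matrix (Fin D.r) (Fin D.r) ℤ)) *ᵥ v =
    j (χ x) • v}
  add_mem' := fun {v w} hv hw x => by
    rw [Matrix.mulVec_add, hv x, hw x, smul_add]
  zero_mem' := fun x => by rw [Matrix.mulVec_zero, smul_zero]
  smul_mem' := fun c v hv x => by
    rw [Matrix.mulVec_smul, hv x, smul_comm]

/-- elements of the span of the Hecke algebra act by integral scalars -/
lemma exists_scalar {M : Matrix (Fin D.r) (Fin D.r) ℤ_[p]}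
    (hM : M ∈ Submodule.span ℤ_[p] ((castHom D.r ℤ_[p]) ''
      (D.TT S : Set (Matrix (Fin D.r) (Fin D.r) ℤ)))) :
    ∃ c : O, ∀ v ∈ eigV j χ, ((j.comp ι).mapMatrix M) *ᵥ v = j c • v := by
  induction hM using Submodule.span_induction with
  | mem M hM =>
    obtain ⟨x, hx, rfl⟩ := hM
    refine ⟨χ ⟨x, hx⟩, fun v hv => ?_⟩
    have h1 : (j.comp ι).mapMatrix (castHom D.r ℤ_[p] x) = castHom D.r K x := by
      ext a b
      rw [RingHom.mapMatrix_apply, Matrix.map_apply, castHom_apply, castHom_apply, map_intCast]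
    rw [h1]
    exact hv ⟨x, hx⟩
  | zero => exact ⟨0, fun v _ => by rw [map_zero, map_zero, Matrix.zero_mulVec, zero_smul]⟩
  | add x y _ _ hx hy =>
    obtain ⟨a, ha⟩ := hx
    obtain ⟨b, hb⟩ := hy
    exact ⟨a + b, fun v hv => by
      rw [map_add, Matrix.add_mulVec, ha v hv, hb v hv, map_add, add_smul]⟩
  | smul c x _ hx =>
    obtain ⟨a, ha⟩ := hx
    refine ⟨ι c * a, fun v hv => ?_⟩
    have h1 : (j.comp ι).mapMatrix (c • x) = j (ι c) • (j.comp ι).mapMatrix x := by
      ext a b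
      simp
    rw [h1, Matrix.smul_mulVec, ha v hv, map_mul, mul_smul]

lemma rho_mem_eigV (g : GQ) {v : Fin D.r → K} (hv : v ∈ eigV j χ) :
    ((j.comp ι).mapMatrix (D.ρ g)) *ᵥ v ∈ eigV j χ := by
  intro x
  have h1 := rho_comm_mem g x.2
  have h2 : (j.comp ι).mapMatrix (castHom D.r ℤ_[p] (x : Matrix (Fin D.r) (Fin D.r) ℤ)) =
      castHom D.r K x := by
    ext a b
    rw [RingHom.mapMatrix_apply, Matrix.map_apply, castHom_apply, castHom_apply, map_intCast]
  have h3 := congrArg (j.comp ι).mapMatrix h1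
  rw [map_mul, map_mul, h2] at h3
  rw [Matrix.mulVec_mulVec, ← h3, ← Matrix.mulVec_mulVec, hv x, Matrix.mulVec_smul]

/-- the Galois action on the eigenspace -/
noncomputable def eigRep : GQ →* Module.End K (eigV j χ) where
  toFun g :=
    { toFun := fun v => ⟨((j.comp ι).mapMatrix (D.ρ g)) *ᵥ v.1, rho_mem_eigV ι j χ g v.2⟩
      map_add' := fun v w => by
        apply Subtype.ext
        show ((j.comp ι).mapMatrix (D.ρ g)) *ᵥ (v.1 + w.1) =
          ((j.comp ι).mapMatrix (D.ρ g)) *ᵥ v.1 + ((j.comp ι).mapMatrix (D.ρ g)) *ᵥ w.1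
        exact Matrix.mulVec_add _ _ _
      map_smul' := fun c v => by
        apply Subtype.ext
        show ((j.comp ι).mapMatrix (D.ρ g)) *ᵥ (c • v.1) =
          c • (((j.comp ι).mapMatrix (D.ρ g)) *ᵥ v.1)
        exact Matrix.mulVec_smul _ _ _ }
  map_one' := by
    ext v : 2
    show ((j.comp ι).mapMatrix (D.ρ 1)) *ᵥ v.1 = v.1
    rw [map_one, map_one, Matrix.one_mulVec]
  map_mul' g k := by
    ext v : 2
    show ((j.comp ι).mapMatrix (D.ρ (g * k))) *ᵥ v.1 =
      ((j.comp ι).mapMatrix (D.ρ g)) *ᵥ (((j.comp ι).mapMatrix (D.ρ k)) *ᵥ v.1)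
    rw [map_mul, map_mul, Matrix.mulVec_mulVec]

lemma coe_eigRep (g : GQ) (v : eigV j χ) :
    ((eigRep ι j χ g v : eigV j χ) : Fin D.r → K) = ((j.comp ι).mapMatrix (D.ρ g)) *ᵥ v.1 := rfl

end Scalar

/-- the cyclotomic character and the representation over `B`, at a finite level -/
lemma exists_level {B : Type} [CommRing B] [IsLocalRing B] (f : ℤ_[p] →+* B)
    (hpB : (p : B) ∈ maximalIdeal B) (D : HData N p) (n : ℕ) :
    ∃ L : IntermediateField ℚ Qbar, FiniteDimensional ℚ L ∧ ∀ σ : GQ, (∀ x ∈ L, σ x = x) →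
      (∀ a b, f (D.ρ σ a b) - (1 : Matrix (Fin D.r) (Fin D.r) B) a b ∈ maximalIdeal B ^ n) ∧
      f (cycP p σ) - 1 ∈ maximalIdeal B ^ n := by
  obtain ⟨L₁, hL₁, h₁⟩ := D.cont n
  obtain ⟨L₂, hL₂, h₂⟩ := cycP_finite p n
  have key : ∀ x : ℤ_[p], PadicInt.toZModPow n x = 0 → f x ∈ maximalIdeal B ^ n := by
    intro x hx
    have h1 : x ∈ RingHom.ker (PadicInt.toZModPow (p := p) n) := hx
    rw [PadicInt.ker_toZModPow, Ideal.mem_span_singleton] at h1
    obtain ⟨y, rfl⟩ := h1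
    rw [map_mul, map_pow, map_natCast]
    exact Ideal.mul_mem_right _ _ (Ideal.pow_mem_pow hpB n)
  refine ⟨L₁ ⊔ L₂, inferInstance, fun σ hσ => ⟨fun a b => ?_, ?_⟩⟩
  · have e1 := h₁ σ (fun x hx => hσ x (le_sup_left (a := L₁) hx)) a b
    have h2 : f (D.ρ σ a b) - (1 : Matrix (Fin D.r) (Fin D.r) B) a b =
        f (D.ρ σ a b - (1 : Matrix (Fin D.r) (Fin D.r) ℤ_[p]) a b) := by
      rw [map_sub]
      congr 1
      rw [Matrix.one_apply, Matrix.one_apply]
      split_ifs <;> simp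
    rw [h2]
    apply key
    rw [map_sub, e1]
    rw [Matrix.one_apply, Matrix.one_apply]
    split_ifs <;> simp
  · have e2 := h₂ σ (fun x hx => hσ x (le_sup_right (a := L₁) hx))
    have h2 : f (cycP p σ) - 1 = f (cycP p σ - 1) := by rw [map_sub, map_one]
    rw [h2]
    apply key
    rw [map_sub, e2, map_one, sub_self]

lemma mulVec_sub_mem {B : Type} [CommRing B] {r : ℕ} (I : Ideal B)
    (M : Matrix (Fin r) (Fin r) B) (hM : ∀ a b, M a b - (1 : Matrix (Fin r) (Fin r) B) a b ∈ I)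
    (u : Fin r → B) (k : Fin r) : (M *ᵥ u) k - u k ∈ I := by
  have h1 : (M *ᵥ u) k - u k = ((M - 1) *ᵥ u) k := by
    rw [Matrix.sub_mulVec, Matrix.one_mulVec, Pi.sub_apply]
  rw [h1, Matrix.mulVec, dotProduct]
  exact Ideal.sum_mem _ fun c _ => Ideal.mul_mem_right _ _ (hM k c)

/-- **Adic representations** attached to Hecke–Galois data and an integral character of the
Hecke algebra (auxiliary version). -/
theorem exists_adic_aux (hS : S.Finite) (hN : N ≠ 0) {O : Type} [CommRing O] [IsDomain O]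
    [IsDiscreteValuationRing O] [IsAdicComplete (maximalIdeal O) O] [Finite (ResidueField O)]
    [CharZero O] (hp : (p : O) ∈ maximalIdeal O) (χ : D.TT S →+* O)
    (K₀ K : Type) [Field K₀] [Field K] [CharZero K₀] [CharZero K] [Algebra O K₀]
    [IsFractionRing O K₀] [Algebra K₀ K] [Algebra O K] [IsScalarTower O K₀ K]
    [IsAlgClosed K] [Algebra.IsAlgebraic K₀ K] :
    ∃ (B : Type) (_ : CommRing B) (_ : IsDomain B) (_ : IsDiscreteValuationRing B)
      (_ : IsAdicComplete (maximalIdeal B) B) (_ : Finite (ResidueField B)) (_ : CharZero B)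
      (_ : Algebra O B) (_ : Module.Finite O B) (_ : IsLocalHom (algebraMap O B)),
      Function.Injective (algebraMap O B) ∧
      ∃ T : GQ →* Matrix (Fin 2) (Fin 2) B, MatCont T ∧
        (∀ (ℓ : ℕ) (hℓ : ℓ.Prime) (hℓN : ¬ ℓ ∣ N * p) (hℓS : ℓ ∉ S),
          ∀ A : ValuationSubring Qbar, A.LiesOverPrime ℓ → ∀ τ : GQ, A.IsFrobeniusAt τ ℓ →
            (T τ).trace = algebraMap O B (χ ⟨D.T ℓ, T_mem hℓ hℓN hℓS⟩) ∧
              (T τ).det = (ℓ : B)) ∧
        (∀ q : ℕ, q.Prime → ¬ q ∣ N * p → ∀ A : ValuationSubring Qbar, A.LiesOverPrime q →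
          ∀ σ ∈ A.inertiaSubgroupIn ℚ, T σ = 1) := by
  classical
  have hpr : p.Prime := Fact.out
  let ι : ℤ_[p] →+* O := padicTo p (maximalIdeal O) hp
  let j : O →+* K := algebraMap O K
  have hj : Function.Injective j := by
    show Function.Injective (algebraMap O K)
    rw [IsScalarTower.algebraMap_eq O K₀ K]
    exact (algebraMap K₀ K).injective.comp (IsFractionRing.injective O K₀)
  -- the eigenspace
  obtain ⟨v₀, hv₀, hv₀e⟩ := exists_eigenvector (D := D) (S := S) (j.comp χ)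
  haveI : Nontrivial (eigV j χ) :=
    ⟨⟨⟨v₀, hv₀e⟩, 0, fun h => hv₀ (congrArg Subtype.val h)⟩⟩
  haveI : FiniteDimensional K (eigV j χ) := inferInstance
  -- the trace function
  choose t₀ ht₀ using fun g => exists_scalar ι j χ (th_mem_span (D := D) (S := S) hS hN g)
  let χK : GQ →* K := (j.comp ι).toMonoidHom.comp (cycP p)
  have hrel : ∀ g, ∀ v ∈ eigV j χ, ((j.comp ι).mapMatrix (D.ρ g)) *ᵥ v +
      χK g • ((j.comp ι).mapMatrix (D.ρ g⁻¹)) *ᵥ v = j (t₀ g) • v := by
    intro g v hv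
    rw [← ht₀ g v hv, th, map_add, Matrix.add_mulVec]
    have h1 : (j.comp ι).mapMatrix (cycP p g • D.ρ g⁻¹) =
        χK g • (j.comp ι).mapMatrix (D.ρ g⁻¹) := by
      ext a b
      simp [χK]
    rw [h1, Matrix.smul_mulVec]
  have hquad : QuadRel (eigRep ι j χ) (fun g => j (t₀ g)) χK := by
    intro g
    ext v : 2
    exact hrel g v.1 v.2
  obtain ⟨d, hd, w₀, hw₀lin, hw₀st, hw₀ns⟩ := exists_irred_vectors hquad
  -- as vectors
  let w : Fin d → Fin D.r → K := fun b => (w₀ b : Fin D.r → K)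
  have hwlin : LinearIndependent K w := hw₀lin.map' (eigV j χ).subtype (Submodule.ker_subtype _)
  have hwst : ∀ g b, ∃ α : Fin d → K,
      ((j.comp ι).mapMatrix (D.ρ g)) *ᵥ w b = ∑ a, α a • w a := by
    intro g b
    obtain ⟨α, hα⟩ := hw₀st g b
    refine ⟨α, ?_⟩
    have h1 := congrArg Subtype.val hα
    rw [coe_eigRep, Submodule.coe_sum] at h1
    exact h1
  have hwns : d = 2 → ∃ c, ∀ s : K, ∃ b, ((j.comp ι).mapMatrix (D.ρ c)) *ᵥ w b ≠ s • w b := by
    intro h2
    obtain ⟨c, hc⟩ := hw₀ns h2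
    refine ⟨c, fun s => ?_⟩
    obtain ⟨b, hb⟩ := hc s
    exact ⟨b, fun h => hb (Subtype.ext h)⟩
  have hweig : ∀ b, w b ∈ eigV j χ := fun b => (w₀ b).2
  clear hw₀lin hw₀st hw₀ns
  clear_value w
  obtain ⟨B, i1, i2, i3, i4, i5, i6, i7, i8, hOB, jB, hjB, hjBO, u, idx, P, M, hidx, hu, hwu⟩ :=
    exists_integral_basis O K₀ K hd w hwlin
  haveI : CharZero B := charZero_of_injective_algebraMap hOB
  have hpB : (p : B) ∈ maximalIdeal B := by
    have := map_nonunit (algebraMap O B) (p : O) hp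
    rwa [map_natCast] at this
  refine ⟨B, i1, i2, i3, i4, i5, inferInstance, i6, i7, i8, hOB, ?_⟩
  -- representation over B
  let f : ℤ_[p] →+* B := (algebraMap O B).comp ι
  have hjf : jB.comp f = j.comp ι := by
    ext x
    exact hjBO (ι x)
  let R : GQ →* Matrix (Fin D.r) (Fin D.r) B := (f.mapMatrix).toMonoidHom.comp D.ρ
  have hRapp : ∀ g a b, R g a b = f (D.ρ g a b) := fun g a b => rfl
  -- comparison of mulVec
  have hjR : ∀ (g : GQ) (v : Fin D.r → B) (k : Fin D.r), jB ((R g *ᵥ v) k) =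
      (((j.comp ι).mapMatrix (D.ρ g)) *ᵥ (fun l => jB (v l))) k := by
    intro g v k
    rw [Matrix.mulVec, dotProduct, map_sum, Matrix.mulVec, dotProduct]
    refine Finset.sum_congr rfl fun l _ => ?_
    rw [map_mul, ← hjf]
    rfl
  -- the vectors u over K
  let ub : Fin d → Fin D.r → K := fun b k => jB (u b k)
  have hub : ∀ b, ub b = ∑ c, P c b • w c := by
    intro b
    funext k
    rw [Finset.sum_apply]
    show jB (u b k) = _
    rw [hu]
    refine Finset.sum_congr rfl fun c _ => ?_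
    rw [Pi.smul_apply, smul_eq_mul, mul_comm]
  have hwub : ∀ c, w c = ∑ b, M b c • ub b := by
    intro c
    funext k
    rw [Finset.sum_apply, hwu]
    refine Finset.sum_congr rfl fun b _ => ?_
    rw [Pi.smul_apply, smul_eq_mul, mul_comm]
  have hubeig : ∀ b, ub b ∈ eigV j χ := by
    intro b
    rw [hub]
    exact Submodule.sum_mem _ fun c _ => Submodule.smul_mem _ _ (hweig c)
  have hst : ∀ g b, ∃ α : Fin d → K, ∀ k, jB ((R g *ᵥ u b) k) = ∑ a, α a * jB (u a k) := by
    intro g b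
    choose α hα using fun c => hwst g c
    -- R ub = Σ_c P c b Σ_a α c a w a = Σ_c P c b Σ_a α c a Σ_e M e a ub e
    refine ⟨fun e => ∑ c, ∑ a, P c b * (α c a * M e a), fun k => ?_⟩
    rw [hjR]
    have h1 : (fun l => jB (u b l)) = ub b := rfl
    rw [h1, hub, Matrix.mulVec_sum, Finset.sum_apply]
    have h2 : ∀ c, (((j.comp ι).mapMatrix (D.ρ g)) *ᵥ (P c b • w c)) k =
        ∑ e, (∑ a, P c b * (α c a * M e a)) * jB (u e k) := by
      intro c
      rw [Matrix.mulVec_smul, hα c, Pi.smul_apply, Finset.sum_apply, smul_eq_mul]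
      simp only [Pi.smul_apply, smul_eq_mul, hwub, Finset.sum_apply]
      simp only [Finset.mul_sum, Finset.sum_mul]
      rw [Finset.sum_comm]
      refine Finset.sum_congr rfl fun e _ => Finset.sum_congr rfl fun a _ => ?_
      show P c b * (α c a * (M e a * jB (u e k))) = _
      ring
    rw [Finset.sum_congr rfl fun c _ => h2 c, Finset.sum_comm]
    refine Finset.sum_congr rfl fun e _ => ?_
    rw [Finset.sum_mul]
  let T₀ : GQ →* Matrix (Fin d) (Fin d) B := stabRep jB hjB R u idx hidx hst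
  have hT₀ : ∀ g a b, T₀ g a b = (R g *ᵥ u b) (idx a) := fun g a b => rfl
  -- quadratic relation
  let χB : GQ →* B := f.toMonoidHom.comp (cycP p)
  let tB : GQ → B := fun g => algebraMap O B (t₀ g)
  have hrelB : ∀ g b k, (R g *ᵥ u b) k + χB g * (R g⁻¹ *ᵥ u b) k = tB g * u b k := by
    intro g b k
    apply hjB
    have h1 := congrFun (hrel g (ub b) (hubeig b)) k
    rw [Pi.add_apply, Pi.smul_apply, Pi.smul_apply, smul_eq_mul, smul_eq_mul] at h1
    rw [map_add, map_mul, map_mul, hjR, hjR, hjBO]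
    have h2 : jB (χB g) = χK g := by
      show jB (f (cycP p g)) = (j.comp ι) (cycP p g)
      rw [← hjf]
      rfl
    rw [h2]
    exact h1
  have hMQ : MQuad T₀ tB χB := by
    intro g
    ext a b
    rw [Matrix.add_apply, Matrix.smul_apply, Matrix.smul_apply, smul_eq_mul, smul_eq_mul,
      hT₀, hT₀, hrelB, hidx, Matrix.one_apply]
  -- local data
  have htfrob : ∀ (ℓ : ℕ) (hℓ : ℓ.Prime) (hℓN : ¬ ℓ ∣ N * p) (hℓS : ℓ ∉ S),
      ∀ A : ValuationSubring Qbar, A.LiesOverPrime ℓ → ∀ τ : GQ, A.IsFrobeniusAt τ ℓ →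
        tB τ = algebraMap O B (χ ⟨D.T ℓ, T_mem hℓ hℓN hℓS⟩) ∧ χB τ = (ℓ : B) := by
    intro ℓ hℓ hℓN hℓS A hA τ hτ
    constructor
    · show algebraMap O B (t₀ τ) = _
      congr 1
      apply hj
      have h1 := ht₀ τ v₀ hv₀e
      rw [th_frob hℓ hℓN hA hτ] at h1
      have h2 : (j.comp ι).mapMatrix (castHom D.r ℤ_[p] (D.T ℓ)) = castHom D.r K (D.T ℓ) := by
        ext a b
        rw [RingHom.mapMatrix_apply, Matrix.map_apply, castHom_apply, castHom_apply, map_intCast]
      rw [h2] at h1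
      have h3 := hv₀e ⟨D.T ℓ, T_mem hℓ hℓN hℓS⟩
      rw [h3] at h1
      exact (smul_left_injective K hv₀ h1).symm
    · show f (cycP p τ) = _
      rw [cycP_frob p hℓ hA (ne_p hℓN) hτ, map_natCast]
  have hR1 : ∀ g, D.ρ g = 1 → T₀ g = 1 := by
    intro g hg
    ext a b
    have h1 : R g = 1 := by
      show f.mapMatrix (D.ρ g) = 1
      rw [hg, map_one]
    rw [hT₀, h1, Matrix.one_mulVec, hidx, Matrix.one_apply]
  have hT₀cont : ∀ n, ∃ L : IntermediateField ℚ Qbar, FiniteDimensional ℚ L ∧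
      ∀ σ : GQ, (∀ x ∈ L, σ x = x) →
        (∀ a b, T₀ σ a b - (1 : Matrix (Fin d) (Fin d) B) a b ∈ maximalIdeal B ^ n) ∧
        χB σ - 1 ∈ maximalIdeal B ^ n := by
    intro n
    obtain ⟨L, hL, h⟩ := exists_level f hpB D n
    refine ⟨L, hL, fun σ hσ => ⟨fun a b => ?_, (h σ hσ).2⟩⟩
    have h1 := mulVec_sub_mem (maximalIdeal B ^ n) (R σ) (fun a b => (h σ hσ).1 a b) (u b) (idx a)
    rw [hidx] at h1
    rw [hT₀, Matrix.one_apply]
    exact h1
  have hχin : ∀ q : ℕ, q.Prime → ¬ q ∣ N * p → ∀ A : ValuationSubring Qbar,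
      A.LiesOverPrime q → ∀ σ ∈ A.inertiaSubgroupIn ℚ, χB σ = 1 := by
    intro q hq hqN A hA σ hσ
    show f (cycP p σ) = 1
    rw [cycP_inertia p hq hA (ne_p hqN) hσ, map_one]
  have hsc : ∀ (c : GQ) (s : B), T₀ c = s • (1 : Matrix (Fin d) (Fin d) B) →
      ∀ b, ((j.comp ι).mapMatrix (D.ρ c)) *ᵥ w b = jB s • w b := by
    intro c s hs b
    have h1 : ∀ e, ((j.comp ι).mapMatrix (D.ρ c)) *ᵥ ub e = jB s • ub e := by
      intro e
      funext k
      rw [← hjR c (u e) k, stab_apply jB hjB R u idx hidx hst c e k, Pi.smul_apply, smul_eq_mul]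
      show _ = jB s * jB (u e k)
      rw [← map_mul]
      congr 1
      have h2 : ∀ a, (R c *ᵥ u e) (idx a) = if a = e then s else 0 := by
        intro a
        rw [← hT₀, hs, Matrix.smul_apply, Matrix.one_apply, smul_eq_mul]
        split_ifs <;> simp
      simp only [h2]
      rw [Finset.sum_eq_single e]
      · rw [if_pos rfl]
      · intro a _ hae
        rw [if_neg hae, zero_mul]
      · intro h; exact absurd (Finset.mem_univ e) h
    rw [hwub, Matrix.mulVec_sum, Finset.smul_sum]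
    refine Finset.sum_congr rfl fun e _ => ?_
    rw [Matrix.mulVec_smul, h1, smul_comm]
  clear_value T₀ χB tB
  rcases hd with rfl | rfl
  · -- dimension one
    let η : GQ →* B := Matrix.detMonoidHom.comp T₀
    have hη : ∀ g, η g = T₀ g 0 0 := fun g => Matrix.det_fin_one _
    refine ⟨diagRep η χB, ?_, ?_, ?_⟩
    · intro n
      obtain ⟨L, hL, h⟩ := hT₀cont n
      refine ⟨L, hL, fun σ hσ i k => ?_⟩
      have hσ' : ∀ x ∈ L, σ⁻¹ x = x := fun x hx => by
        rw [← AlgEquiv.smul_def, inv_smul_eq_iff]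
        exact (hσ x hx).symm
      have e1 := (h σ hσ).1 0 0
      have e2 := (h σ hσ).2
      have e3 := (h σ⁻¹ hσ').1 0 0
      rw [Matrix.one_apply_eq, ← hη] at e1 e3
      have e4 : χB σ * η σ⁻¹ - 1 ∈ maximalIdeal B ^ n := by
        have : χB σ * η σ⁻¹ - 1 = χB σ * (η σ⁻¹ - 1) + (χB σ - 1) := by ring
        rw [this]
        exact Ideal.add_mem _ (Ideal.mul_mem_left _ _ e3) e2
      fin_cases i <;> fin_cases k
      · simpa [diagRep] using e1
      · simp [diagRep]
      · simp [diagRep]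
      · simpa [diagRep] using e4
    · intro ℓ hℓ hℓN hℓS A hA τ hτ
      obtain ⟨h1, h2⟩ := htfrob ℓ hℓ hℓN hℓS A hA τ hτ
      refine ⟨?_, by rw [diagRep_det, h2]⟩
      rw [diagRep_trace, ← h1, hη, hη]
      have h3 := congrFun (congrFun (hMQ τ) 0) 0
      rw [Matrix.add_apply, Matrix.smul_apply, Matrix.smul_apply, Matrix.one_apply_eq,
        smul_eq_mul, smul_eq_mul, mul_one] at h3
      exact h3
    · intro q hq hqN A hA σ hσ
      have h1 := hR1 σ (D.inert q hq hqN A hA σ hσ)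
      have h2 := hR1 σ⁻¹ (D.inert q hq hqN A hA σ⁻¹ (inv_mem hσ))
      have h3 : χB σ = 1 := hχin q hq hqN A hA σ hσ
      have h4 : η σ = 1 := by rw [hη, h1, Matrix.one_apply_eq]
      have h5 : η σ⁻¹ = 1 := by rw [hη, h2, Matrix.one_apply_eq]
      show Matrix.diagonal ![η σ, χB σ * η σ⁻¹] = 1
      rw [h3, h4, h5, mul_one]
      ext i k
      fin_cases i <;> fin_cases k <;> simp
  · -- dimension two
    have hns : ∃ c, ∀ s : B, T₀ c ≠ s • (1 : Matrix (Fin 2) (Fin 2) B) := by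
      obtain ⟨c, hc⟩ := hwns rfl
      refine ⟨c, fun s hs => ?_⟩
      obtain ⟨b, hb⟩ := hc (jB s)
      exact hb (hsc c s hs b)
    refine ⟨T₀, fun n => ?_, ?_, ?_⟩
    · obtain ⟨L, hL, h⟩ := hT₀cont n
      exact ⟨L, hL, fun σ hσ => (h σ hσ).1⟩
    · intro ℓ hℓ hℓN hℓS A hA τ hτ
      obtain ⟨h1, h2⟩ := htfrob ℓ hℓ hℓN hℓS A hA τ hτ
      obtain ⟨h3, h4⟩ := hMQ.trace_det hns τ
      exact ⟨h3.trans h1, h4.trans h2⟩
    · intro q hq hqN A hA σ hσ
      exact hR1 σ (D.inert q hq hqN A hA σ hσ)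

/-- **Adic representations** attached to Hecke–Galois data and an integral character of the
Hecke algebra. -/
theorem exists_adic (hS : S.Finite) (hN : N ≠ 0) {O : Type} [CommRing O] [IsDomain O]
    [IsDiscreteValuationRing O] [IsAdicComplete (maximalIdeal O) O] [Finite (ResidueField O)]
    [CharZero O] (hp : (p : O) ∈ maximalIdeal O) (χ : D.TT S →+* O) :
    ∃ (B : Type) (_ : CommRing B) (_ : IsDomain B) (_ : IsDiscreteValuationRing B)
      (_ : IsAdicComplete (maximalIdeal B) B) (_ : Finite (ResidueField B)) (_ : CharZero B)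
      (_ : Algebra O B) (_ : Module.Finite O B) (_ : IsLocalHom (algebraMap O B)),
      Function.Injective (algebraMap O B) ∧
      ∃ T : GQ →* Matrix (Fin 2) (Fin 2) B, MatCont T ∧
        (∀ (ℓ : ℕ) (hℓ : ℓ.Prime) (hℓN : ¬ ℓ ∣ N * p) (hℓS : ℓ ∉ S),
          ∀ A : ValuationSubring Qbar, A.LiesOverPrime ℓ → ∀ τ : GQ, A.IsFrobeniusAt τ ℓ →
            (T τ).trace = algebraMap O B (χ ⟨D.T ℓ, T_mem hℓ hℓN hℓS⟩) ∧
              (T τ).det = (ℓ : B)) ∧
        (∀ q : ℕ, q.Prime → ¬ q ∣ N * p → ∀ A : ValuationSubring Qbar, A.LiesOverPrime q →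
          ∀ σ ∈ A.inertiaSubgroupIn ℚ, T σ = 1) := by
  haveI : CharZero (FractionRing O) := IsFractionRing.charZero_of_isFractionRing O
  haveI : CharZero (AlgebraicClosure (FractionRing O)) := algebraRat.charZero _
  haveI : Algebra.IsAlgebraic (FractionRing O) (AlgebraicClosure (FractionRing O)) :=
    AlgebraicClosure.isAlgebraic _
  exact exists_adic_aux hS hN hp χ (FractionRing O) (AlgebraicClosure (FractionRing O))

end HData

end Fermat.Agent.GalRep
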