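import Fermat.Agent.GalRep.Data
import Fermat.Agent.DefRing.Frame

set_option autoImplicit false
set_option maxHeartbeats 400000

/-!
# Comparison of a Galois representation with Hecke-Galois data: unramifiedness
-/

namespace Fermat.Agent.GalRep

open Fermat.Agent.DefRing IsLocalRing Matrix

local notation "Qbar" => AlgebraicClosure ℚ

section Nakayama

variable {G : Type*} [Group G] {R : Type*} [CommRing R] [IsLocalRing R]

/-- Nakayama: matrices spanning modulo the maximal ideal span -/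
lemma span_eq_top_of_residue (M : G → Matrix (Fin 2) (Fin 2) R)
    (h : Submodule.span (ResidueField R)
      (Set.range fun g => (residue R).mapMatrix (M g)) = ⊤) :
    Submodule.span R (Set.range M) = ⊤ := by
  rw [eq_top_iff]
  refine Submodule.le_of_le_smul_of_le_jacobson_bot (I := maximalIdeal R) Module.Finite.fg_top
    (IsLocalRing.jacobson_eq_maximalIdeal ⊥ bot_ne_top).ge ?_
  intro X _
  have hX : (residue R).mapMatrix X ∈ Submodule.span (ResidueField R)
      (Set.range fun g => (residue R).mapMatrix (M g)) := by rw [h]; trivial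
  rw [Finsupp.mem_span_range_iff_exists_finsupp] at hX
  obtain ⟨c, hc⟩ := hX
  let c' : G → R := fun g => Function.surjInv residue_surjective (c g)
  have hc' : ∀ g, residue R (c' g) = c g := fun g => Function.surjInv_eq residue_surjective (c g)
  set Y : Matrix (Fin 2) (Fin 2) R := ∑ g ∈ c.support, c' g • M g with hY
  have hYmem : Y ∈ Submodule.span R (Set.range M) :=
    Submodule.sum_mem _ fun g _ => Submodule.smul_mem _ _ (Submodule.subset_span ⟨g, rfl⟩)
  have hdiff : ∀ i j, (X - Y) i j ∈ maximalIdeal R := by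
    intro i j
    rw [← residue_eq_zero_iff, Matrix.sub_apply, map_sub]
    have h1 := congrFun (congrFun hc i) j
    rw [Finsupp.sum, Matrix.sum_apply] at h1
    have h2 : residue R (Y i j) = ∑ g ∈ c.support, (c g • (residue R).mapMatrix (M g)) i j := by
      rw [hY, Matrix.sum_apply, map_sum]
      refine Finset.sum_congr rfl fun g _ => ?_
      rw [Matrix.smul_apply, Matrix.smul_apply, smul_eq_mul, smul_eq_mul, map_mul, hc']
      rfl
    rw [h2, h1]
    exact sub_self _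
  have hXY : X = Y + (X - Y) := by abel
  rw [hXY]
  refine Submodule.add_mem_sup hYmem ?_
  rw [Matrix.matrix_eq_sum_single (X - Y)]
  refine Submodule.sum_mem _ fun i _ => Submodule.sum_mem _ fun j _ => ?_
  have h3 : Matrix.single i j ((X - Y) i j) = (X - Y) i j • Matrix.single i j (1 : R) := by
    rw [Matrix.smul_single, smul_eq_mul, mul_one]
  rw [h3]
  exact Submodule.smul_mem_smul (hdiff i j) trivial

omit [IsLocalRing R] in
lemma eq_zero_of_trace_mul_eq_zero {M : G → Matrix (Fin 2) (Fin 2) R}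
    (h : Submodule.span R (Set.range M) = ⊤) (C : Matrix (Fin 2) (Fin 2) R)
    (hC : ∀ g, (C * M g).trace = 0) : C = 0 := by
  have h1 : ∀ X : Matrix (Fin 2) (Fin 2) R, (C * X).trace = 0 := by
    intro X
    have hX : X ∈ Submodule.span R (Set.range M) := by rw [h]; trivial
    induction hX using Submodule.span_induction with
    | mem x hx => obtain ⟨g, rfl⟩ := hx; exact hC g
    | zero => rw [mul_zero, Matrix.trace_zero]
    | add x y _ _ hx hy => rw [mul_add, Matrix.trace_add, hx, hy, add_zero]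
    | smul r x _ hx => rw [Matrix.mul_smul, Matrix.trace_smul, hx, smul_zero]
  ext i j
  have h2 := h1 (Matrix.single j i 1)
  rw [Matrix.zero_apply, ← h2, Matrix.trace_fin_two, Matrix.mul_apply, Matrix.mul_apply,
    Fin.sum_univ_two, Fin.sum_univ_two]
  fin_cases i <;> fin_cases j <;> simp [Matrix.single]

end Nakayama

section ArtinRees

/-- Artin–Rees for the Hecke algebra inside matrices -/
lemma exists_artinRees {r : ℕ} (p : ℕ) (C : Submodule ℤ (Matrix (Fin r) (Fin r) ℤ)) :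
    ∃ c : ℕ, ∀ n, c ≤ n → ∀ x ∈ C, (∀ i j, (p : ℤ) ^ n ∣ x i j) →
      ∃ y ∈ C, x = (p : ℤ) ^ (n - c) • y := by
  obtain ⟨c, hc⟩ := Ideal.exists_pow_inf_eq_pow_smul (Ideal.span {(p : ℤ)}) C
  refine ⟨c, fun n hn x hx hdvd => ?_⟩
  have h1 : x ∈ (Ideal.span {(p : ℤ)}) ^ n • (⊤ : Submodule ℤ (Matrix (Fin r) (Fin r) ℤ)) ⊓ C := by
    refine ⟨?_, hx⟩
    rw [Ideal.span_singleton_pow, Submodule.ideal_span_singleton_smul]
    choose y hy using hdvd
    refine ⟨y, trivial, ?_⟩
    ext i j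
    simp [hy]
  rw [hc n hn, Ideal.span_singleton_pow, Submodule.ideal_span_singleton_smul] at h1
  obtain ⟨y, hy, hxy⟩ := h1
  exact ⟨y, hy.2, hxy.symm⟩

end ArtinRees

namespace HData

variable {N p : ℕ} [Fact p.Prime] {D : HData N p} {S : Set ℕ}
  {R : Type} [CommRing R] [IsLocalRing R]

/-- Frobenius characteristic polynomial condition -/
def FrobCond (π : D.TT S →+* R) (T : GQ →* Matrix (Fin 2) (Fin 2) R) : Prop :=
  ∀ (ℓ : ℕ) (hℓ : ℓ.Prime) (hℓN : ¬ ℓ ∣ N * p) (hℓS : ℓ ∉ S),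
    ∀ A : ValuationSubring Qbar, A.LiesOverPrime ℓ → ∀ τ : GQ, A.IsFrobeniusAt τ ℓ →
      (T τ).trace = π ⟨D.T ℓ, T_mem hℓ hℓN hℓS⟩ ∧ (T τ).det = (ℓ : R)

lemma trace_congr {T : GQ →* Matrix (Fin 2) (Fin 2) R} {n : ℕ}
    {L : IntermediateField ℚ Qbar} (hL : ∀ σ : GQ, (∀ x ∈ L, σ x = x) →
      ∀ i j, T σ i j - (1 : Matrix (Fin 2) (Fin 2) R) i j ∈ maximalIdeal R ^ n)
    {g k : GQ} (hgk : ∀ x ∈ L, g x = k x) :
    (T g).trace - (T k).trace ∈ maximalIdeal R ^ n := by
  have h1 := hL (k⁻¹ * g) (fun x hx => by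
    rw [AlgEquiv.mul_apply, hgk x hx]
    exact inv_smul_smul k x)
  have h2 : g = k * (k⁻¹ * g) := by group
  have h3 : ∀ i j, (T g) i j - (T k) i j ∈ maximalIdeal R ^ n := by
    intro i j
    have h4 : (T g) i j - (T k) i j = (T k * (T (k⁻¹ * g) - 1)) i j := by
      rw [mul_sub, mul_one, ← map_mul, ← h2, Matrix.sub_apply]
    rw [h4, Matrix.mul_apply]
    exact Ideal.sum_mem _ fun l _ => Ideal.mul_mem_left _ _ (h1 l j)
  rw [Matrix.trace_fin_two, Matrix.trace_fin_two]
  have h5 : T g 0 0 + T g 1 1 - (T k 0 0 + T k 1 1) =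
      (T g 0 0 - T k 0 0) + (T g 1 1 - T k 1 1) := by ring
  rw [h5]
  exact Ideal.add_mem _ (h3 0 0) (h3 1 1)

/-- the trace of a representation is approximated by Hecke operators -/
lemma exists_trace_approx (hS : S.Finite) (hN : N ≠ 0) {π : D.TT S →+* R}
    {T : GQ →* Matrix (Fin 2) (Fin 2) R} (hT : MatCont T) (hπ : FrobCond π T) (g : GQ) (n : ℕ) :
    ∃ x : D.TT S, (PadicInt.toZModPow n).mapMatrix (D.th g) = castHom D.r (ZMod (p ^ n)) x ∧
      (T g).trace - π x ∈ maximalIdeal R ^ n := by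
  obtain ⟨L, hL, h⟩ := hT n
  obtain ⟨ℓ, k, hℓ, hℓN, hℓS, A, hA, τ, hτ, hk, happ⟩ := exists_approx (D := D) S hS hN g n L
  obtain ⟨htr, hdet⟩ := hπ ℓ hℓ hℓN hℓS A hA τ hτ
  let t : D.TT S := ⟨D.T ℓ, T_mem hℓ hℓN hℓS⟩
  refine ⟨dk t (ℓ : D.TT S) k, ?_, ?_⟩
  · rw [happ]
    congr 1
    have := map_dk ((D.TT S).val : D.TT S →+* Matrix (Fin D.r) (Fin D.r) ℤ) t (ℓ : D.TT S) k
    rw [map_natCast] at this
    exact this.symm
  · have h1 : π (dk t (ℓ : D.TT S) k) = (T (τ ^ k)).trace := by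
      rw [map_dk, map_natCast, map_pow, trace_pow_two, htr, hdet]
    rw [h1, ← neg_sub]
    exact (Ideal.neg_mem_iff _).mpr (trace_congr h hk)

/-- the trace is constant on inertia cosets -/
lemma trace_mul_inertia (hS : S.Finite) (hN : N ≠ 0) [IsHausdorff (maximalIdeal R) R]
    (hp : (p : R) ∈ maximalIdeal R) {π : D.TT S →+* R}
    {T : GQ →* Matrix (Fin 2) (Fin 2) R} (hT : MatCont T) (hπ : FrobCond π T)
    {q : ℕ} (hq : q.Prime) (hqN : ¬ q ∣ N * p) {A : ValuationSubring Qbar}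
    (hA : A.LiesOverPrime q) {σ : GQ} (hσ : σ ∈ A.inertiaSubgroupIn ℚ) (g : GQ) :
    (T (g * σ)).trace = (T g).trace := by
  obtain ⟨c, hc⟩ := exists_artinRees p (Subalgebra.toSubmodule (D.TT S))
  rw [← sub_eq_zero]
  refine IsHausdorff.haus (inferInstance : IsHausdorff (maximalIdeal R) R) _ fun m => ?_
  rw [SModEq.zero, smul_eq_mul, Ideal.mul_top]
  obtain ⟨x, hx1, hx2⟩ := exists_trace_approx hS hN hT hπ (g * σ) (m + c)
  obtain ⟨y, hy1, hy2⟩ := exists_trace_approx hS hN hT hπ g (m + c)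
  rw [th_inertia hq hqN hA hσ, hy1] at hx1
  have hdvd : ∀ i j, (p : ℤ) ^ (m + c) ∣ ((x - y : D.TT S) : Matrix (Fin D.r) (Fin D.r) ℤ) i j := by
    intro i j
    have h1 := congrFun (congrFun hx1 i) j
    rw [castHom_apply, castHom_apply] at h1
    have h2 : ((((x - y : D.TT S) : Matrix (Fin D.r) (Fin D.r) ℤ) i j : ℤ) :
        ZMod (p ^ (m + c))) = 0 := by
      have h3 : ((x - y : D.TT S) : Matrix (Fin D.r) (Fin D.r) ℤ) i j =
          (x : Matrix (Fin D.r) (Fin D.r) ℤ) i j - (y : Matrix (Fin D.r) (Fin D.r) ℤ) i j := rfl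
      rw [h3, Int.cast_sub, h1, sub_self]
    rw [ZMod.intCast_zmod_eq_zero_iff_dvd] at h2
    exact_mod_cast h2
  obtain ⟨z, hz, hxyz⟩ := hc (m + c) (Nat.le_add_left _ _) _ (x - y).2 hdvd
  have h4 : x - y = ((p : ℤ) ^ m) • (⟨z, hz⟩ : D.TT S) := by
    apply Subtype.ext
    rw [hxyz, Nat.add_sub_cancel]
    rfl
  have h5 : π x - π y ∈ maximalIdeal R ^ m := by
    rw [← map_sub, h4, map_zsmul, zsmul_eq_mul, Int.cast_pow, Int.cast_natCast]
    exact Ideal.mul_mem_right _ _ (Ideal.pow_mem_pow hp m)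
  have h6 : maximalIdeal R ^ (m + c) ≤ maximalIdeal R ^ m :=
    Ideal.pow_le_pow_right (Nat.le_add_right _ _)
  have h7 : (T (g * σ)).trace - (T g).trace =
      ((T (g * σ)).trace - π x) - ((T g).trace - π y) + (π x - π y) := by ring
  rw [h7]
  exact Ideal.add_mem _ (Ideal.sub_mem _ (h6 hx2) (h6 hy2)) h5

/-- **Unramifiedness** of a residually absolutely irreducible representation compatible with
Hecke–Galois data. -/
theorem eq_one_of_mem_inertia (hS : S.Finite) (hN : N ≠ 0) [IsHausdorff (maximalIdeal R) R]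
    (hp : (p : R) ∈ maximalIdeal R) {π : D.TT S →+* R}
    {T : GQ →* Matrix (Fin 2) (Fin 2) R} (hT : MatCont T) (hπ : FrobCond π T)
    (hspan : Submodule.span R (Set.range T) = ⊤)
    {q : ℕ} (hq : q.Prime) (hqN : ¬ q ∣ N * p) {A : ValuationSubring Qbar}
    (hA : A.LiesOverPrime q) {σ : GQ} (hσ : σ ∈ A.inertiaSubgroupIn ℚ) : T σ = 1 := by
  rw [← sub_eq_zero]
  refine eq_zero_of_trace_mul_eq_zero (M := T) hspan _ fun g => ?_
  rw [sub_mul, one_mul, Matrix.trace_sub, Matrix.trace_mul_comm, ← map_mul,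
    trace_mul_inertia hS hN hp hT hπ hq hqN hA hσ, sub_self]

end HData

end Fermat.Agent.GalRep
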