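import Fermat.Agent.GalRep.Link
import Fermat.Agent.GalRep.Adic2
import Fermat.Agent.GalRep.Unram
import Fermat.Agent.DefRing.Frame
import Fermat.Prelude.Def_CuspForm_HeckeGaloisRepDatum

set_option autoImplicit false
set_option maxHeartbeats 400000

/-!
# The statements S30 and S31 from linked Hecke-Galois data
-/

namespace Fermat.Agent.GalRep

open CuspForm Polynomial IsLocalRing Fermat.Agent.DefRing
open scoped TensorProduct

local notation "Qbar" => AlgebraicClosure ℚ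

/-- charpoly of a matrix representation -/
lemma charpoly_matRep {A : Type} [CommRing A] [IsLocalRing A]
    (T : GQ →* Matrix (Fin 2) (Fin 2) A) (hT : MatCont T) (σ : GQ) :
    LinearMap.charpoly ((matRep T hT).ρ σ) = X ^ 2 - C (T σ).trace * X + C (T σ).det := by
  rw [← Matrix.charpoly_fin_two]
  exact Matrix.charpoly_toLin' (T σ)

/-- S30 from linked data -/
theorem s30_of_link (p : ℕ) [Fact p.Prime] (N : ℕ) [NeZero N] (D : HData N p) (hD : D.Link)
    (S : Finset ℕ) (hpS : p ∈ S)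
      (𝒪' : Type) [CommRing 𝒪'] [IsDomain 𝒪'] [IsDiscreteValuationRing 𝒪']
      [IsAdicComplete (IsLocalRing.maximalIdeal 𝒪') 𝒪'] [Finite (IsLocalRing.ResidueField 𝒪')]
      [CharZero 𝒪'] (hp𝒪' : (p : 𝒪') ∈ IsLocalRing.maximalIdeal 𝒪')
      (χ : CuspForm.heckeAlgebra N 2 (↑S : Set ℕ) →+* 𝒪') :
      ∃ (𝒪'' : Type) (_ : CommRing 𝒪'') (_ : IsDomain 𝒪'') (_ : IsDiscreteValuationRing 𝒪'')
        (_ : IsAdicComplete (IsLocalRing.maximalIdeal 𝒪'') 𝒪'')
        (_ : Finite (IsLocalRing.ResidueField 𝒪'')) (_ : CharZero 𝒪'')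
        (_ : Algebra 𝒪' 𝒪'') (_ : Module.Finite 𝒪' 𝒪'') (_ : IsLocalHom (algebraMap 𝒪' 𝒪'')),
      Function.Injective (algebraMap 𝒪' 𝒪'') ∧
      ∃ ρ : GaloisRepAdic 𝒪'',
        (∀ (ℓ : ℕ) (hℓ : ℓ.Prime) (hℓN : ¬ ℓ ∣ N) (hℓS : ℓ ∉ (↑S : Set ℕ)),
          ∀ A : ValuationSubring (AlgebraicClosure ℚ), A.LiesOverPrime ℓ →
            ∀ σ : AlgebraicClosure ℚ ≃ₐ[ℚ] AlgebraicClosure ℚ, A.IsFrobeniusAt σ ℓ →
              LinearMap.charpoly (ρ.ρ σ) =
                X ^ 2 - C (algebraMap 𝒪' 𝒪'' (χ (CuspForm.heckeAlgebra.T hℓ hℓN hℓS))) * X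
                  + C ((ℓ : 𝒪''))) ∧
        (∀ q : ℕ, q.Prime → ¬ q ∣ N → q ≠ p → ρ.IsUnramifiedAt q) := by
  have hp : p.Prime := Fact.out
  obtain ⟨B, i1, i2, i3, i4, i5, i6, i7, i8, i9, hinj, T, hT, hfr, hin⟩ :=
    HData.exists_adic (D := D) (S := (↑S : Set ℕ)) S.finite_toSet (NeZero.ne N) hp𝒪'
      (χ.comp (HData.Phi (↑S : Set ℕ) hD))
  refine ⟨B, i1, i2, i3, i4, i5, i6, i7, i8, i9, hinj, matRep T hT, ?_, ?_⟩
  · intro ℓ hℓ hℓN hℓS A hA σ hσ
    have hℓNp : ¬ ℓ ∣ N * p := by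
      intro h
      rcases hℓ.dvd_mul.mp h with h | h
      · exact hℓN h
      · rw [(Nat.prime_dvd_prime_iff_eq hℓ hp).mp h] at hℓS
        exact hℓS hpS
    obtain ⟨h1, h2⟩ := hfr ℓ hℓ hℓNp hℓS A hA σ hσ
    rw [RingHom.comp_apply, HData.Phi_T _ hD hℓ hℓNp hℓS] at h1
    rw [charpoly_matRep, h1, h2]
  · intro q hq hqN hqp A hA σ hσ
    have hqNp : ¬ q ∣ N * p := by
      intro h
      rcases hq.dvd_mul.mp h with h | h
      · exact hqN h
      · exact hqp ((Nat.prime_dvd_prime_iff_eq hq hp).mp h)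
    have := hin q hq hqNp A hA σ hσ
    change Matrix.toLin' (T σ) = 1
    rw [this, Matrix.toLin'_one]
    rfl

section S31

variable {p : ℕ} {N : ℕ} [NeZero N] {S : Finset ℕ}
  {𝒪 : Type} [CommRing 𝒪] [IsDomain 𝒪] [IsDiscreteValuationRing 𝒪]
  [IsAdicComplete (IsLocalRing.maximalIdeal 𝒪) 𝒪]
  {θ : CuspForm.heckeAlgebra N 2 (↑S : Set ℕ) →+* IsLocalRing.ResidueField 𝒪}
  {T : Type} [CommRing T] [IsLocalRing T] [IsNoetherianRing T]
  [IsAdicComplete (IsLocalRing.maximalIdeal T) T] [Algebra 𝒪 T] [IsLocalHom (algebraMap 𝒪 T)]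
  [Module.Finite 𝒪 T] [Module.Free 𝒪 T]

/-- matrices of an adic representation in a basis -/
noncomputable def repMat {A : Type} [CommRing A] [IsLocalRing A] (ρ : GaloisRepAdic A)
    (b : Module.Basis (Fin 2) A ρ.V) : GQ →* Matrix (Fin 2) (Fin 2) A where
  toFun g := LinearMap.toMatrix b b (ρ.ρ g)
  map_one' := by rw [map_one, Module.End.one_eq_id, LinearMap.toMatrix_id]
  map_mul' g h := by
    rw [map_mul, Module.End.mul_eq_comp, LinearMap.toMatrix_comp b b b]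

lemma repMat_apply {A : Type} [CommRing A] [IsLocalRing A] (ρ : GaloisRepAdic A)
    (b : Module.Basis (Fin 2) A ρ.V) (g : GQ) :
    repMat ρ b g = LinearMap.toMatrix b b (ρ.ρ g) := rfl

lemma repMat_matCont {A : Type} [CommRing A] [IsLocalRing A] (ρ : GaloisRepAdic A)
    (b : Module.Basis (Fin 2) A ρ.V) : MatCont (repMat ρ b) := by
  intro n
  obtain ⟨L, hL, h1⟩ := ρ.isAdicContinuous n
  refine ⟨L, hL, fun σ hσ i j => ?_⟩
  have h2 := h1 σ hσ (b j)
  have h3 : b.coord i (ρ.ρ σ (b j) - b j) =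
      repMat ρ b σ i j - (1 : Matrix (Fin 2) (Fin 2) A) i j := by
    rw [map_sub, Module.Basis.coord_apply, Module.Basis.coord_apply, repMat_apply,
      LinearMap.toMatrix_apply, b.repr_self, Matrix.one_apply, Finsupp.single_apply]
    congr 1
    by_cases hij : i = j
    · rw [if_pos hij, if_pos hij.symm]
    · rw [if_neg hij, if_neg (Ne.symm hij)]
  rw [← h3]
  have h4 : ((maximalIdeal A ^ n) • (⊤ : Submodule A ρ.V)).map (b.coord i) ≤
      maximalIdeal A ^ n := by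
    rw [Submodule.map_smul'', smul_eq_mul]
    exact Ideal.mul_le_left
  exact h4 (Submodule.mem_map_of_mem (f := b.coord i) h2)

lemma repMat_span {A : Type} [CommRing A] [IsLocalRing A] [IsNoetherianRing A]
    (ρ : GaloisRepAdic A) (b : Module.Basis (Fin 2) A ρ.V)
    (habs : ρ.residual.IsAbsolutelyIrreducible) :
    Submodule.span A (Set.range (repMat ρ b)) = ⊤ := by
  refine span_eq_top_of_residue _ ?_
  let b' : Module.Basis (Fin 2) (ResidueField A) ρ.residual.V :=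
    Algebra.TensorProduct.basis (ResidueField A) b
  have h1 := Fermat.Agent.DefRing.span_range_eq_top (k := ResidueField A)
    (K := AlgebraicClosure (ResidueField A)) (resMatHom ρ.residual b')
    (matrix_irreducible ρ.residual b' habs)
  have h2 : (fun g => (residue A).mapMatrix (repMat ρ b g)) = resMatHom ρ.residual b' := by
    funext g
    exact (LinearMap.toMatrix_baseChange (ResidueField A) (ρ.ρ g) b b).symm
  rw [h2]
  exact h1

/-- S31 from linked data -/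
theorem s31_of_link [Fact p.Prime] (D : HData N p) (hD : D.Link)
    (hp𝒪 : (p : 𝒪) ∈ IsLocalRing.maximalIdeal 𝒪) (hpS : p ∈ S)
    (hNS : ∀ q : ℕ, q.Prime → q ∣ N → q ∈ S)
    (H : CuspForm.HeckeGaloisRepDatum N (↑S : Set ℕ) 𝒪 θ T)
    (q : ℕ) (hq : q.Prime) (hqS : q ∉ S) :
    H.ρ.IsUnramifiedAt q := by
  intro A hA σ hσ
  have hp : p.Prime := Fact.out
  let b : Module.Basis (Fin 2) T H.ρ.V := Module.finBasisOfFinrankEq T H.ρ.V H.ρ.finrank_eq
  have hnot : ∀ ℓ : ℕ, ℓ.Prime → ℓ ∉ S → ¬ ℓ ∣ N * p := by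
    intro ℓ hℓ hℓS h
    rcases hℓ.dvd_mul.mp h with h | h
    · exact hℓS (hNS ℓ hℓ h)
    · rw [(Nat.prime_dvd_prime_iff_eq hℓ hp).mp h] at hℓS
      exact hℓS hpS
  have hpT : (p : T) ∈ maximalIdeal T := by
    have h1 : algebraMap 𝒪 T (p : 𝒪) ∈ maximalIdeal T := by
      have : (p : 𝒪) ∈ nonunits 𝒪 := hp𝒪
      exact fun hu => this ((isUnit_map_iff (algebraMap 𝒪 T) _).mp hu)
    rwa [map_natCast] at h1
  have hfr : HData.FrobCond (H.π.comp (HData.Phi (↑S : Set ℕ) hD)) (repMat H.ρ b) := by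
    intro ℓ hℓ hℓN hℓS A hA τ hτ
    have hℓN' : ¬ ℓ ∣ N := fun h => hℓN (h.mul_right p)
    have h1 := H.charpoly_frob ℓ hℓ hℓN' hℓS A hA τ hτ
    have h2 : (repMat H.ρ b τ).charpoly =
        X ^ 2 - C (H.π (heckeAlgebra.T hℓ hℓN' hℓS)) * X + C ((ℓ : T)) := by
      rw [repMat_apply, LinearMap.charpoly_toMatrix, h1]
    rw [Matrix.charpoly_fin_two] at h2
    rw [RingHom.comp_apply, HData.Phi_T _ hD hℓ hℓN hℓS]
    constructor
    · have h3 := congrArg (fun P => P.coeff 1) h2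
      simp only [coeff_add, coeff_sub, coeff_X_pow, coeff_C_mul, coeff_X_one, mul_one,
        coeff_C_succ, add_zero, if_neg (by norm_num : ¬ (1 : ℕ) = 2), zero_sub, neg_inj] at h3
      exact h3
    · have h3 := congrArg (fun P => P.coeff 0) h2
      simp only [coeff_add, coeff_sub, coeff_X_pow, coeff_C_mul, coeff_X_zero, mul_zero,
        coeff_C_zero, sub_zero, zero_add] at h3
      simpa using h3
  have h := HData.eq_one_of_mem_inertia (D := D) (S := (↑S : Set ℕ)) S.finite_toSet (NeZero.ne N)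
    hpT (repMat_matCont H.ρ b) hfr (repMat_span H.ρ b H.residual_absIrr) hq (hnot q hq hqS) hA hσ
  rw [repMat_apply] at h
  apply (LinearMap.toMatrix b b).injective
  rw [h, Module.End.one_eq_id, LinearMap.toMatrix_id]

end S31

end Fermat.Agent.GalRep
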