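import Fermat.Agent.GalRep.WrapRes
import Fermat.Agent.DivPoly.Card
import Fermat.Agent.ECRed.FreyP
import Fermat.Prelude.Def_FreyPackage_EigenformResidualAttachment

set_option autoImplicit false
set_option maxHeartbeats 400000

/-!
# The statement S42 from linked Hecke-Galois data
-/

namespace Fermat.Agent.GalRep

open CuspForm Polynomial WeierstrassCurve.Affine WeierstrassCurve.Affine.Point
open scoped WeierstrassCurve.Affine

local notation "Qbar" => AlgebraicClosure ℚ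
local notation "GQ" => Qbar ≃ₐ[ℚ] Qbar

section Torsion

variable [DecidableEq (AlgebraicClosure ℚ)]

/-- the coordinates of a point -/
def coords {F : Type*} [Field F] {W : WeierstrassCurve.Affine F} : W.Point → Set F
  | .zero => ∅
  | .some x y _ => {x, y}

lemma coords_finite {F : Type*} [Field F] {W : WeierstrassCurve.Affine F} (P : W.Point) :
    (coords P).Finite := by
  cases P with
  | zero => exact Set.finite_empty
  | some x y h => exact (Set.finite_singleton y).insert x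

omit [DecidableEq (AlgebraicClosure ℚ)] in
lemma smul_eq_of_coords [DecidableEq (AlgebraicClosure ℚ)] (W : WeierstrassCurve.Affine ℚ) (σ : GQ)
    (P : (W⁄Qbar).Point)
    (h : ∀ x ∈ coords P, σ x = x) : σ • P = P := by
  rw [algEquiv_smul_def]
  cases P with
  | zero => rfl
  | some x y hxy =>
    have hx : σ x = x := h x (Set.mem_insert _ _)
    have hy : σ y = y := h y (Set.mem_insert_of_mem _ rfl)
    rw [WeierstrassCurve.Affine.Point.map_some]
    congr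

/-- the `n`-torsion of an elliptic curve is defined over a number field -/
theorem torsion_finite_level (W : WeierstrassCurve.Affine ℚ) (hΔ : (W⁄Qbar).Δ ≠ 0)
    {n : ℕ} (hn : n ≠ 0) :
    ∃ L : IntermediateField ℚ Qbar, FiniteDimensional ℚ L ∧
      ∀ σ : GQ, (∀ x ∈ L, σ x = x) → galoisRepModuleEnd (K := Qbar) ℚ W n σ = 1 := by
  have hcard := Fermat.Agent.DivPoly.card_torsionBy (W := W⁄Qbar) hΔ (n := n)
    (by exact_mod_cast hn)
  haveI : Algebra.IsAlgebraic ℚ Qbar := AlgebraicClosure.isAlgebraic ℚ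
  haveI : Finite (Submodule.torsionBy ℤ (W⁄Qbar).Point n) :=
    Nat.finite_of_card_ne_zero (by rw [hcard]; exact pow_ne_zero 2 hn)
  let S : Set Qbar := ⋃ P : Submodule.torsionBy ℤ (W⁄Qbar).Point n, coords P.1
  have hS : S.Finite := Set.finite_iUnion fun P => coords_finite P.1
  refine ⟨IntermediateField.adjoin ℚ S, ?_, ?_⟩
  · haveI := hS.to_subtype
    exact IntermediateField.finiteDimensional_adjoin fun x _ =>
      (Algebra.IsAlgebraic.isAlgebraic (R := ℚ) x).isIntegral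
  · intro σ hσ
    ext P : 1
    rw [galoisRepModuleEnd_apply]
    apply Subtype.ext
    exact smul_eq_of_coords W σ P.1 fun x hx =>
      hσ x (IntermediateField.subset_adjoin ℚ S (Set.mem_iUnion.mpr ⟨P, hx⟩))

end Torsion

/-- The conclusion of S42 for a given residue field. -/
theorem s42_aux (P : FreyPackage) {M : ℕ} {g : CuspForm (CongruenceSubgroup.Gamma0 M) 2}
    {k : Type} [Field k] [CharP k P.p] (φ : integralClosure ℤ ℂ →+* k)
    (ρ : ResidualGaloisRep k) (hρ : ρ.IsAttachedTo g φ) [Algebra (ZMod P.p) k]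
    [DecidableEq (AlgebraicClosure ℚ)] :
      ∃ (F : Type) (_ : Field F) (_ : NumberField F) (_ : IsGalois ℚ F)
        (_ : Algebra F (AlgebraicClosure ℚ)) (_ : IsScalarTower ℚ F (AlgebraicClosure ℚ)),
        Module.finrank k ρ.V = 2 ∧
        (AlgEquiv.restrictNormalHom (F := ℚ) (K₁ := AlgebraicClosure ℚ) F).ker ≤
          (galoisRepModuleEnd (S := ℚ) (K := AlgebraicClosure ℚ) P.freyCurve P.p).ker ⊓
            ρ.ρ.ker ∧
        (∀ ℓ : ℕ, ℓ.Prime → ¬ ℓ ∣ M → ℓ ≠ P.p →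
          ∀ A : ValuationSubring (AlgebraicClosure ℚ), A.LiesOverPrime ℓ →
            ∀ τ : AlgebraicClosure ℚ ≃ₐ[ℚ] AlgebraicClosure ℚ, A.IsFrobeniusAt τ ℓ →
              ∃ a : integralClosure ℤ ℂ, (a : ℂ) = ModularFormClass.qCoeff g ℓ ∧
                LinearMap.trace k ρ.V (ρ.ρ τ) = φ a) ∧
        (∀ ℓ : ℕ, ℓ.Prime → ¬ ℓ ∣ M → ℓ ≠ P.p →
          ∀ A : ValuationSubring (AlgebraicClosure ℚ), A.LiesOverPrime ℓ →
            ∀ τ : AlgebraicClosure ℚ ≃ₐ[ℚ] AlgebraicClosure ℚ, A.IsFrobeniusAt τ ℓ →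
              LinearMap.det (ρ.ρ τ) = (ℓ : k)) := by
  haveI : Algebra.IsAlgebraic ℚ Qbar := AlgebraicClosure.isAlgebraic ℚ
  haveI : IsAlgClosure ℚ Qbar := ⟨inferInstance, inferInstance⟩
  obtain ⟨L, hL, hLρ⟩ := ρ.factorsThroughFiniteLevel
  obtain ⟨L', hL', hLE⟩ := torsion_finite_level (P.freyCurve : WeierstrassCurve.Affine ℚ)
    (Fermat.Agent.ECRed.Frey.frey_Δ_ne (P := P) (K := Qbar)) P.hp0
  let L₀ : IntermediateField ℚ Qbar := L ⊔ L'
  haveI : FiniteDimensional ℚ L₀ := IntermediateField.finiteDimensional_sup L L'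
  haveI : Normal ℚ Qbar := IsAlgClosure.normal ℚ Qbar
  let F : IntermediateField ℚ Qbar := IntermediateField.normalClosure ℚ L₀ Qbar
  have hLF : L₀ ≤ F := IntermediateField.le_normalClosure L₀
  haveI : FiniteDimensional ℚ F := normalClosure.is_finiteDimensional ℚ L₀ Qbar
  haveI : NumberField F := { to_charZero := inferInstance, to_finiteDimensional := inferInstance }
  haveI : Normal ℚ F := normalClosure.normal ℚ L₀ Qbar
  haveI : IsGalois ℚ F := ⟨⟩
  have hker : ∀ σ : GQ, AlgEquiv.restrictNormalHom (F := ℚ) (K₁ := Qbar) F σ = 1 →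
      ∀ x ∈ F, σ x = x := by
    intro σ hσ x hx
    have h1 := AlgEquiv.restrictNormal_commutes σ F ⟨x, hx⟩
    have h2 : σ.restrictNormal F = 1 := hσ
    rw [h2] at h1
    exact h1.symm
  have hfr : ∀ ℓ : ℕ, ℓ.Prime → ¬ ℓ ∣ M → ℓ ≠ P.p →
      ∀ A : ValuationSubring (AlgebraicClosure ℚ), A.LiesOverPrime ℓ →
        ∀ τ : AlgebraicClosure ℚ ≃ₐ[ℚ] AlgebraicClosure ℚ, A.IsFrobeniusAt τ ℓ →
          ∃ a : integralClosure ℤ ℂ, (a : ℂ) = ModularFormClass.qCoeff g ℓ ∧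
            LinearMap.trace _ _ (ρ.ρ τ) = φ a ∧
            LinearMap.det (ρ.ρ τ) = (ℓ : k) := by
    intro ℓ hℓ hℓM hℓp A hA τ hτ
    have hℓ0 : (ℓ : k) ≠ 0 := by
      intro h
      rw [CharP.cast_eq_zero_iff _ P.p] at h
      exact hℓp ((Nat.prime_dvd_prime_iff_eq P.pp hℓ).mp h).symm
    obtain ⟨a, ha, hchp⟩ := hρ ℓ hℓ hℓM hℓ0 A hA τ hτ
    refine ⟨a, ha, ?_, ?_⟩
    · let b := Module.finBasisOfFinrankEq k ρ.V ρ.finrank_eq
      rw [LinearMap.trace_eq_matrix_trace _ b, Matrix.trace_eq_neg_charpoly_coeff,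
        LinearMap.charpoly_toMatrix, hchp]
      simp [coeff_X, coeff_C]
    · rw [LinearMap.det_eq_sign_charpoly_coeff, hchp, ρ.finrank_eq]
      simp
  refine ⟨F, inferInstance, inferInstance, inferInstance, inferInstance,
    inferInstance, ρ.finrank_eq, ?_, ?_, ?_⟩
  · intro σ hσ
    have hσ' := hker σ hσ
    refine ⟨hLE σ fun x hx => hσ' x (hLF ((le_sup_right : L' ≤ L ⊔ L') hx)), ?_⟩
    exact hLρ σ fun x hx => hσ' x (hLF ((le_sup_left : L ≤ L ⊔ L') hx))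
  · intro ℓ hℓ hℓM hℓp A hA τ hτ
    obtain ⟨a, ha, h1, -⟩ := hfr ℓ hℓ hℓM hℓp A hA τ hτ
    exact ⟨a, ha, h1⟩
  · intro ℓ hℓ hℓM hℓp A hA τ hτ
    obtain ⟨a, ha, -, h2⟩ := hfr ℓ hℓ hℓM hℓp A hA τ hτ
    exact h2

/-- S42 from S29 -/
theorem s42_of_s29
    (hs29 : ∀ {N : ℕ} {g : CuspForm (CongruenceSubgroup.Gamma0 N) 2} (_ : g.IsNormalizedEigenform)
      {p : ℕ} (_ : p.Prime) {k : Type} [Field k] [CharP k p] (φ : integralClosure ℤ ℂ →+* k),
      ∃ ρ : ResidualGaloisRep k, ρ.IsAttachedTo g φ ∧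
        ∀ ℓ : ℕ, ℓ.Prime → ¬ ℓ ∣ N * p → ρ.IsUnramifiedAt ℓ)
    (P : FreyPackage) : ∀ M : ℕ, 0 < M → P.EigenformResidualAttachmentAt M := by
  intro M hM g hg 𝔪 h𝔪 hp𝔪
  have hfield : IsField (integralClosure ℤ ℂ ⧸ 𝔪) :=
    (Ideal.Quotient.maximal_ideal_iff_isField_quotient 𝔪).mp h𝔪
  have key : ∀ (K : Type) (i : CommRing K) (_ : IsField K) (ψ : integralClosure ℤ ℂ →+* K),
      𝔪 ≤ RingHom.ker ψ → ψ (P.p : integralClosure ℤ ℂ) = 0 →
      ∃ (K : Type) (_ : Field K) (_ : Algebra (ZMod P.p) K)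
        (_ : CharP K P.p) (ψ : integralClosure ℤ ℂ →+* K), 𝔪 ≤ RingHom.ker ψ := by
    intro K i hK ψ hψ hψp
    letI := hK.toField
    have h0 : (P.p : K) = 0 := by rw [← map_natCast ψ]; exact hψp
    haveI hchar : CharP K P.p := ringChar.of_eq
      (((Nat.dvd_prime P.pp).mp (ringChar.dvd h0)).resolve_left CharP.ringChar_ne_one)
    exact ⟨K, inferInstance, ZMod.algebra K P.p, hchar, ψ, hψ⟩
  obtain ⟨K, iK, iA, iC, ψ, hψ⟩ := key _ inferInstance hfield (Ideal.Quotient.mk 𝔪)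
    (Ideal.mk_ker).ge (Ideal.Quotient.eq_zero_iff_mem.mpr hp𝔪)
  obtain ⟨ρ, hρ, -⟩ := hs29 hg P.pp ψ
  letI : DecidableEq (AlgebraicClosure ℚ) := Classical.decEq _
  obtain ⟨F, i1, i2, i3, i4, i5, h1, h2, h3, h4⟩ := s42_aux P ψ ρ hρ
  exact ⟨K, iK, iA, ρ.V, inferInstance, inferInstance, ρ.ρ, ψ, F, i1, i2, i3, i4, i5, hψ, h1, h2,
    h3, h4⟩

end Fermat.Agent.GalRep
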