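import Fermat.Agent.GalRep.WrapAdic
import Fermat.Agent.GalRep.WrapFrey
import Fermat.Agent.HeckeQ.Inst
import Fermat.Agent.AnJac.Link

set_option autoImplicit false
set_option maxHeartbeats 400000

/-!
# Linked Hecke-Galois data exist
-/

namespace Fermat.Agent.GalRep

open Fermat.Agent.HeckeQ Fermat.Agent.AnJac

/-- linked Hecke-Galois data -/
theorem exists_link (N p : ℕ) [NeZero N] [Fact p.Prime] : ∃ D : HData N p, D.Link :=
  ⟨hdata N p (esHyp N p), hdata_link _⟩

end Fermat.Agent.GalRep
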