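import Mathlib

set_option autoImplicit false
set_option maxHeartbeats 400000

/-!
# Finite extensions of complete discrete valuation rings
-/

namespace Fermat.Agent.GalRep

open IsLocalRing TensorProduct

section Complete

/-- finite modules over adically complete noetherian rings are adically complete -/
theorem isAdicComplete_of_finite {R M : Type} [CommRing R] [IsNoetherianRing R] (I : Ideal R)
    [IsAdicComplete I R] [AddCommGroup M] [Module R M] [Module.Finite R M] :
    IsAdicComplete I M := by
  rw [← AdicCompletion.of_bijective_iff]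
  let e : R ≃ₗ[R] AdicCompletion I R := AdicCompletion.ofLinearEquiv I R
  let f : M →ₗ[R] AdicCompletion I R ⊗[R] M :=
    (LinearMap.rTensor M e.toLinearMap) ∘ₗ (TensorProduct.lid R M).symm.toLinearMap
  have hf : Function.Bijective f := by
    show Function.Bijective ((LinearMap.rTensor M e.toLinearMap) ∘
      (TensorProduct.lid R M).symm)
    exact (LinearEquiv.rTensor M e).bijective.comp (TensorProduct.lid R M).symm.bijective
  have hcomp : (AdicCompletion.of I M : M → AdicCompletion I M) =
      (AdicCompletion.ofTensorProduct I M) ∘ f := by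
    funext x
    show _ = AdicCompletion.ofTensorProduct I M (f x)
    have h1 : f x = (1 : AdicCompletion I R) ⊗ₜ[R] x := by
      show (LinearMap.rTensor M e.toLinearMap) ((TensorProduct.lid R M).symm x) = _
      rw [TensorProduct.lid_symm_apply, LinearMap.rTensor_tmul]
      congr 1
    rw [h1, AdicCompletion.ofTensorProduct_tmul, one_smul]
  rw [hcomp]
  exact (AdicCompletion.ofTensorProduct_bijective_of_finite_of_isNoetherian I M).comp hf

variable {O B : Type} [CommRing O] [IsLocalRing O] [IsNoetherianRing O]
  [IsAdicComplete (maximalIdeal O) O] [Finite (ResidueField O)]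
  [CommRing B] [Algebra O B] [Module.Finite O B]

variable (O B) in
/-- the extended maximal ideal -/
def extIdeal : Ideal B := (maximalIdeal O).map (algebraMap O B)

omit [Finite (ResidueField O)] in
lemma isAdicComplete_ext : IsAdicComplete (extIdeal O B) B := by
  haveI : IsAdicComplete (maximalIdeal O) B := isAdicComplete_of_finite _
  exact (IsAdicComplete.map_algebraMap_iff _ _).mpr this

omit [IsAdicComplete (maximalIdeal O) O] in
lemma finite_quot_ext : Finite (B ⧸ extIdeal O B) := by
  letI : Module (ResidueField O) (B ⧸ extIdeal O B) :=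
    Module.IsTorsionBySet.module (R := O) (M := B ⧸ extIdeal O B) (I := maximalIdeal O) (by
      intro x a
      obtain ⟨b, rfl⟩ := Ideal.Quotient.mk_surjective x
      rw [← Ideal.Quotient.mk_eq_mk, ← Submodule.Quotient.mk_smul, Ideal.Quotient.mk_eq_mk,
        Ideal.Quotient.eq_zero_iff_mem, Algebra.smul_def]
      exact Ideal.mul_mem_right _ _ (Ideal.mem_map_of_mem _ a.2))
  haveI : Module.Finite O (B ⧸ extIdeal O B) := inferInstance
  haveI : IsScalarTower O (ResidueField O) (B ⧸ extIdeal O B) :=
    Module.IsTorsionBySet.isScalarTower _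
  haveI : Module.Finite (ResidueField O) (B ⧸ extIdeal O B) :=
    Module.Finite.of_restrictScalars_finite O (ResidueField O) _
  exact Module.finite_of_finite (ResidueField O)

/-- a domain finite over a complete local ring (with finite residue field) is local -/
theorem isLocalRing_ext (O B : Type) [CommRing O] [IsLocalRing O] [IsNoetherianRing O]
    [IsAdicComplete (maximalIdeal O) O] [Finite (ResidueField O)]
    [CommRing B] [Algebra O B] [Module.Finite O B] [IsDomain B] : IsLocalRing B := by
  haveI := isAdicComplete_ext (O := O) (B := B)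
  haveI := finite_quot_ext (O := O) (B := B)
  have hjac : extIdeal O B ≤ Ideal.jacobson ⊥ := IsAdicComplete.le_jacobson_bot _
  have hunit : ∀ x : B, IsUnit (Ideal.Quotient.mk (extIdeal O B) x) → IsUnit x := by
    intro x hx
    obtain ⟨y, hy⟩ := hx.exists_right_inv
    obtain ⟨y, rfl⟩ := Ideal.Quotient.mk_surjective y
    rw [← map_mul, ← map_one (Ideal.Quotient.mk (extIdeal O B)), Ideal.Quotient.eq] at hy
    have h1 := hjac hy
    rw [Ideal.mem_jacobson_bot] at h1
    have h2 := h1 1
    rw [mul_one, sub_add_cancel] at h2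
    exact isUnit_of_mul_isUnit_left h2
  refine IsLocalRing.of_isUnit_or_isUnit_one_sub_self fun x => ?_
  set I := extIdeal O B with hI
  set xb : B ⧸ I := Ideal.Quotient.mk I x with hxb
  -- an idempotent power
  obtain ⟨k, hk0, hk⟩ : ∃ k : ℕ, 0 < k ∧ IsIdempotentElem (xb ^ k) := by
    obtain ⟨a, b, hab, hpow⟩ := Finite.exists_ne_map_eq_of_infinite (fun n : ℕ => xb ^ n)
    wlog hlt : a < b generalizing a b
    · exact this b a hab.symm hpow.symm (lt_of_le_of_ne (not_lt.mp hlt) hab.symm)
    have hpow' : xb ^ a = xb ^ b := hpow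
    -- x^(a + m (b-a)) = x^a
    set d := b - a with hd
    have hd0 : 0 < d := Nat.sub_pos_of_lt hlt
    have hstep : ∀ m n, a ≤ n → xb ^ (n + m * d) = xb ^ n := by
      intro m
      induction m with
      | zero => intro n _; simp
      | succ m ih =>
        intro n hn
        have h1 : n + (m + 1) * d = (n - a) + b + m * d := by
          rw [hd, Nat.add_mul, one_mul]
          omega
        have h2 : xb ^ ((n - a) + b) = xb ^ n := by
          rw [pow_add, ← hpow', ← pow_add, Nat.sub_add_cancel hn]
        rw [h1, ih ((n - a) + b) (by omega), h2]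
    refine ⟨(a + 1) * d, Nat.mul_pos (Nat.succ_pos a) hd0, ?_⟩
    show xb ^ ((a + 1) * d) * xb ^ ((a + 1) * d) = xb ^ ((a + 1) * d)
    rw [← pow_add]
    exact hstep (a + 1) _ (by nlinarith)
  obtain ⟨e₀, he₀⟩ := Ideal.Quotient.mk_surjective (xb ^ k)
  -- lift the idempotent
  have hens : HenselianRing B I := inferInstance
  have hmonic : (Polynomial.X ^ 2 - Polynomial.X : Polynomial B).Monic :=
    Polynomial.monic_X_pow_sub (by simp)
  obtain ⟨e, he, hee₀⟩ := hens.is_henselian (Polynomial.X ^ 2 - Polynomial.X) hmonic e₀ (by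
    rw [Polynomial.eval_sub, Polynomial.eval_pow, Polynomial.eval_X,
      ← Ideal.Quotient.eq_zero_iff_mem, map_sub, map_pow, he₀, sq, hk.eq, sub_self]) (by
    have hder : (Polynomial.derivative (Polynomial.X ^ 2 - Polynomial.X : Polynomial B)).eval e₀ =
        2 * e₀ - 1 := by simp [one_add_one_eq_two]
    rw [hder]
    refine IsUnit.of_mul_eq_one (Ideal.Quotient.mk I (2 * e₀ - 1)) ?_
    rw [← map_mul]
    have h1 : (2 * e₀ - 1) * (2 * e₀ - 1) = 4 * (e₀ * e₀ - e₀) + 1 := by ring
    rw [h1, map_add, map_mul, map_sub, map_mul, he₀, hk.eq, sub_self, mul_zero, zero_add,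
      map_one])
  have he' : e * e = e := by
    have h1 : (Polynomial.X ^ 2 - Polynomial.X : Polynomial B).eval e = 0 := he
    rw [Polynomial.eval_sub, Polynomial.eval_pow, Polynomial.eval_X, sq] at h1
    exact sub_eq_zero.mp h1
  have hmk : Ideal.Quotient.mk I e = xb ^ k := by
    rw [← he₀, Ideal.Quotient.eq]
    exact hee₀
  have h01 : e = 0 ∨ e = 1 := by
    have h1 : e * (e - 1) = 0 := by rw [mul_sub, he', mul_one, sub_self]
    rcases mul_eq_zero.mp h1 with h | h
    · exact Or.inl h
    · exact Or.inr (sub_eq_zero.mp h)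
  rcases h01 with h | h
  · right
    rw [h, map_zero] at hmk
    refine hunit _ ?_
    rw [map_sub, map_one]
    exact IsNilpotent.isUnit_one_sub ⟨k, hmk.symm⟩
  · left
    rw [h, map_one] at hmk
    exact hunit _ (IsUnit.of_pow_eq_one hmk.symm hk0.ne')

end Complete

section DVR

variable {O B : Type} [CommRing O] [IsDomain O] [IsDiscreteValuationRing O]
  [IsAdicComplete (maximalIdeal O) O] [Finite (ResidueField O)]
  [CommRing B] [IsDomain B] [IsDedekindDomain B] [Algebra O B] [Module.Finite O B]

variable (O B) in
/-- a finite normal extension domain of a complete DVR is a complete DVR -/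
theorem dvr_ext (hinj : Function.Injective (algebraMap O B)) :
    IsDiscreteValuationRing B ∧ ∃ _ : IsLocalRing B, IsAdicComplete (maximalIdeal B) B ∧
      Finite (ResidueField B) ∧ IsLocalHom (algebraMap O B) := by
  haveI hloc := isLocalRing_ext O B
  haveI hcompl := isAdicComplete_ext (O := O) (B := B)
  haveI hfin := finite_quot_ext (O := O) (B := B)
  haveI : Algebra.IsIntegral O B := Algebra.IsIntegral.of_finite O B
  haveI hlocal : IsLocalHom (algebraMap O B) := by
    haveI : FaithfulSMul O B := (faithfulSMul_iff_algebraMap_injective O B).mpr hinj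
    exact Algebra.IsIntegral.isLocalHom ..
  -- not a field
  obtain ⟨ϖ, hϖ⟩ := IsDiscreteValuationRing.exists_irreducible O
  have hϖB : algebraMap O B ϖ ≠ 0 := fun h => hϖ.ne_zero (hinj (by rw [h, map_zero]))
  have hnf : ¬ IsField B := by
    intro hf
    obtain ⟨y, hy⟩ := hf.mul_inv_cancel hϖB
    exact hϖ.not_isUnit (isUnit_of_map_unit (algebraMap O B) ϖ (IsUnit.of_mul_eq_one y hy))
  haveI hdvr : IsDiscreteValuationRing B :=
    ((IsDiscreteValuationRing.TFAE B hnf).out 0 2).mpr (show IsDedekindDomain B by assumption)
  refine ⟨hdvr, hloc, ?_, ?_, hlocal⟩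
  · -- extIdeal is a power of the maximal ideal
    have hne : extIdeal O B ≠ ⊥ := by
      intro h
      apply hϖB
      have : algebraMap O B ϖ ∈ extIdeal O B := Ideal.mem_map_of_mem _ hϖ.not_isUnit
      rwa [h, Ideal.mem_bot] at this
    obtain ⟨b, hb⟩ := IsDiscreteValuationRing.exists_irreducible B
    obtain ⟨e, he⟩ := IsDiscreteValuationRing.ideal_eq_span_pow_irreducible hne hb
    rw [← Ideal.span_singleton_pow, ← hb.maximalIdeal_eq] at he
    have he0 : e ≠ 0 := by
      rintro rfl
      rw [pow_zero, Ideal.one_eq_top] at he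
      rw [he] at hcompl
      have := IsAdicComplete.subsingleton (M := B) hcompl
      exact not_subsingleton B this
    haveI : IsHausdorff (maximalIdeal B) B := inferInstance
    refine { prec' := fun f hf => ?_ }
    obtain ⟨L, hL⟩ := hcompl.prec' (fun k => f (e * k)) (fun {m n} hmn => by
      rw [he, ← pow_mul]
      exact hf (Nat.mul_le_mul_left e hmn))
    refine ⟨L, fun n => ?_⟩
    have h1 := hL n
    rw [he, ← pow_mul] at h1
    have hn : n ≤ e * n := Nat.le_mul_of_pos_left n (Nat.pos_of_ne_zero he0)
    have h2 := hf hn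
    refine h2.trans (h1.mono ?_)
    exact Submodule.smul_mono_left (Ideal.pow_le_pow_right hn)
  · have hle : extIdeal O B ≤ maximalIdeal B := by
      refine Ideal.map_le_iff_le_comap.mpr fun a ha => ?_
      exact map_nonunit (algebraMap O B) a ha
    exact Finite.of_surjective (Ideal.Quotient.factor hle) (Ideal.Quotient.factor_surjective hle)

end DVR

end Fermat.Agent.GalRep
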