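import Fermat.Agent.GalRep.Resid
import Fermat.Agent.GalRep.DVRExt
import Fermat.Agent.GalRep.Lattice

set_option autoImplicit false
set_option maxHeartbeats 400000

/-!
# Adic representations from Hecke-Galois data
-/

namespace Fermat.Agent.GalRep

open Fermat.Agent.DefRing Matrix IsLocalRing TensorProduct

local notation "Qbar" => AlgebraicClosure ℚ

namespace HData

variable {N p : ℕ} [Fact p.Prime] {D : HData N p} {S : Set ℕ}

section Span

lemma mem_pow_smul_top_of_entries {r : ℕ} {R : Type*} [CommRing R] (I : Ideal R)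
    (M : Matrix (Fin r) (Fin r) R) (h : ∀ i j, M i j ∈ I) :
    M ∈ I • (⊤ : Submodule R (Matrix (Fin r) (Fin r) R)) := by
  rw [Matrix.matrix_eq_sum_single M]
  refine Submodule.sum_mem _ fun i _ => Submodule.sum_mem _ fun j _ => ?_
  have h3 : Matrix.single i j (M i j) = M i j • Matrix.single i j (1 : R) := by
    rw [Matrix.smul_single, smul_eq_mul, mul_one]
  rw [h3]
  exact Submodule.smul_mem_smul (h i j) trivial

/-- the operators `th g` lie in the `ℤ_p`-span of the Hecke algebra -/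
lemma th_mem_span (hS : S.Finite) (hN : N ≠ 0) (g : GQ) :
    D.th g ∈ Submodule.span ℤ_[p] ((castHom D.r ℤ_[p]) ''
      (D.TT S : Set (Matrix (Fin D.r) (Fin D.r) ℤ))) := by
  set C := Submodule.span ℤ_[p] ((castHom D.r ℤ_[p]) ''
      (D.TT S : Set (Matrix (Fin D.r) (Fin D.r) ℤ))) with hC
  rw [← Submodule.Quotient.mk_eq_zero]
  haveI : IsHausdorff (maximalIdeal ℤ_[p])
    (Matrix (Fin D.r) (Fin D.r) ℤ_[p] ⧸ C) := inferInstance
  refine IsHausdorff.haus (inferInstance : IsHausdorff (maximalIdeal ℤ_[p])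
    (Matrix (Fin D.r) (Fin D.r) ℤ_[p] ⧸ C)) _ fun n => ?_
  rw [SModEq.zero]
  obtain ⟨ℓ, k, hℓ, hℓN, hℓS, A, hA, τ, hτ, hk, happ⟩ := exists_approx (D := D) S hS hN g n ⊥
  set x := dk (D.T ℓ) (ℓ : Matrix (Fin D.r) (Fin D.r) ℤ) k with hx
  have hxmem : x ∈ D.TT S := dk_mem _ (T_mem hℓ hℓN hℓS) ((D.TT S).natCast_mem ℓ) k
  have hxC : castHom D.r ℤ_[p] x ∈ C := Submodule.subset_span ⟨x, hxmem, rfl⟩
  have h1 : ∀ i j, (D.th g - castHom D.r ℤ_[p] x) i j ∈ maximalIdeal ℤ_[p] ^ n := by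
    intro i j
    have h2 : (D.th g - castHom D.r ℤ_[p] x) i j ∈ RingHom.ker (PadicInt.toZModPow (p := p) n) := by
      rw [RingHom.mem_ker, Matrix.sub_apply, map_sub, castHom_apply, map_intCast]
      have h3 := congrFun (congrFun happ i) j
      rw [RingHom.mapMatrix_apply, Matrix.map_apply, castHom_apply] at h3
      rw [h3, sub_self]
    rw [PadicInt.ker_toZModPow] at h2
    rwa [PadicInt.maximalIdeal_eq_span_p, Ideal.span_singleton_pow]
  have h2 : D.th g = (D.th g - castHom D.r ℤ_[p] x) + castHom D.r ℤ_[p] x := by abel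
  have h3 : (Submodule.Quotient.mk (D.th g) : Matrix (Fin D.r) (Fin D.r) ℤ_[p] ⧸ C) =
      C.mkQ (D.th g - castHom D.r ℤ_[p] x) := by
    show C.mkQ (D.th g) = _
    rw [map_sub, sub_eq_self.mpr]
    exact (Submodule.Quotient.mk_eq_zero _).mpr hxC
  rw [h3]
  have h4 := Submodule.mem_map_of_mem (f := C.mkQ) (mem_pow_smul_top_of_entries _ _ h1)
  rw [Submodule.map_smul''] at h4
  exact Submodule.smul_mono le_rfl le_top h4

end Span

section Eigen

/-- eigenvectors for characters of the Hecke algebra in characteristic zero -/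
lemma exists_eigenvector {K : Type} [Field K] [CharZero K] (ψ : D.TT S →+* K) :
    ∃ v : Fin D.r → K, v ≠ 0 ∧ ∀ x : D.TT S,
      (castHom D.r K (x : Matrix (Fin D.r) (Fin D.r) ℤ)) *ᵥ v = ψ x • v := by
  let g : D.TT S →ₐ[ℤ] Matrix (Fin D.r) (Fin D.r) K :=
    ((castHom D.r K).comp ((D.TT S).val : D.TT S →+* Matrix (Fin D.r) (Fin D.r) ℤ)).toIntAlgHom
  let Ξ : K ⊗[ℤ] D.TT S →ₐ[K] Matrix (Fin D.r) (Fin D.r) K :=
    Algebra.TensorProduct.lift (Algebra.ofId K _) g
      (fun c x => Algebra.commutes c (g x))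
  have hΞ : ∀ c x, Ξ (c ⊗ₜ x) = c • castHom D.r K (x : Matrix (Fin D.r) (Fin D.r) ℤ) := by
    intro c x
    rw [Algebra.TensorProduct.lift_tmul, Algebra.ofId_apply, ← Algebra.smul_def]
    rfl
  have hΞinj : Function.Injective Ξ := by
    let L : K ⊗[ℤ] D.TT S →ₗ[ℤ] K ⊗[ℤ] Matrix (Fin D.r) (Fin D.r) ℤ :=
      LinearMap.lTensor K (Subalgebra.toSubmodule (D.TT S)).subtype
    have hL : Function.Injective L :=
      Module.Flat.lTensor_preserves_injective_linearMap _ (Submodule.injective_subtype _)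
    have hcomp : ∀ b, Ξ b = (matrixEquivTensor (Fin D.r) ℤ K).symm (L b) := by
      intro b
      induction b using TensorProduct.induction_on with
      | zero => rw [map_zero, map_zero, map_zero]
      | tmul c x =>
        have hLt : L (c ⊗ₜ[ℤ] x) = c ⊗ₜ[ℤ] (x : Matrix (Fin D.r) (Fin D.r) ℤ) := rfl
        rw [hΞ, hLt, matrixEquivTensor_apply_symm]
        ext i j
        show c * (((x : Matrix (Fin D.r) (Fin D.r) ℤ) i j : ℤ) : K) =
          c * algebraMap ℤ K ((x : Matrix (Fin D.r) (Fin D.r) ℤ) i j)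
        rw [eq_intCast]
      | add x y hx hy => rw [map_add, map_add, map_add, hx, hy]
    intro a b hab
    rw [hcomp, hcomp] at hab
    exact hL ((matrixEquivTensor (Fin D.r) ℤ K).symm.injective hab)
  haveI : Module.Finite K (K ⊗[ℤ] D.TT S) := inferInstance
  haveI : IsArtinianRing (K ⊗[ℤ] D.TT S) := IsArtinianRing.of_finite K _
  let act : (K ⊗[ℤ] D.TT S) →+* Module.End K (Fin D.r → K) :=
    (Matrix.toLinAlgEquiv' : Matrix (Fin D.r) (Fin D.r) K ≃ₐ[K] _).toAlgHom.toRingHom.comp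
      Ξ.toRingHom
  letI : Module (K ⊗[ℤ] D.TT S) (Fin D.r → K) := Module.compHom (Fin D.r → K) act
  have hsmul : ∀ (b : K ⊗[ℤ] D.TT S) (v : Fin D.r → K), b • v = Ξ b *ᵥ v := fun b v => rfl
  haveI : IsScalarTower K (K ⊗[ℤ] D.TT S) (Fin D.r → K) := ⟨fun c b v => by
    rw [hsmul, hsmul, map_smul, Matrix.smul_mulVec]⟩
  haveI : Module.Finite (K ⊗[ℤ] D.TT S) (Fin D.r → K) :=
    Module.Finite.of_restrictScalars_finite K _ _
  have hann : Module.annihilator (K ⊗[ℤ] D.TT S) (Fin D.r → K) = ⊥ := by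
    rw [eq_bot_iff]
    intro b hb
    rw [Module.mem_annihilator] at hb
    rw [Ideal.mem_bot]
    apply hΞinj
    rw [map_zero]
    ext i j
    have h1 := hb (Pi.single j 1)
    rw [hsmul, Matrix.mulVec_single_one] at h1
    exact congrFun h1 i
  let ψ' : K ⊗[ℤ] D.TT S →ₐ[K] K :=
    Algebra.TensorProduct.lift (AlgHom.id K K) ψ.toIntAlgHom (fun _ _ => Commute.all _ _)
  have hψ' : ∀ c x, ψ' (c ⊗ₜ x) = c * ψ x := fun c x => by
    rw [Algebra.TensorProduct.lift_tmul]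
    rfl
  have hprime : (RingHom.ker ψ').IsPrime := RingHom.ker_isPrime _
  have hmin : RingHom.ker ψ' ∈
      (Module.annihilator (K ⊗[ℤ] D.TT S) (Fin D.r → K)).minimalPrimes := by
    rw [hann]
    refine ⟨⟨hprime, bot_le⟩, fun P hP hPle => ?_⟩
    haveI := hP.1
    have hPmax : P.IsMaximal := IsArtinianRing.isMaximal_of_isPrime P
    exact (hPmax.eq_of_le hprime.ne_top hPle).ge
  obtain ⟨v, hv, hvker⟩ := exists_ne_zero_of_minimal _ hmin
  refine ⟨v, hv, fun x => ?_⟩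
  have h1 := hvker ((1 : K) ⊗ₜ[ℤ] x - ψ x ⊗ₜ[ℤ] (1 : D.TT S)) (by
    rw [RingHom.mem_ker, map_sub, hψ', hψ', map_one, one_mul, mul_one, sub_self])
  rw [sub_smul, sub_eq_zero, hsmul, hsmul, hΞ, hΞ, one_smul] at h1
  rw [h1]
  have h2 : castHom D.r K ((1 : D.TT S) : Matrix (Fin D.r) (Fin D.r) ℤ) = 1 := map_one _
  rw [h2, Matrix.smul_mulVec, Matrix.one_mulVec]

end Eigen

end HData

end Fermat.Agent.GalRep
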