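import Fermat.Agent.GalRep.Unram

set_option autoImplicit false
set_option maxHeartbeats 400000

/-!
# Residual representations from Hecke-Galois data
-/

namespace Fermat.Agent.GalRep

open Fermat.Agent.DefRing Matrix

local notation "Qbar" => AlgebraicClosure ℚ

lemma exists_ne_zero_of_minimal {B M : Type*} [CommRing B] [IsNoetherianRing B] [AddCommGroup M]
    [Module B M] [Module.Finite B M] (𝔪 : Ideal B)
    (h : 𝔪 ∈ (Module.annihilator B M).minimalPrimes) :
    ∃ v : M, v ≠ 0 ∧ ∀ b ∈ 𝔪, b • v = 0 := by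
  have h1 := Module.associatedPrimes.minimalPrimes_annihilator_subset_associatedPrimes B M h
  obtain ⟨hp, v, hv⟩ := (isAssociatedPrime_iff).mp h1
  refine ⟨v, ?_, fun b hb => ?_⟩
  · rintro rfl
    apply hp.ne_top
    rw [hv, Ideal.eq_top_iff_one, Submodule.mem_colon_singleton]
    simp
  · rw [hv, Submodule.mem_colon_singleton] at hb
    exact hb

/-- a ring which is a finitely generated abelian group killed by a prime is finite -/
lemma finite_of_natCast_eq_zero {B : Type*} [CommRing B] [Module.Finite ℤ B] (p : ℕ)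
    [Fact p.Prime] (h : (p : B) = 0) : Finite B := by
  let inst : Module (ZMod p) B := AddCommGroup.zmodModule fun x => by
    rw [nsmul_eq_mul, h, zero_mul]
  have hf : Module.Finite (ZMod p) B := by
    obtain ⟨s, hs⟩ := (Module.Finite.fg_top : (⊤ : Submodule ℤ B).FG)
    refine ⟨⟨s, Submodule.eq_top_iff'.mpr fun x => ?_⟩⟩
    have hx : x ∈ Submodule.span ℤ (s : Set B) := by rw [hs]; trivial
    induction hx using Submodule.span_induction with
    | mem x hx => exact Submodule.subset_span hx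
    | zero => exact Submodule.zero_mem _
    | add x y _ _ hx hy => exact Submodule.add_mem _ hx hy
    | smul a x _ hx =>
      have := Submodule.smul_mem (Submodule.span (ZMod p) (s : Set B)) (a : ZMod p) hx
      rwa [Int.cast_smul_eq_zsmul] at this
  exact @Module.finite_of_finite (ZMod p) B _ _ _ _ hf

namespace HData

variable {N p : ℕ} [Fact p.Prime] {D : HData N p} {S : Set ℕ}

open scoped IsMulCommutative in
instance commRing_TT : CommRing (D.TT S) := inferInstance

instance finite_TT : Module.Finite ℤ (D.TT S) :=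
  Module.Finite.of_injective (Subalgebra.toSubmodule (D.TT S)).subtype
    (Submodule.injective_subtype _)

instance noetherian_TT : IsNoetherianRing (D.TT S) :=
  isNoetherian_of_tower ℤ (inferInstance : IsNoetherian ℤ (D.TT S))

variable (D S) in
/-- the lattice modulo `p ^ n` -/
def MM (_D : HData N p) (_S : Set ℕ) (n : ℕ) : Type := Fin _D.r → ZMod (p ^ n)

instance (n : ℕ) : AddCommGroup (MM D S n) := inferInstanceAs (AddCommGroup (Fin D.r → ZMod (p ^ n)))

instance finite_MM (n : ℕ) : Finite (MM D S n) := by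
  haveI : NeZero (p ^ n) := ⟨pow_ne_zero n (Fact.out : p.Prime).ne_zero⟩
  exact inferInstanceAs (Finite (Fin D.r → ZMod (p ^ n)))

/-- the action of the Hecke algebra -/
noncomputable def actHom (n : ℕ) : D.TT S →+* Module.End ℤ (MM D S n) where
  toFun x := ((Matrix.toLin' (castHom D.r (ZMod (p ^ n)) x)).restrictScalars ℤ :
    (Fin D.r → ZMod (p ^ n)) →ₗ[ℤ] (Fin D.r → ZMod (p ^ n)))
  map_one' := by
    ext v : 1
    show (castHom D.r (ZMod (p ^ n)) 1) *ᵥ (v : Fin D.r → ZMod (p ^ n)) = v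
    rw [map_one, Matrix.one_mulVec]
  map_mul' x y := by
    ext v : 1
    show (castHom D.r (ZMod (p ^ n)) (x.1 * y.1)) *ᵥ (v : Fin D.r → ZMod (p ^ n)) =
      (castHom D.r (ZMod (p ^ n)) x.1) *ᵥ ((castHom D.r (ZMod (p ^ n)) y.1) *ᵥ
        (v : Fin D.r → ZMod (p ^ n)))
    rw [map_mul, Matrix.mulVec_mulVec]
  map_zero' := by
    ext v : 1
    show (castHom D.r (ZMod (p ^ n)) 0) *ᵥ (v : Fin D.r → ZMod (p ^ n)) = 0
    rw [map_zero, Matrix.zero_mulVec]
  map_add' x y := by
    ext v : 1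
    show (castHom D.r (ZMod (p ^ n)) (x.1 + y.1)) *ᵥ (v : Fin D.r → ZMod (p ^ n)) =
      (castHom D.r (ZMod (p ^ n)) x.1) *ᵥ v + (castHom D.r (ZMod (p ^ n)) y.1) *ᵥ v
    rw [map_add, Matrix.add_mulVec]

noncomputable instance module_MM (n : ℕ) : Module (D.TT S) (MM D S n) :=
  Module.compHom (MM D S n) (actHom (D := D) (S := S) n)

lemma smul_MM (n : ℕ) (x : D.TT S) (v : MM D S n) :
    x • v = (castHom D.r (ZMod (p ^ n)) x) *ᵥ (v : Fin D.r → ZMod (p ^ n)) := rfl

instance finite_module_MM (n : ℕ) : Module.Finite (D.TT S) (MM D S n) := Module.Finite.of_finite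

lemma smul_eq_of_cast_eq {n : ℕ} {x y : D.TT S}
    (h : castHom D.r (ZMod (p ^ n)) x = castHom D.r (ZMod (p ^ n)) y) (v : MM D S n) :
    x • v = y • v := by
  rw [smul_MM, smul_MM, h]

lemma mem_annihilator_iff (n : ℕ) (x : D.TT S) :
    x ∈ Module.annihilator (D.TT S) (MM D S n) ↔
      ∀ i j, (p : ℤ) ^ n ∣ (x : Matrix (Fin D.r) (Fin D.r) ℤ) i j := by
  have key : x ∈ Module.annihilator (D.TT S) (MM D S n) ↔
      castHom D.r (ZMod (p ^ n)) x = 0 := by
    rw [Module.mem_annihilator]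
    constructor
    · intro h
      ext i j
      have h1 := h (Pi.single j 1 : Fin D.r → ZMod (p ^ n))
      rw [smul_MM] at h1
      have h2 := congrFun h1 i
      rw [Matrix.mulVec_single_one] at h2
      exact h2
    · intro h v
      rw [smul_MM, h, Matrix.zero_mulVec]
      rfl
  rw [key]
  constructor
  · intro h i j
    have h1 := congrFun (congrFun h i) j
    rw [castHom_apply, Matrix.zero_apply, ZMod.intCast_zmod_eq_zero_iff_dvd] at h1
    exact_mod_cast h1
  · intro h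
    ext i j
    rw [castHom_apply, Matrix.zero_apply, ZMod.intCast_zmod_eq_zero_iff_dvd]
    exact_mod_cast h i j

/-- the Galois action on the lattice mod `p ^ n`, commuting with Hecke operators -/
noncomputable def galHom (n : ℕ) : GQ →* Module.End (D.TT S) (MM D S n) where
  toFun g :=
    { toFun := fun v => ((PadicInt.toZModPow n).mapMatrix (D.ρ g)) *ᵥ
        (v : Fin D.r → ZMod (p ^ n))
      map_add' := fun v w => Matrix.mulVec_add _ _ _
      map_smul' := fun x v => by
        show ((PadicInt.toZModPow n).mapMatrix (D.ρ g)) *ᵥ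
          ((castHom D.r (ZMod (p ^ n)) x) *ᵥ (v : Fin D.r → ZMod (p ^ n))) =
          (castHom D.r (ZMod (p ^ n)) x) *ᵥ (((PadicInt.toZModPow n).mapMatrix (D.ρ g)) *ᵥ v)
        have h1 := rho_comm_mem g x.2
        have h2 : (PadicInt.toZModPow n).mapMatrix (castHom D.r ℤ_[p] (x : Matrix _ _ ℤ)) =
            castHom D.r (ZMod (p ^ n)) x := by
          ext i j
          rw [RingHom.mapMatrix_apply, Matrix.map_apply, castHom_apply, castHom_apply,
            map_intCast]
        have h3 := congrArg (PadicInt.toZModPow n).mapMatrix h1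
        rw [map_mul, map_mul, h2] at h3
        rw [Matrix.mulVec_mulVec, Matrix.mulVec_mulVec, h3] }
  map_one' := by
    ext v : 1
    show ((PadicInt.toZModPow n).mapMatrix (D.ρ 1)) *ᵥ (v : Fin D.r → ZMod (p ^ n)) = v
    rw [map_one, map_one, Matrix.one_mulVec]
  map_mul' g k := by
    ext v : 1
    show ((PadicInt.toZModPow n).mapMatrix (D.ρ (g * k))) *ᵥ (v : Fin D.r → ZMod (p ^ n)) =
      ((PadicInt.toZModPow n).mapMatrix (D.ρ g)) *ᵥ
        (((PadicInt.toZModPow n).mapMatrix (D.ρ k)) *ᵥ v)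
    rw [map_mul, map_mul, Matrix.mulVec_mulVec]

lemma galHom_apply (n : ℕ) (g : GQ) (v : MM D S n) :
    galHom n g v = ((PadicInt.toZModPow n).mapMatrix (D.ρ g)) *ᵥ
      (v : Fin D.r → ZMod (p ^ n)) := rfl

/-- the quadratic relation on the lattice modulo `p ^ n` -/
lemma exists_quad (hS : S.Finite) (hN : N ≠ 0) (n : ℕ) (g : GQ) :
    ∃ x : D.TT S, ∀ v : MM D S n,
      galHom n g v + (PadicInt.toZModPow n (cycP p g)).val • galHom n g⁻¹ v = x • v := by
  obtain ⟨ℓ, k, hℓ, hℓN, hℓS, A, hA, τ, hτ, hk, happ⟩ := exists_approx (D := D) S hS hN g n ⊥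
  let t : D.TT S := ⟨D.T ℓ, T_mem hℓ hℓN hℓS⟩
  refine ⟨dk t (ℓ : D.TT S) k, fun v => ?_⟩
  have h1 : castHom D.r (ZMod (p ^ n)) (dk t (ℓ : D.TT S) k : D.TT S) =
      (PadicInt.toZModPow n).mapMatrix (D.th g) := by
    rw [happ]
    congr 1
    have := map_dk ((D.TT S).val : D.TT S →+* Matrix (Fin D.r) (Fin D.r) ℤ) t (ℓ : D.TT S) k
    rw [map_natCast] at this
    exact this
  rw [smul_MM, h1, galHom_apply, galHom_apply, th, map_add, Matrix.add_mulVec]
  congr 1
  haveI : NeZero (p ^ n) := ⟨pow_ne_zero n (Fact.out : p.Prime).ne_zero⟩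
  have h2 : (PadicInt.toZModPow n).mapMatrix (cycP p g • D.ρ g⁻¹) =
      PadicInt.toZModPow n (cycP p g) • (PadicInt.toZModPow n).mapMatrix (D.ρ g⁻¹) := by
    ext i j
    simp
  rw [h2, Matrix.smul_mulVec]
  funext i
  have h3 : ((PadicInt.toZModPow n (cycP p g)).val • ((PadicInt.toZModPow n).mapMatrix (D.ρ g⁻¹) *ᵥ
      (v : Fin D.r → ZMod (p ^ n)))) i = (PadicInt.toZModPow n (cycP p g)).val •
        (((PadicInt.toZModPow n).mapMatrix (D.ρ g⁻¹) *ᵥ (v : Fin D.r → ZMod (p ^ n))) i) := rfl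
  refine h3.trans ?_
  rw [nsmul_eq_mul, ZMod.natCast_val, ZMod.cast_id]
  rfl

/-- **Residual representations** attached to Hecke–Galois data and a character of the Hecke
algebra. -/
theorem exists_residual (hS : S.Finite) (hN : N ≠ 0) {k : Type} [Field k] [CharP k p]
    (lam : D.TT S →+* k) :
    ∃ T : GQ →* Matrix (Fin 2) (Fin 2) k,
      (∃ L : IntermediateField ℚ Qbar, FiniteDimensional ℚ L ∧
        ∀ σ : GQ, (∀ x ∈ L, σ x = x) → T σ = 1) ∧
      (∀ (ℓ : ℕ) (hℓ : ℓ.Prime) (hℓN : ¬ ℓ ∣ N * p) (hℓS : ℓ ∉ S),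
        ∀ A : ValuationSubring Qbar, A.LiesOverPrime ℓ → ∀ τ : GQ, A.IsFrobeniusAt τ ℓ →
          (T τ).trace = lam ⟨D.T ℓ, T_mem hℓ hℓN hℓS⟩ ∧ (T τ).det = (ℓ : k)) ∧
      (∀ q : ℕ, q.Prime → ¬ q ∣ N * p → ∀ A : ValuationSubring Qbar, A.LiesOverPrime q →
        ∀ σ ∈ A.inertiaSubgroupIn ℚ, T σ = 1) := by
  classical
  have hp : p.Prime := Fact.out
  -- the maximal ideal
  set 𝔪 : Ideal (D.TT S) := RingHom.ker lam with h𝔪
  haveI h𝔪prime : 𝔪.IsPrime := RingHom.ker_isPrime lam
  have hpm : ((p : ℕ) : D.TT S) ∈ 𝔪 := by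
    rw [h𝔪, RingHom.mem_ker, map_natCast, CharP.cast_eq_zero]
  have hfinP : ∀ P : Ideal (D.TT S), P.IsPrime → ((p : ℕ) : D.TT S) ∈ P →
      Finite (D.TT S ⧸ P) ∧ P.IsMaximal := by
    intro P hP hpP
    haveI : Finite (D.TT S ⧸ P) := finite_of_natCast_eq_zero p (by
      rw [← map_natCast (Ideal.Quotient.mk P), Ideal.Quotient.eq_zero_iff_mem]
      exact hpP)
    refine ⟨this, ?_⟩
    rw [Ideal.Quotient.maximal_ideal_iff_isField_quotient]
    haveI : IsDomain (D.TT S ⧸ P) := Ideal.Quotient.isDomain P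
    exact Finite.isField_of_domain _
  obtain ⟨hKfin, h𝔪max⟩ := hfinP 𝔪 h𝔪prime hpm
  -- choice of the level
  obtain ⟨c, hc⟩ := exists_artinRees p (Subalgebra.toSubmodule (D.TT S))
  set n := c + 1 with hn
  have hann : Module.annihilator (D.TT S) (MM D S n) ≤ 𝔪 := by
    intro x hx
    rw [mem_annihilator_iff] at hx
    obtain ⟨z, hz, hxz⟩ := hc n (Nat.le_add_right _ _) _ x.2 hx
    have h4 : x = (p : ℤ) • (⟨z, hz⟩ : D.TT S) := by
      apply Subtype.ext
      rw [hxz, hn, Nat.add_sub_cancel_left, pow_one]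
      rfl
    rw [h4, zsmul_eq_mul, Int.cast_natCast]
    exact Ideal.mul_mem_right _ _ hpm
  have hmin : 𝔪 ∈ (Module.annihilator (D.TT S) (MM D S n)).minimalPrimes := by
    refine ⟨⟨h𝔪prime, hann⟩, fun P hP hPm => ?_⟩
    have hpP : ((p : ℕ) : D.TT S) ∈ P := by
      haveI := hP.1
      refine hP.1.mem_of_pow_mem n (hP.2 ?_)
      rw [mem_annihilator_iff]
      intro i j
      have : ((((p : ℕ) : D.TT S) ^ n : D.TT S) : Matrix (Fin D.r) (Fin D.r) ℤ) =
          ((p : ℤ) ^ n) • (1 : Matrix (Fin D.r) (Fin D.r) ℤ) := by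
        have h1 : ((((p : ℕ) : D.TT S) ^ n : D.TT S) : Matrix (Fin D.r) (Fin D.r) ℤ) =
          ((p : ℕ) : Matrix (Fin D.r) (Fin D.r) ℤ) ^ n := rfl
        rw [h1, ← Nat.cast_pow, ← nsmul_one, ← Nat.cast_smul_eq_nsmul ℤ, Nat.cast_pow]
      rw [this, Matrix.smul_apply, smul_eq_mul]
      exact dvd_mul_right _ _
    obtain ⟨-, hPmax⟩ := hfinP P hP.1 hpP
    exact (hPmax.eq_of_le h𝔪prime.ne_top hPm).ge
  obtain ⟨v₀, hv₀, hv₀m⟩ := exists_ne_zero_of_minimal 𝔪 hmin
  -- the field and the vector space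
  letI : Field (D.TT S ⧸ 𝔪) := Ideal.Quotient.field 𝔪
  haveI hcharK : CharP (D.TT S ⧸ 𝔪) p := by
    rw [CharP.charP_iff_prime_eq_zero hp, ← map_natCast (Ideal.Quotient.mk 𝔪),
      Ideal.Quotient.eq_zero_iff_mem]
    exact hpm
  let V := Submodule.torsionBySet (D.TT S) (MM D S n) (𝔪 : Set (D.TT S))
  have hVmem : ∀ v : MM D S n, v ∈ V ↔ ∀ b ∈ 𝔪, b • v = 0 := by
    intro v
    rw [Submodule.mem_torsionBySet_iff]
    exact ⟨fun h b hb => h ⟨b, hb⟩, fun h b => h b.1 b.2⟩
  haveI : Finite V := Subtype.finite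
  haveI : Nontrivial V := ⟨⟨⟨v₀, (hVmem _).mpr hv₀m⟩, 0, fun h => hv₀ (congrArg Subtype.val h)⟩⟩
  haveI : FiniteDimensional (D.TT S ⧸ 𝔪) V := Module.Finite.of_finite
  let ρV : GQ →* Module.End (D.TT S ⧸ 𝔪) V :=
    { toFun := fun g =>
        { toFun := fun v => ⟨galHom n g v.1, (hVmem _).mpr fun b hb => by
            rw [← map_smul, (hVmem _).mp v.2 b hb, map_zero]⟩
          map_add' := fun v w => Subtype.ext (map_add (galHom n g) v.1 w.1)
          map_smul' := fun r v => by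
            obtain ⟨b, rfl⟩ := Ideal.Quotient.mk_surjective r
            apply Subtype.ext
            exact map_smul (galHom n g) b v.1 }
      map_one' := by
        ext v : 2
        show galHom n 1 v.1 = v.1
        rw [map_one]
        rfl
      map_mul' := fun g k => by
        ext v : 2
        show galHom n (g * k) v.1 = galHom n g (galHom n k v.1)
        rw [map_mul]
        rfl }
  have hρV : ∀ g (v : V), ((ρV g v : V) : MM D S n) = galHom n g v.1 := fun _ _ => rfl
  -- cyclotomic character and the trace function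
  let χ : GQ →* (D.TT S ⧸ 𝔪) :=
    ((ZMod.castHom (dvd_pow_self p (Nat.succ_ne_zero c)) (D.TT S ⧸ 𝔪)).comp
      (PadicInt.toZModPow n)).toMonoidHom.comp (cycP p)
  have hχ : ∀ g, χ g = ((PadicInt.toZModPow n (cycP p g)).val : D.TT S ⧸ 𝔪) := by
    intro g
    show ZMod.castHom (dvd_pow_self p (Nat.succ_ne_zero c)) (D.TT S ⧸ 𝔪)
      (PadicInt.toZModPow n (cycP p g)) = _
    haveI : NeZero (p ^ n) := ⟨pow_ne_zero n hp.ne_zero⟩
    rw [← map_natCast (ZMod.castHom (dvd_pow_self p (Nat.succ_ne_zero c)) (D.TT S ⧸ 𝔪)),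
      ZMod.natCast_val, ZMod.cast_id]
  choose x hx using fun g => exists_quad (D := D) (S := S) hS hN n g
  let t : GQ → (D.TT S ⧸ 𝔪) := fun g => Ideal.Quotient.mk 𝔪 (x g)
  have hquad : QuadRel ρV t χ := by
    intro g
    ext v
    have h1 := hx g v.1
    show galHom n g v.1 + (((χ g) • ρV g⁻¹ v : V) : MM D S n) = ((t g • v : V) : MM D S n)
    have h2 : (((χ g) • ρV g⁻¹ v : V) : MM D S n) =
        (PadicInt.toZModPow n (cycP p g)).val • galHom n g⁻¹ v.1 := by
      rw [hχ, Nat.cast_smul_eq_nsmul]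
      rfl
    rw [h2, h1]
    rfl
  obtain ⟨T, hT, hT1⟩ := exists_two_dim (ρ := ρV) hquad
    (fun U hU hirr => hirr.finrank_le_two_of_finite (hquad.res U hU))
  -- the embedding of the residue field
  let ι : (D.TT S ⧸ 𝔪) →+* k := Ideal.Quotient.lift 𝔪 lam (fun a ha => ha)
  refine ⟨(ι.mapMatrix (m := Fin 2)).toMonoidHom.comp T, ?_, ?_, ?_⟩
  · obtain ⟨L₁, hL₁, h₁⟩ := D.cont n
    obtain ⟨L₂, hL₂, h₂⟩ := cycP_finite p n
    refine ⟨L₁ ⊔ L₂, inferInstance, fun σ hσ => ?_⟩
    have e1 := h₁ σ (fun x hx => hσ x (le_sup_left (a := L₁) hx))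
    have e2 := h₂ σ (fun x hx => hσ x (le_sup_right (a := L₁) hx))
    have e3 : T σ = 1 := by
      refine hT1 σ ?_ ?_
      · ext v : 2
        rw [hρV, galHom_apply]
        have : (PadicInt.toZModPow n).mapMatrix (D.ρ σ) = 1 := by
          ext i j
          exact e1 i j
        rw [this, Matrix.one_mulVec]
        rfl
      · show ZMod.castHom (dvd_pow_self p (Nat.succ_ne_zero c)) (D.TT S ⧸ 𝔪)
          (PadicInt.toZModPow n (cycP p σ)) = _
        rw [e2, map_one]
    show ι.mapMatrix (T σ) = 1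
    rw [e3, map_one]
  · intro ℓ hℓ hℓN hℓS A hA τ hτ
    have htτ : t τ = Ideal.Quotient.mk 𝔪 ⟨D.T ℓ, T_mem hℓ hℓN hℓS⟩ := by
      have h1 : ∀ v : MM D S n, x τ • v = (⟨D.T ℓ, T_mem hℓ hℓN hℓS⟩ : D.TT S) • v := by
        intro v
        rw [← hx τ v, galHom_apply, galHom_apply, smul_MM]
        have h2 := th_frob (D := D) hℓ hℓN hA hτ
        have h3 : castHom D.r (ZMod (p ^ n)) (D.T ℓ) =
            (PadicInt.toZModPow n).mapMatrix (D.th τ) := by
          rw [h2]
          ext i j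
          rw [RingHom.mapMatrix_apply, Matrix.map_apply, castHom_apply, castHom_apply,
            map_intCast]
        rw [h3, th, map_add, Matrix.add_mulVec]
        congr 1
        haveI : NeZero (p ^ n) := ⟨pow_ne_zero n hp.ne_zero⟩
        have h4 : (PadicInt.toZModPow n).mapMatrix (cycP p τ • D.ρ τ⁻¹) =
            PadicInt.toZModPow n (cycP p τ) • (PadicInt.toZModPow n).mapMatrix (D.ρ τ⁻¹) := by
          ext i j
          simp
        rw [h4, Matrix.smul_mulVec]
        funext i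
        have h5 : ((PadicInt.toZModPow n (cycP p τ)).val •
          ((PadicInt.toZModPow n).mapMatrix (D.ρ τ⁻¹) *ᵥ
            (v : Fin D.r → ZMod (p ^ n)))) i = (PadicInt.toZModPow n (cycP p τ)).val •
            (((PadicInt.toZModPow n).mapMatrix (D.ρ τ⁻¹) *ᵥ
              (v : Fin D.r → ZMod (p ^ n))) i) := rfl
        refine h5.trans ?_
        rw [nsmul_eq_mul, ZMod.natCast_val, ZMod.cast_id]
        rfl
      rw [Ideal.Quotient.mk_eq_mk_iff_sub_mem]
      apply hann
      rw [Module.mem_annihilator]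
      intro v
      rw [sub_smul, h1 v, sub_self]
    have hχτ : χ τ = (ℓ : D.TT S ⧸ 𝔪) := by
      show ZMod.castHom (dvd_pow_self p (Nat.succ_ne_zero c)) (D.TT S ⧸ 𝔪)
        (PadicInt.toZModPow n (cycP p τ)) = _
      rw [cycP_frob p hℓ hA (ne_p hℓN) hτ, map_natCast, map_natCast]
    obtain ⟨h1, h2⟩ := hT τ
    constructor
    · show (ι.mapMatrix (T τ)).trace = _
      have h3 : (ι.mapMatrix (T τ)).trace = ι (T τ).trace := by
        rw [Matrix.trace_fin_two, Matrix.trace_fin_two, map_add]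
        rfl
      rw [h3, h1, htτ]
      rfl
    · show (ι.mapMatrix (T τ)).det = _
      rw [← RingHom.map_det, h2, hχτ, map_natCast]
  · intro q hq hqN A hA σ hσ
    have e3 : T σ = 1 := by
      refine hT1 σ ?_ ?_
      · ext v : 2
        rw [hρV, galHom_apply, D.inert q hq hqN A hA σ hσ, map_one, Matrix.one_mulVec]
        rfl
      · show ZMod.castHom (dvd_pow_self p (Nat.succ_ne_zero c)) (D.TT S ⧸ 𝔪)
          (PadicInt.toZModPow n (cycP p σ)) = _
        rw [cycP_inertia p hq hA (ne_p hqN) hσ, map_one, map_one]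
    show ι.mapMatrix (T σ) = 1
    rw [e3, map_one]

end HData

end Fermat.Agent.GalRep
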