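import Fermat.Agent.GalRep.Link
import Fermat.Agent.GalRep.Resid
import Fermat.Agent.DSLift.Lifting
import Fermat.Agent.S22
import Fermat.Prelude.Def_GaloisRep_Residual

set_option autoImplicit false
set_option maxHeartbeats 400000

/-!
# The statement S29 from linked Hecke-Galois data
-/

namespace Fermat.Agent.GalRep

open CuspForm Polynomial Fermat.Agent.DSLift ModularFormClass CongruenceSubgroup
open scoped TensorProduct

local notation "Qbar" => AlgebraicClosure ℚ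
local notation "GQ" => Qbar ≃ₐ[ℚ] Qbar

section EigChar

variable {N : ℕ} [NeZero N] {g : CuspForm (Gamma0 N) 2} (hg : g.IsNormalizedEigenform)

include hg in
lemma exists_eigenvalue (t : Module.End ℂ (CuspForm (Gamma0 N) 2)) (ht : t ∈ heckeAlgebra N 2 ∅) :
    ∃ c : ℂ, t g = c • g := by
  refine Algebra.adjoin_induction (p := fun t _ => ∃ c : ℂ, t g = c • g) ?_ ?_ ?_ ?_ ht
  · rintro t (⟨ℓ, hℓ, hℓN, -, rfl⟩ | ⟨q, hqN, hq, -, rfl⟩)
    · refine ⟨qCoeff g ℓ, ?_⟩
      have := heckeOp_apply_of_isNormalizedEigenform N hg hℓ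
      rwa [heckeOp_of_not_dvd hℓ hℓN] at this
    · refine ⟨qCoeff g q, ?_⟩
      have := heckeOp_apply_of_isNormalizedEigenform N hg hq
      rwa [heckeOp_of_dvd hq hqN] at this
  · intro r
    refine ⟨(r : ℂ), ?_⟩
    rw [Module.algebraMap_end_apply, Int.cast_smul_eq_zsmul]
  · rintro x y _ _ ⟨c, hc⟩ ⟨d, hd⟩
    exact ⟨c + d, by rw [LinearMap.add_apply, hc, hd, add_smul]⟩
  · rintro x y _ _ ⟨c, hc⟩ ⟨d, hd⟩
    exact ⟨c * d, by rw [Module.End.mul_apply, hd, map_smul, hc, smul_smul, mul_comm]⟩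

/-- eigenvalue -/
noncomputable def eigval (g : CuspForm (Gamma0 N) 2) (t : heckeAlgebra N 2 ∅) : ℂ :=
  qCoeffLin N 2 1 ((t : Module.End ℂ (CuspForm (Gamma0 N) 2)) g)

include hg in
lemma apply_eq_eigval (t : heckeAlgebra N 2 ∅) :
    (t : Module.End ℂ (CuspForm (Gamma0 N) 2)) g = eigval g t • g := by
  obtain ⟨c, hc⟩ := exists_eigenvalue hg t.1 t.2
  rw [eigval, hc, map_smul, qCoeffLin_apply, hg.qCoeff_one, smul_eq_mul, mul_one]

/-- the eigenvalue character -/
noncomputable def eigHom : heckeAlgebra N 2 ∅ →+* ℂ where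
  toFun := eigval g
  map_one' := by
    show qCoeffLin N 2 1 g = 1
    rw [qCoeffLin_apply, hg.qCoeff_one]
  map_mul' s t := by
    show qCoeffLin N 2 1 ((s : Module.End ℂ (CuspForm (Gamma0 N) 2)) ((t : Module.End ℂ _) g)) = _
    rw [apply_eq_eigval hg t, map_smul, map_smul, smul_eq_mul, mul_comm]
    rfl
  map_zero' := by
    show qCoeffLin N 2 1 0 = 0
    rw [map_zero]
  map_add' s t := by
    show qCoeffLin N 2 1 ((s : Module.End ℂ (CuspForm (Gamma0 N) 2)) g + (t : Module.End ℂ _) g) = _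
    rw [map_add]
    rfl

/-- the eigenvalue character with values in algebraic integers -/
noncomputable def eigChar : heckeAlgebra N 2 ∅ →+* integralClosure ℤ ℂ :=
  haveI : Module.Finite ℤ (heckeAlgebra N 2 ∅) := Fermat.Agent.S22.result N 2 ∅
  (eigHom hg).codRestrict (integralClosure ℤ ℂ).toSubring fun t =>
    (Algebra.IsIntegral.isIntegral (R := ℤ) t).map (eigHom hg).toIntAlgHom

lemma eigChar_T {ℓ : ℕ} (hℓ : ℓ.Prime) (hℓN : ¬ ℓ ∣ N) :
    ((eigChar hg (heckeAlgebra.T hℓ hℓN (Set.notMem_empty ℓ)) : integralClosure ℤ ℂ) : ℂ) =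
      qCoeff g ℓ := by
  show eigval g _ = _
  rw [eigval, heckeAlgebra.coe_T, ← heckeOp_of_not_dvd hℓ hℓN,
    heckeOp_apply_of_isNormalizedEigenform N hg hℓ, map_smul, qCoeffLin_apply, hg.qCoeff_one,
    smul_eq_mul, mul_one]

end EigChar

/-- the residual representation attached to a matrix representation of finite level -/
noncomputable def matResRep {k : Type} [Field k] (T : GQ →* Matrix (Fin 2) (Fin 2) k)
    (hT : ∃ L : IntermediateField ℚ Qbar, FiniteDimensional ℚ L ∧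
        ∀ σ : GQ, (∀ x ∈ L, σ x = x) → T σ = 1) : ResidualGaloisRep k where
  V := Fin 2 → k
  finrank_eq := by simp
  ρ := { toFun := fun σ => Matrix.toLin' (T σ)
         map_one' := by rw [map_one, Matrix.toLin'_one]; rfl
         map_mul' := fun σ τ => by rw [map_mul, Matrix.toLin'_mul]; rfl }
  factorsThroughFiniteLevel := by
    obtain ⟨L, hL, h⟩ := hT
    refine ⟨L, hL, fun σ hσ => ?_⟩
    show Matrix.toLin' (T σ) = 1
    rw [h σ hσ, Matrix.toLin'_one]
    rfl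

lemma charpoly_matResRep {k : Type} [Field k] (T : GQ →* Matrix (Fin 2) (Fin 2) k)
    (hT : ∃ L : IntermediateField ℚ Qbar, FiniteDimensional ℚ L ∧
        ∀ σ : GQ, (∀ x ∈ L, σ x = x) → T σ = 1) (σ : GQ) :
    LinearMap.charpoly ((matResRep T hT).ρ σ) = X ^ 2 - C (T σ).trace * X + C (T σ).det := by
  rw [← Matrix.charpoly_fin_two]
  exact Matrix.charpoly_toLin' (T σ)

/-- S29 from linked data -/
theorem s29_of_link (hlink : ∀ (N p : ℕ) [NeZero N] [Fact p.Prime], ∃ D : HData N p, D.Link)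
    {N : ℕ} {g : CuspForm (CongruenceSubgroup.Gamma0 N) 2} (hg : g.IsNormalizedEigenform)
    {p : ℕ} (hp : p.Prime) {k : Type} [Field k] [CharP k p]
    (φ : integralClosure ℤ ℂ →+* k) :
    ∃ ρ : ResidualGaloisRep k, ρ.IsAttachedTo g φ ∧
      ∀ ℓ : ℕ, ℓ.Prime → ¬ ℓ ∣ N * p → ρ.IsUnramifiedAt ℓ := by
  rcases Nat.eq_zero_or_pos N with hN | hN
  · subst hN
    refine ⟨matResRep 1 ⟨⊥, inferInstance, fun _ _ => rfl⟩, ?_, ?_⟩
    · intro ℓ hℓ hℓN
      exact absurd (dvd_zero ℓ) hℓN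
    · intro ℓ hℓ hℓN
      exact absurd (by simp) hℓN
  · haveI : NeZero N := ⟨hN.ne'⟩
    haveI : Fact p.Prime := ⟨hp⟩
    obtain ⟨D, hD⟩ := hlink N p
    obtain ⟨T, hT, hfr, hin⟩ := HData.exists_residual (D := D) (S := ∅) Set.finite_empty
      (NeZero.ne N) (φ.comp ((eigChar hg).comp (HData.Phi ∅ hD)))
    refine ⟨matResRep T hT, ?_, ?_⟩
    · intro ℓ hℓ hℓN hℓk A hA σ hσ
      have hℓNp : ¬ ℓ ∣ N * p := by
        intro h
        rcases hℓ.dvd_mul.mp h with h | h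
        · exact hℓN h
        · rw [(Nat.prime_dvd_prime_iff_eq hℓ hp).mp h] at hℓk
          exact hℓk (CharP.cast_eq_zero k p)
      obtain ⟨h1, h2⟩ := hfr ℓ hℓ hℓNp (Set.notMem_empty ℓ) A hA σ hσ
      rw [RingHom.comp_apply, RingHom.comp_apply, HData.Phi_T _ hD hℓ hℓNp] at h1
      refine ⟨_, eigChar_T hg hℓ hℓN, ?_⟩
      rw [charpoly_matResRep, h1, h2]
    · intro ℓ hℓ hℓN A hA σ hσ
      have := hin ℓ hℓ hℓN A hA σ hσ
      change Matrix.toLin' (T σ) = 1
      rw [this, Matrix.toLin'_one]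
      rfl

end Fermat.Agent.GalRep
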