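import Mathlib

set_option autoImplicit false
set_option maxHeartbeats 400000

/-!
# Group representations satisfying a quadratic relation

`G` group, `ρ : G → End W`, with `ρ g + χ g • ρ g⁻¹ = t g` scalar for all `g`.
If `W` is irreducible and the base field is finite or algebraically closed then `dim W ≤ 2`.
-/

namespace Fermat.Agent.GalRep

open Module

section Basic

variable {G K W : Type*} [Group G] [Field K] [AddCommGroup W] [Module K W]
  (ρ : G →* Module.End K W) (t : G → K) (χ : G →* K)

/-- the quadratic relation -/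
def QuadRel : Prop := ∀ g : G, ρ g + χ g • ρ g⁻¹ = t g • (1 : Module.End K W)

/-- no invariant subspaces -/
def Irred : Prop := ∀ U : Submodule K W, (∀ g, ∀ x ∈ U, ρ g x ∈ U) → U = ⊥ ∨ U = ⊤

variable {ρ t χ}

lemma QuadRel.comm (h : QuadRel ρ t χ) (g k : G) :
    ρ g * ρ k + ρ k * ρ g =
      t g • ρ k + t k • ρ g + (t (g * k) - t g * t k) • (1 : Module.End K W) := by
  have h1 : χ k • ρ k⁻¹ = t k • (1 : Module.End K W) - ρ k := by rw [← h k]; abel
  have h2 : χ g • ρ g⁻¹ = t g • (1 : Module.End K W) - ρ g := by rw [← h g]; abel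
  have h3 := h (g * k)
  have h4 : χ (g * k) • ρ (g * k)⁻¹ = (χ k • ρ k⁻¹) * (χ g • ρ g⁻¹) := by
    rw [mul_inv_rev, map_mul, map_mul, smul_mul_smul_comm, mul_comm (χ g)]
  rw [h4, h1, h2, map_mul] at h3
  have h5 : ρ g * ρ k = t (g * k) • (1 : Module.End K W) -
      (t k • (1 : Module.End K W) - ρ k) * (t g • (1 : Module.End K W) - ρ g) := by
    rw [← h3]; abel
  rw [h5]
  simp only [sub_mul, mul_sub, smul_mul_assoc, one_mul, mul_smul_comm, mul_one, sub_smul,
    smul_smul]
  rw [mul_comm (t g) (t k)]
  module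

lemma QuadRel.sq (h : QuadRel ρ t χ) (g : G) :
    ρ g * ρ g - t g • ρ g + χ g • (1 : Module.End K W) = 0 := by
  have h1 := congrArg (fun x => x * ρ g) (h g)
  simp only [add_mul, smul_mul_assoc, one_mul] at h1
  rw [← map_mul ρ g⁻¹ g, inv_mul_cancel, map_one] at h1
  rw [← h1]
  abel

variable (ρ t) in
/-- partial commutation relation -/
def PRel (x : Module.End K W) (a : K) : Prop :=
  ∀ g, ∃ c : K, x * ρ g + ρ g * x = a • ρ g + t g • x + c • (1 : Module.End K W)

lemma QuadRel.prel (h : QuadRel ρ t χ) (g : G) : PRel ρ t (ρ g) (t g) := fun k =>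
  ⟨_, h.comm g k⟩

lemma PRel.add {x y : Module.End K W} {a b : K} (hx : PRel ρ t x a) (hy : PRel ρ t y b) :
    PRel ρ t (x + y) (a + b) := by
  intro g
  obtain ⟨c, hc⟩ := hx g
  obtain ⟨d, hd⟩ := hy g
  refine ⟨c + d, ?_⟩
  have : (x + y) * ρ g + ρ g * (x + y) = (x * ρ g + ρ g * x) + (y * ρ g + ρ g * y) := by
    rw [add_mul, mul_add]; abel
  rw [this, hc, hd]
  module

lemma PRel.smul {x : Module.End K W} {a : K} (hx : PRel ρ t x a) (r : K) :
    PRel ρ t (r • x) (r * a) := by
  intro g
  obtain ⟨c, hc⟩ := hx g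
  refine ⟨r * c, ?_⟩
  have : (r • x) * ρ g + ρ g * (r • x) = r • (x * ρ g + ρ g * x) := by
    rw [smul_mul_assoc, mul_smul_comm, smul_add]
  rw [this, hc]
  module

lemma PRel.zero : PRel ρ t (0 : Module.End K W) 0 := fun g => ⟨0, by simp⟩

lemma QuadRel.prel_of_mem_span (h : QuadRel ρ t χ) {x : Module.End K W}
    (hx : x ∈ Submodule.span K (Set.range ρ)) : ∃ a, PRel ρ t x a := by
  induction hx using Submodule.span_induction with
  | mem x hx => obtain ⟨g, rfl⟩ := hx; exact ⟨_, h.prel g⟩
  | zero => exact ⟨0, PRel.zero⟩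
  | add x y _ _ hx hy =>
    obtain ⟨a, ha⟩ := hx
    obtain ⟨b, hb⟩ := hy
    exact ⟨_, ha.add hb⟩
  | smul r x _ hx =>
    obtain ⟨a, ha⟩ := hx
    exact ⟨_, ha.smul r⟩

lemma Irred.span_eq_top (hirr : Irred ρ) {v : W} (hv : v ≠ 0) :
    Submodule.span K (Set.range fun g => ρ g v) = ⊤ := by
  rcases hirr (Submodule.span K (Set.range fun g => ρ g v)) (fun g x hx => by
    induction hx using Submodule.span_induction with
    | mem x hx =>
      obtain ⟨k, rfl⟩ := hx
      refine Submodule.subset_span ⟨g * k, ?_⟩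
      simp [map_mul]
    | zero => rw [map_zero]; exact Submodule.zero_mem _
    | add x y _ _ hx hy => rw [map_add]; exact Submodule.add_mem _ hx hy
    | smul r x _ hx => rw [map_smul]; exact Submodule.smul_mem _ _ hx) with h | h
  · exfalso
    apply hv
    have : v ∈ Submodule.span K (Set.range fun g => ρ g v) :=
      Submodule.subset_span ⟨1, by simp⟩
    rw [h, Submodule.mem_bot] at this
    exact this
  · exact h

/-- eigenvector lemma -/
lemma eigen_lemma (hirr : Irred ρ) {x : Module.End K W} {a : K} (hx : PRel ρ t x a)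
    {v : W} (hv : v ≠ 0) {α : K} (hα : x v = α • v) (w : W) :
    x w - (a - α) • w ∈ Submodule.span K {v} := by
  have hw : w ∈ Submodule.span K (Set.range fun g => ρ g v) := by
    rw [hirr.span_eq_top hv]; trivial
  induction hw using Submodule.span_induction with
  | mem w hw =>
    obtain ⟨g, rfl⟩ := hw
    obtain ⟨c, hc⟩ := hx g
    have h1 := LinearMap.congr_fun hc v
    simp only [LinearMap.add_apply, Module.End.mul_apply, LinearMap.smul_apply,
      Module.End.one_apply] at h1
    rw [hα, map_smul] at h1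
    have h2 : x (ρ g v) - (a - α) • ρ g v = (t g * α + c) • v := by
      rw [← add_sub_cancel_right (x (ρ g v)) (α • ρ g v), h1]
      module
    show x (ρ g v) - (a - α) • ρ g v ∈ _
    rw [h2]
    exact Submodule.smul_mem _ _ (Submodule.mem_span_singleton_self v)
  | zero => rw [map_zero, smul_zero, sub_zero]; exact Submodule.zero_mem _
  | add x' y' _ _ hx' hy' =>
    have : x (x' + y') - (a - α) • (x' + y') =
        (x x' - (a - α) • x') + (x y' - (a - α) • y') := by
      rw [map_add]; module
    rw [this]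
    exact Submodule.add_mem _ hx' hy'
  | smul r x' _ hx' =>
    have : x (r • x') - (a - α) • (r • x') = r • (x x' - (a - α) • x') := by
      rw [map_smul]; module
    rw [this]
    exact Submodule.smul_mem _ _ hx'

omit [Group G] in
lemma finrank_line_le (v : W) : finrank K (Submodule.span K {v}) ≤ 1 := by
  simpa using finrank_span_le_card (R := K) ({v} : Set W)

/-- the kernel of a map with image in a line -/
lemma finrank_ker_ge [FiniteDimensional K W] (x : Module.End K W) (v : W)
    (h : ∀ w, x w ∈ Submodule.span K {v}) :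
    finrank K W ≤ finrank K (LinearMap.ker x) + 1 := by
  have h1 := LinearMap.finrank_range_add_finrank_ker x
  have h2 : LinearMap.range x ≤ Submodule.span K {v} := by
    rintro _ ⟨w, rfl⟩
    exact h w
  have h3 := Submodule.finrank_mono h2
  have h4 := finrank_line_le (K := K) v
  omega

/-- **Scalar lemma**: in dimension `≥ 3` an element with an eigenvector is scalar -/
lemma scalar_lemma [FiniteDimensional K W] (hirr : Irred ρ) (h3 : 3 ≤ finrank K W)
    {x : Module.End K W} {a : K} (hx : PRel ρ t x a)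
    {v : W} (hv : v ≠ 0) {α : K} (hα : x v = α • v) : ∀ w, x w = α • w := by
  have key : ∀ (β : K) (u : W), u ≠ 0 → x u = β • u →
      2 ≤ finrank K (LinearMap.ker (x - (a - β) • (1 : Module.End K W))) := by
    intro β u hu hβ
    have h1 := finrank_ker_ge (x - (a - β) • (1 : Module.End K W)) u
      (fun w => eigen_lemma hirr hx hu hβ w)
    omega
  have hk1 := key α v hv hα
  -- an eigenvector for a - α
  obtain ⟨v', hv'ker, hv'⟩ : ∃ v' ∈ LinearMap.ker (x - (a - α) • (1 : Module.End K W)),
      v' ≠ 0 := by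
    refine Submodule.exists_mem_ne_zero_of_ne_bot fun h0 => ?_
    rw [h0, finrank_bot] at hk1
    omega
  have hv'e : x v' = (a - α) • v' := by
    rw [LinearMap.mem_ker] at hv'ker
    exact sub_eq_zero.mp hv'ker
  -- kernels have a common nonzero vector
  have hcodim1 := finrank_ker_ge (x - (a - α) • (1 : Module.End K W)) v
    (fun w => eigen_lemma hirr hx hv hα w)
  have hcodim2 := finrank_ker_ge (x - (a - (a - α)) • (1 : Module.End K W)) v'
    (fun w => eigen_lemma hirr hx hv' hv'e w)
  have hinf : 0 < finrank K ↥(LinearMap.ker (x - (a - α) • (1 : Module.End K W)) ⊓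
      LinearMap.ker (x - (a - (a - α)) • (1 : Module.End K W))) := by
    have h4 := Submodule.finrank_sup_add_finrank_inf_eq
      (LinearMap.ker (x - (a - α) • (1 : Module.End K W)))
      (LinearMap.ker (x - (a - (a - α)) • (1 : Module.End K W)))
    have h5 := Submodule.finrank_le (LinearMap.ker (x - (a - α) • (1 : Module.End K W)) ⊔
      LinearMap.ker (x - (a - (a - α)) • (1 : Module.End K W)))
    omega
  obtain ⟨u, hu, hu0⟩ : ∃ u ∈ (LinearMap.ker (x - (a - α) • (1 : Module.End K W)) ⊓
      LinearMap.ker (x - (a - (a - α)) • (1 : Module.End K W))), u ≠ 0 := by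
    refine Submodule.exists_mem_ne_zero_of_ne_bot fun h0 => ?_
    rw [h0, finrank_bot] at hinf
    omega
  have haα : a - α = α := by
    obtain ⟨hu1, hu2⟩ := hu
    have e1 : x u = (a - α) • u := sub_eq_zero.mp hu1
    have e2 : x u = (a - (a - α)) • u := sub_eq_zero.mp hu2
    rw [e1] at e2
    have e3 := smul_left_injective K hu0 e2
    simpa using e3
  -- image of x - α is in every eigenline
  have himg : ∀ u : W, u ≠ 0 → x u = α • u → ∀ w, x w - α • w ∈ Submodule.span K {u} := by
    intro u hu0 hu w
    have := eigen_lemma hirr hx hu0 hu w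
    rwa [haα] at this
  rw [haα] at hk1
  intro w
  -- two independent eigenvectors
  obtain ⟨v1, hv1, hv1'⟩ : ∃ v1 ∈ LinearMap.ker (x - α • (1 : Module.End K W)),
      v1 ∉ Submodule.span K {v} := by
    by_contra hcon
    push Not at hcon
    have hle : LinearMap.ker (x - α • (1 : Module.End K W)) ≤ Submodule.span K {v} := hcon
    have h6 := Submodule.finrank_mono hle
    have h7 := finrank_line_le (K := K) v
    omega
  have hv1e : x v1 = α • v1 := sub_eq_zero.mp hv1
  have hv10 : v1 ≠ 0 := fun h0 => hv1' (h0 ▸ Submodule.zero_mem _)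
  have m1 := himg v hv hα w
  have m2 := himg v1 hv10 hv1e w
  rw [Submodule.mem_span_singleton] at m1 m2
  obtain ⟨c, hc⟩ := m1
  obtain ⟨d, hd⟩ := m2
  by_cases hd0 : d = 0
  · rw [hd0, zero_smul] at hd
    exact (sub_eq_zero.mp hd.symm)
  · exfalso
    apply hv1'
    rw [Submodule.mem_span_singleton]
    refine ⟨d⁻¹ * c, ?_⟩
    rw [mul_smul, hc, ← hd, smul_smul, inv_mul_cancel₀ hd0, one_smul]

lemma Irred.finrank_le_one_of_scalar (hirr : Irred ρ)
    (hs : ∀ g, ∃ s : K, ∀ w, ρ g w = s • w) : finrank K W ≤ 1 := by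
  by_cases hW : ∃ v : W, v ≠ 0
  · obtain ⟨v, hv⟩ := hW
    rcases hirr (Submodule.span K {v}) (fun g x hx => by
      obtain ⟨s, hs⟩ := hs g
      rw [hs]
      exact Submodule.smul_mem _ _ hx) with h | h
    · exfalso
      apply hv
      have := Submodule.mem_span_singleton_self (R := K) v
      rw [h, Submodule.mem_bot] at this
      exact this
    · have h1 := finrank_line_le (K := K) v
      rw [h, finrank_top] at h1
      exact h1
  · push Not at hW
    haveI : Subsingleton W := ⟨fun a b => by rw [hW a, hW b]⟩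
    rw [finrank_zero_of_subsingleton]
    exact zero_le_one

/-- **Dimension bound**, algebraically closed case -/
theorem Irred.finrank_le_two_of_isAlgClosed [IsAlgClosed K] [FiniteDimensional K W]
    (hirr : Irred ρ) (h : QuadRel ρ t χ) : finrank K W ≤ 2 := by
  by_contra hcon
  push Not at hcon
  haveI : Nontrivial W := Module.nontrivial_of_finrank_pos (R := K) (by omega)
  have hs : ∀ g, ∃ s : K, ∀ w, ρ g w = s • w := by
    intro g
    obtain ⟨α, hα⟩ := Module.End.exists_eigenvalue (ρ g)
    obtain ⟨v, hv⟩ := hα.exists_hasEigenvector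
    exact ⟨α, scalar_lemma hirr hcon (h.prel g) hv.2 hv.apply_eq_smul⟩
  have := hirr.finrank_le_one_of_scalar hs
  omega

lemma mul_mem_span_range {x y : Module.End K W} (hx : x ∈ Submodule.span K (Set.range ρ))
    (hy : y ∈ Submodule.span K (Set.range ρ)) : x * y ∈ Submodule.span K (Set.range ρ) := by
  have h1 : x * y ∈ Submodule.span K (Set.range ρ) * Submodule.span K (Set.range ρ) :=
    Submodule.mul_mem_mul hx hy
  rw [Submodule.span_mul_span] at h1
  refine Submodule.span_mono ?_ h1
  rintro _ ⟨_, ⟨g, rfl⟩, _, ⟨k, rfl⟩, rfl⟩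
  exact ⟨g * k, by simp [map_mul]⟩

/-- **Dimension bound**, finite case -/
theorem Irred.finrank_le_two_of_finite [Finite K] [FiniteDimensional K W]
    (hirr : Irred ρ) (h : QuadRel ρ t χ) : finrank K W ≤ 2 := by
  classical
  by_contra hcon
  push Not at hcon
  haveI : Nontrivial W := Module.nontrivial_of_finrank_pos (R := K) (by omega)
  haveI : Finite W := Module.finite_of_finite K
  haveI : Finite (Module.End K W) := DFunLike.finite _
  let A : Subalgebra K (Module.End K W) :=
    { carrier := Submodule.span K (Set.range ρ)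
      mul_mem' := mul_mem_span_range
      one_mem' := Submodule.subset_span ⟨1, map_one ρ⟩
      add_mem' := Submodule.add_mem _
      zero_mem' := Submodule.zero_mem _
      algebraMap_mem' := fun r => by
        rw [Algebra.algebraMap_eq_smul_one]
        exact Submodule.smul_mem _ _ (Submodule.subset_span ⟨1, map_one ρ⟩) }
  -- nonzero elements of A are injective
  have hinj : ∀ x ∈ Submodule.span K (Set.range ρ), x ≠ 0 → ∀ w, x w = 0 → w = 0 := by
    intro x hx hx0 w hw
    by_contra hw0
    obtain ⟨a, ha⟩ := h.prel_of_mem_span hx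
    have := scalar_lemma hirr hcon ha hw0 (α := 0) (by rw [hw, zero_smul])
    apply hx0
    ext u
    rw [this u, zero_smul, LinearMap.zero_apply]
  haveI : Finite A := Subtype.finite
  haveI : Nontrivial A := ⟨⟨0, 1, fun h => zero_ne_one (congrArg Subtype.val h)⟩⟩
  haveI : NoZeroDivisors A := by
    refine ⟨fun {x y} hxy => ?_⟩
    by_contra hne
    push Not at hne
    obtain ⟨hx, hy⟩ := hne
    apply hy
    apply Subtype.ext
    ext w
    have h1 := LinearMap.congr_fun (congrArg Subtype.val hxy) w
    exact hinj x.1 x.2 (fun h0 => hx (Subtype.ext h0)) _ h1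
  haveI : IsDomain A := NoZeroDivisors.to_isDomain A
  have hcommA := (Finite.isDomain_to_isField A).mul_comm
  have hcomm : ∀ g k, ρ g * ρ k = ρ k * ρ g := fun g k =>
    congrArg Subtype.val (hcommA ⟨ρ g, Submodule.subset_span ⟨g, rfl⟩⟩
      ⟨ρ k, Submodule.subset_span ⟨k, rfl⟩⟩)
  -- there is a nonscalar g
  obtain ⟨g, hg⟩ : ∃ g, ¬ ∃ s : K, ρ g = s • (1 : Module.End K W) := by
    by_contra hall
    push Not at hall
    have := hirr.finrank_le_one_of_scalar (fun g => by
      obtain ⟨s, hs⟩ := hall g
      exact ⟨s, fun w => by rw [hs]; rfl⟩)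
    omega
  -- δ = 2 g - t g is nonzero
  set δ : Module.End K W := (2 : K) • ρ g - t g • (1 : Module.End K W) with hδ
  have hδmem : δ ∈ Submodule.span K (Set.range ρ) :=
    Submodule.sub_mem _ (Submodule.smul_mem _ _ (Submodule.subset_span ⟨g, rfl⟩))
      (Submodule.smul_mem _ _ (Submodule.subset_span ⟨1, map_one ρ⟩))
  have hδ0 : δ ≠ 0 := by
    intro h0
    by_cases h2 : (2 : K) = 0
    · rw [hδ, h2, zero_smul, zero_sub, neg_eq_zero] at h0
      have ht : t g = 0 := by
        rcases smul_eq_zero.mp h0 with h1 | h1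
        · exact h1
        · exact absurd h1 one_ne_zero
      -- g² = χ g, which is a square
      have hsq := h.sq g
      rw [ht, zero_smul, sub_zero] at hsq
      haveI : CharP K 2 := by
        rw [CharP.charP_iff_prime_eq_zero Nat.prime_two]
        exact_mod_cast h2
      obtain ⟨s, hs⟩ := FiniteField.isSquare_of_char_two (F := K) (ringChar.eq K 2) (χ g)
      have h4 : (ρ g + s • (1 : Module.End K W)) * (ρ g + s • (1 : Module.End K W)) = 0 := by
        have h5 : (ρ g + s • (1 : Module.End K W)) * (ρ g + s • (1 : Module.End K W)) =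
            (ρ g * ρ g + χ g • (1 : Module.End K W)) + ((2 : K) * s) • ρ g := by
          rw [hs]
          simp only [add_mul, mul_add, smul_mul_assoc, mul_smul_comm, one_mul, mul_one, smul_smul]
          module
        rw [h5, hsq, h2, zero_mul, zero_smul, add_zero]
      have hmem : ρ g + s • (1 : Module.End K W) ∈ A :=
        Submodule.add_mem _ (Submodule.subset_span ⟨g, rfl⟩)
          (Submodule.smul_mem _ _ (Submodule.subset_span ⟨1, map_one ρ⟩))
      have h6 : (⟨_, hmem⟩ : A) * ⟨_, hmem⟩ = 0 := Subtype.ext h4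
      have h7 : ρ g + s • (1 : Module.End K W) = 0 :=
        congrArg Subtype.val (mul_self_eq_zero.mp h6)
      exact hg ⟨-s, by rw [neg_smul]; exact eq_neg_of_add_eq_zero_left h7⟩
    · apply hg
      refine ⟨(2 : K)⁻¹ * t g, ?_⟩
      rw [mul_smul, ← sub_eq_zero.mp h0, smul_smul, inv_mul_cancel₀ h2, one_smul]
  obtain ⟨v, hv⟩ := exists_ne (0 : W)
  let U : Submodule K W := Submodule.span K {v, ρ g v}
  have hUg : ∀ u ∈ U, ρ g u ∈ U := by
    intro u hu
    rw [Submodule.mem_span_pair] at hu
    obtain ⟨a, b, rfl⟩ := hu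
    have hsq := LinearMap.congr_fun (h.sq g) v
    simp only [LinearMap.add_apply, LinearMap.sub_apply, Module.End.mul_apply,
      LinearMap.smul_apply, Module.End.one_apply, LinearMap.zero_apply] at hsq
    rw [Submodule.mem_span_pair]
    refine ⟨-(b * χ g), a + b * t g, ?_⟩
    rw [map_add, map_smul, map_smul]
    have : ρ g (ρ g v) = t g • ρ g v - χ g • v := by
      rw [← sub_eq_zero, ← hsq]; abel
    rw [this]
    module
  have hUδ : ∀ u ∈ U, δ u ∈ U := by
    intro u hu
    show (2 : K) • ρ g u - t g • u ∈ U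
    exact Submodule.sub_mem _ (Submodule.smul_mem _ _ (hUg u hu)) (Submodule.smul_mem _ _ hu)
  have hvU : v ∈ U := Submodule.subset_span (Set.mem_insert _ _)
  have hgvU : ρ g v ∈ U := Submodule.subset_span (Set.mem_insert_of_mem _ rfl)
  have htop : (⊤ : Submodule K W) ≤ U := by
    rw [← hirr.span_eq_top hv, Submodule.span_le]
    rintro _ ⟨k, rfl⟩
    show ρ k v ∈ U
    -- δ (ρ k v) ∈ U
    have h1 : δ (ρ k v) = t k • ρ g v + (t (g * k) - t g * t k) • v := by
      have h2 := LinearMap.congr_fun (h.comm g k) v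
      rw [← hcomm g k] at h2
      simp only [LinearMap.add_apply, LinearMap.smul_apply, Module.End.mul_apply,
        Module.End.one_apply] at h2
      show (2 : K) • ρ g (ρ k v) - t g • ρ k v = _
      rw [two_smul, h2]
      module
    have h2 : δ (ρ k v) ∈ U := by
      rw [h1]
      exact Submodule.add_mem _ (Submodule.smul_mem _ _ hgvU) (Submodule.smul_mem _ _ hvU)
    -- δ is bijective on U
    let δU : U →ₗ[K] U := δ.restrict hUδ
    have hδUinj : Function.Injective δU := by
      rw [← LinearMap.ker_eq_bot, LinearMap.ker_eq_bot']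
      intro u hu
      apply Subtype.ext
      exact hinj δ hδmem hδ0 u.1 (congrArg Subtype.val hu)
    have hδUsurj : Function.Surjective δU := LinearMap.injective_iff_surjective.mp hδUinj
    obtain ⟨u, hu⟩ := hδUsurj ⟨_, h2⟩
    have h3 : δ (u : W) = δ (ρ k v) := congrArg Subtype.val hu
    have h4 : δ ((u : W) - ρ k v) = 0 := by rw [map_sub, h3, sub_self]
    have h5 := hinj δ hδmem hδ0 _ h4
    rw [← sub_eq_zero.mp h5]
    exact u.2
  have h6 := Submodule.finrank_mono htop
  rw [finrank_top] at h6
  have h7 := finrank_span_finset_le_card (R := K) ({v, ρ g v} : Finset W)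
  have h8 : ({v, ρ g v} : Finset W).card ≤ 2 := Finset.card_le_two
  rw [Finset.coe_insert, Finset.coe_singleton] at h7
  change finrank K U ≤ _ at h7
  omega

end Basic

end Fermat.Agent.GalRep
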